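import Mathlib

/-!
# Index of the subgroup of `m`-th powers

Elementary lemmas on the index of the subgroup of `m`-th powers of a commutative group:
invariance under isomorphism, multiplicativity for products, the value `m ^ n` for `ℤ ^ n`,
and the case of a group with a "fundamental system" relative to a subgroup.
-/

set_option autoImplicit false

namespace Fermat.Agent.H43.Cft

/-- the index of the subgroup of `m`-th powers. -/
noncomputable def powIndex (G : Type*) [CommGroup G] (m : ℕ) : ℕ :=
  (powMonoidHom m : G →* G).range.index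

lemma powIndex_def (G : Type*) [CommGroup G] (m : ℕ) :
    powIndex G m = (powMonoidHom m : G →* G).range.index := rfl

lemma powIndex_congr {G H : Type*} [CommGroup G] [CommGroup H] (e : G ≃* H) (m : ℕ) :
    powIndex G m = powIndex H m := by
  unfold powIndex
  have h : (powMonoidHom m : H →* H).range =
      (powMonoidHom m : G →* G).range.map (e : G →* H) := by
    ext y
    constructor
    · rintro ⟨x, rfl⟩
      refine ⟨(e.symm x) ^ m, ⟨e.symm x, rfl⟩, ?_⟩
      simp
    · rintro ⟨_, ⟨x, rfl⟩, rfl⟩
      exact ⟨e x, by simp⟩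
  rw [h]
  exact (Subgroup.index_map_equiv _ e).symm

lemma powIndex_prod (G H : Type*) [CommGroup G] [CommGroup H] (m : ℕ) :
    powIndex (G × H) m = powIndex G m * powIndex H m := by
  unfold powIndex
  have h : (powMonoidHom m : G × H →* G × H).range =
      (powMonoidHom m : G →* G).range.prod (powMonoidHom m : H →* H).range := by
    ext ⟨a, b⟩
    constructor
    · rintro ⟨⟨x, y⟩, hxy⟩
      simp only [powMonoidHom_apply, Prod.pow_mk, Prod.mk.injEq] at hxy
      exact ⟨⟨x, hxy.1⟩, ⟨y, hxy.2⟩⟩
    · rintro ⟨⟨x, hx⟩, ⟨y, hy⟩⟩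
      simp only [powMonoidHom_apply] at hx hy
      exact ⟨(x, y), by simp [hx, hy]⟩
  rw [h, Subgroup.index_prod]

lemma powIndex_multiplicative_pi (ι : Type*) [Fintype ι] (m : ℕ) :
    powIndex (Multiplicative (ι → ℤ)) m = m ^ Fintype.card ι := by
  unfold powIndex
  have h : (powMonoidHom m : Multiplicative (ι → ℤ) →* Multiplicative (ι → ℤ)).range =
      AddSubgroup.toSubgroup (nsmulAddMonoidHom (α := ι → ℤ) m).range := by
    ext y
    constructor
    · rintro ⟨x, rfl⟩
      exact ⟨Multiplicative.toAdd x, rfl⟩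
    · rintro ⟨x, hx⟩
      exact ⟨Multiplicative.ofAdd x, hx⟩
  rw [h, AddSubgroup.index_toSubgroup, AddSubgroup.index_range_nsmul,
    Module.finrank_fintype_fun_eq_card]

lemma powIndex_of_isCyclic (G : Type*) [CommGroup G] [IsCyclic G] [Finite G] (m : ℕ) :
    powIndex G m = (Nat.card G).gcd m :=
  IsCyclic.index_powMonoidHom_range G m

/-- the homomorphism `e ↦ ∏ i, u i ^ e i`. -/
noncomputable def prodZpow {G : Type*} [CommGroup G] {n : ℕ} (u : Fin n → G) :
    Multiplicative (Fin n → ℤ) →* G where
  toFun e := ∏ i, u i ^ (Multiplicative.toAdd e i)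
  map_one' := by simp
  map_mul' e f := by
    rw [← Finset.prod_mul_distrib]
    refine Finset.prod_congr rfl fun i _ => ?_
    rw [toAdd_mul, Pi.add_apply, zpow_add]

lemma prodZpow_apply {G : Type*} [CommGroup G] {n : ℕ} (u : Fin n → G)
    (e : Multiplicative (Fin n → ℤ)) :
    prodZpow u e = ∏ i, u i ^ (Multiplicative.toAdd e i) := rfl

/-- A commutative group with a "fundamental system" `u` relative to the image of `ι` is
isomorphic to a product. -/
noncomputable def equivOfFundSystem {G H : Type*} [CommGroup G] [CommGroup H] {n : ℕ}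
    (ι : H →* G) (u : Fin n → G)
    (h : ∀ x : G, ∃! he : H × (Fin n → ℤ), x = ι he.1 * ∏ i, u i ^ he.2 i) :
    H × Multiplicative (Fin n → ℤ) ≃* G :=
  MulEquiv.ofBijective (ι.coprod (prodZpow u)) (by
    constructor
    · intro a b hab
      obtain ⟨he, -, huniq⟩ := h ((ι.coprod (prodZpow u)) a)
      have ha := huniq (a.1, Multiplicative.toAdd a.2) rfl
      have hb := huniq (b.1, Multiplicative.toAdd b.2) hab
      have := ha.trans hb.symm
      simp only [Prod.mk.injEq] at this
      exact Prod.ext this.1 this.2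
    · intro x
      obtain ⟨he, hx, -⟩ := h x
      exact ⟨(he.1, Multiplicative.ofAdd he.2), hx.symm⟩)

lemma powIndex_of_fundSystem {G H : Type*} [CommGroup G] [CommGroup H] {n : ℕ}
    (ι : H →* G) (u : Fin n → G)
    (h : ∀ x : G, ∃! he : H × (Fin n → ℤ), x = ι he.1 * ∏ i, u i ^ he.2 i) (m : ℕ) :
    powIndex G m = powIndex H m * m ^ n := by
  rw [← powIndex_congr (equivOfFundSystem ι u h), powIndex_prod, powIndex_multiplicative_pi,
    Fintype.card_fin]

end Fermat.Agent.H43.Cft
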