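import Mathlib
import Fermat.Agent.H43.Cft.PowIndex

/-!
# Dirichlet's `S`-unit theorem

For a number field `K` and a finite set `S` of finite places, the group of `S`-units is
isomorphic to `(𝓞 K)ˣ × ℤ ^ #S`.  Consequently it is finitely generated, and if `K` contains a
primitive `n`-th root of unity the subgroup of `n`-th powers has index `n ^ (r₁ + r₂ + #S)`.
-/

set_option autoImplicit false
set_option linter.unusedSectionVars false

open NumberField IsDedekindDomain NumberField.Units

namespace Fermat.Agent.H43.Cft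

variable (K : Type*) [Field K] [NumberField K]
variable (S : Finset (HeightOneSpectrum (𝓞 K)))

/-- the group of `S`-units of a number field, `S` a finite set of finite places. -/
noncomputable abbrev SUnits : Subgroup Kˣ := (S : Set (HeightOneSpectrum (𝓞 K))).unit K

/-- the inclusion of the units into the `S`-units. -/
noncomputable def unitsToSUnits : (𝓞 K)ˣ →* SUnits K S :=
  (Units.map (algebraMap (𝓞 K) K : 𝓞 K →* K)).codRestrict (SUnits K S) (fun u v _ => by
    have := v.valuation_of_unit_eq (K := K) u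
    rw [← WithZero.coe_inj, HeightOneSpectrum.valuationOfNeZero_eq] at this
    exact this)

lemma unitsToSUnits_coe (u : (𝓞 K)ˣ) :
    (((unitsToSUnits K S u : SUnits K S) : Kˣ) : K) = ((u : 𝓞 K) : K) := rfl

lemma unitsToSUnits_injective : Function.Injective (unitsToSUnits K S) := by
  intro u v h
  have h1 := congrArg (fun x : SUnits K S => ((x : Kˣ) : K)) h
  simp only [unitsToSUnits_coe] at h1
  exact Units.ext (RingOfIntegers.ext h1)

/-- the vector of valuations of an `S`-unit at the places in `S` (the entry at `v` is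
`- ord_v x`). -/
noncomputable def valVec : SUnits K S →* Multiplicative (S → ℤ) where
  toFun x := Multiplicative.ofAdd fun v => Multiplicative.toAdd (v.1.valuationOfNeZero (x : Kˣ))
  map_one' := by
    ext v
    simp
  map_mul' x y := by
    ext v
    simp

lemma valVec_apply (x : SUnits K S) (v : S) :
    Multiplicative.toAdd (valVec K S x) v =
      Multiplicative.toAdd (v.1.valuationOfNeZero (x : Kˣ)) := rfl

lemma valuation_eq_one_of_valVec_eq_one {x : SUnits K S} (hx : valVec K S x = 1)
    (v : HeightOneSpectrum (𝓞 K)) : v.valuation K ((x : Kˣ) : K) = 1 := by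
  by_cases hv : v ∈ S
  · have h1 : Multiplicative.toAdd (valVec K S x) ⟨v, hv⟩ = 0 := by rw [hx]; rfl
    rw [valVec_apply] at h1
    have h2 : v.valuationOfNeZero (x : Kˣ) = 1 := by
      rw [← ofAdd_toAdd (v.valuationOfNeZero (x : Kˣ)), h1]; rfl
    rw [← HeightOneSpectrum.valuationOfNeZero_eq, h2]; rfl
  · exact x.2 v (by simpa using hv)

lemma valVec_ker : (valVec K S).ker = (unitsToSUnits K S).range := by
  ext x
  rw [MonoidHom.mem_ker, MonoidHom.mem_range]
  constructor
  · intro hx
    have h1 : ∀ v : HeightOneSpectrum (𝓞 K), v.valuation K ((x : Kˣ) : K) ≤ 1 := fun v =>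
      (valuation_eq_one_of_valVec_eq_one K S hx v).le
    have hx' : valVec K S x⁻¹ = 1 := by rw [map_inv, hx, inv_one]
    have h2 : ∀ v : HeightOneSpectrum (𝓞 K), v.valuation K ((x⁻¹ : SUnits K S) : Kˣ) ≤ 1 :=
      fun v => (valuation_eq_one_of_valVec_eq_one K S hx' v).le
    obtain ⟨a, ha⟩ := HeightOneSpectrum.mem_integers_of_valuation_le_one K _ h1
    obtain ⟨b, hb⟩ := HeightOneSpectrum.mem_integers_of_valuation_le_one K _ h2
    have hab : a * b = 1 := by
      apply RingOfIntegers.ext
      have : (algebraMap (𝓞 K) K) a * (algebraMap (𝓞 K) K) b = 1 := by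
        rw [ha, hb]
        simp
      simpa using this
    refine ⟨⟨a, b, hab, by rw [mul_comm]; exact hab⟩, ?_⟩
    apply Subtype.ext
    apply Units.ext
    exact ha
  · rintro ⟨u, rfl⟩
    ext v
    change Multiplicative.toAdd (v.1.valuationOfNeZero
      (Units.map (algebraMap (𝓞 K) K : 𝓞 K →* K) u)) = 0
    rw [HeightOneSpectrum.valuation_of_unit_eq]
    rfl

/-- additive version of `valVec`. -/
noncomputable def valVecAdd : Additive (SUnits K S) →+ (S → ℤ) :=
  MonoidHom.toAdditiveLeft (valVec K S)

lemma valVecAdd_apply (x : SUnits K S) (v : S) :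
    valVecAdd K S (Additive.ofMul x) v =
      Multiplicative.toAdd (v.1.valuationOfNeZero (x : Kˣ)) := rfl

lemma valVecAdd_eq_zero_iff (x : SUnits K S) :
    valVecAdd K S (Additive.ofMul x) = 0 ↔ x ∈ (unitsToSUnits K S).range := by
  rw [← valVec_ker, MonoidHom.mem_ker]
  rfl

/-- the lattice of valuation vectors of `S`-units. -/
noncomputable def valLattice : AddSubgroup (S → ℤ) := (valVecAdd K S).range

lemma exists_span_eq_pow (v : HeightOneSpectrum (𝓞 K)) :
    ∃ a : 𝓞 K, a ≠ 0 ∧ Ideal.span {a} = v.asIdeal ^ classNumber K := by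
  have hv0 : v.asIdeal ∈ nonZeroDivisors (Ideal (𝓞 K)) :=
    mem_nonZeroDivisors_of_ne_zero v.ne_bot
  have h1 : (ClassGroup.mk0 ⟨v.asIdeal, hv0⟩) ^ classNumber K = 1 := by
    rw [classNumber, ← Nat.card_eq_fintype_card]
    exact pow_card_eq_one'
  rw [← map_pow, ClassGroup.mk0_eq_one_iff] at h1
  obtain ⟨a, ha⟩ := h1.principal
  have ha' : v.asIdeal ^ classNumber K = Ideal.span {a} := ha
  refine ⟨a, ?_, ha'.symm⟩
  rintro rfl
  have : v.asIdeal ^ classNumber K = ⊥ := by rw [ha']; simp
  exact v.ne_bot (pow_eq_zero_iff (classNumber_ne_zero K) |>.mp this)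

open scoped Classical in
lemma intValuation_of_span_eq_pow {v w : HeightOneSpectrum (𝓞 K)} {a : 𝓞 K} {h : ℕ}
    (ha : Ideal.span {a} = v.asIdeal ^ h) :
    w.intValuation a = if w = v then WithZero.exp (-(h : ℤ)) else 1 := by
  have hamem : ∀ I : Ideal (𝓞 K), a ∈ I ↔ v.asIdeal ^ h ≤ I := fun I => by
    rw [← ha, Ideal.span_singleton_le_iff_mem]
  split_ifs with hwv
  · subst hwv
    have h1 : w.intValuation a ≤ WithZero.exp (-(h : ℤ)) :=
      (w.intValuation_le_pow_iff_mem a h).mpr ((hamem _).mpr le_rfl)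
    have h2 : ¬ w.intValuation a ≤ WithZero.exp (-((h + 1 : ℕ) : ℤ)) := by
      rw [w.intValuation_le_pow_iff_mem a (h + 1), hamem]
      intro hle
      have := (Ideal.pow_right_strictAnti w.asIdeal w.ne_bot w.isPrime.ne_top)
        (Nat.lt_succ_self h)
      exact absurd hle (not_le_of_gt this)
    have h0 : w.intValuation a ≠ 0 := by
      intro h0
      rw [h0] at h2
      exact h2 zero_le
    rw [← WithZero.exp_log h0] at h1 h2 ⊢
    rw [WithZero.exp_le_exp] at h1 h2
    rw [WithZero.exp_inj]
    push_cast at h2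
    omega
  · have hnot : a ∉ w.asIdeal := by
      rw [hamem]
      intro hle
      have h1 : v.asIdeal ≤ w.asIdeal := w.isPrime.le_of_pow_le hle
      have h2 : v.asIdeal = w.asIdeal := v.isMaximal.eq_of_le w.isPrime.ne_top h1
      exact hwv (HeightOneSpectrum.ext h2.symm)
    have h3 := (w.intValuation_lt_one_iff_mem a).not.mpr hnot
    exact le_antisymm (w.intValuation_le_one a) (not_lt.mp h3)

open scoped Classical in
lemma exists_sUnit_single (v : S) :
    ∃ x : SUnits K S,
      valVecAdd K S (Additive.ofMul x) = Pi.single v (-(classNumber K : ℤ)) := by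
  classical
  obtain ⟨a, ha0, ha⟩ := exists_span_eq_pow K v.1
  have hval : ∀ w : HeightOneSpectrum (𝓞 K), w.valuation K (algebraMap (𝓞 K) K a) =
      if w = v.1 then WithZero.exp (-(classNumber K : ℤ)) else 1 := fun w => by
    rw [HeightOneSpectrum.valuation_of_algebraMap,
      intValuation_of_span_eq_pow K ha]
  have ha0' : algebraMap (𝓞 K) K a ≠ 0 := by simpa using ha0
  refine ⟨⟨Units.mk0 _ ha0', fun w hw => ?_⟩, ?_⟩
  · rw [Units.val_mk0, hval, if_neg]
    rintro rfl
    exact hw v.2
  · funext w
    rw [valVecAdd_apply]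
    have h1 : ((w.1.valuationOfNeZero (Units.mk0 _ ha0') : Multiplicative ℤ) :
        WithZero (Multiplicative ℤ)) =
        if w.1 = v.1 then WithZero.exp (-(classNumber K : ℤ)) else 1 := by
      rw [HeightOneSpectrum.valuationOfNeZero_eq, Units.val_mk0, hval]
    by_cases hwv : w = v
    · subst hwv
      rw [if_pos rfl, WithZero.exp_eq_coe_ofAdd, WithZero.coe_inj] at h1
      change Multiplicative.toAdd (w.1.valuationOfNeZero (Units.mk0 _ ha0')) = _
      rw [h1, Pi.single_eq_same]
      rfl
    · have hwv' : w.1 ≠ v.1 := fun h => hwv (Subtype.ext h)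
      rw [if_neg hwv', ← WithZero.coe_one, WithZero.coe_inj] at h1
      change Multiplicative.toAdd (w.1.valuationOfNeZero (Units.mk0 _ ha0')) = _
      rw [h1, Pi.single_eq_of_ne hwv]
      rfl

lemma nsmul_mem_valLattice (f : S → ℤ) : classNumber K • f ∈ valLattice K S := by
  classical
  have h1 : ∀ v : S, (Pi.single v (-(classNumber K : ℤ)) : S → ℤ) ∈ valLattice K S := fun v => by
    obtain ⟨x, hx⟩ := exists_sUnit_single K S v
    exact ⟨Additive.ofMul x, hx⟩
  have h2 : classNumber K • f = ∑ v : S, (- f v) • (Pi.single v (-(classNumber K : ℤ)) : S → ℤ) := by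
    funext w
    rw [Finset.sum_apply, Finset.sum_eq_single w]
    · simp [mul_comm]
    · intro v _ hvw
      simp [Pi.single_eq_of_ne hvw.symm]
    · intro h
      exact absurd (Finset.mem_univ w) h
  rw [h2]
  exact AddSubgroup.sum_mem _ fun v _ => AddSubgroup.zsmul_mem _ (h1 v) _

instance valLattice_finiteIndex : (valLattice K S).FiniteIndex := by
  have h1 : (nsmulAddMonoidHom (α := S → ℤ) (classNumber K)).range ≤ valLattice K S := by
    rintro _ ⟨f, rfl⟩
    exact nsmul_mem_valLattice K S f
  have h2 : (nsmulAddMonoidHom (α := S → ℤ) (classNumber K)).range.FiniteIndex := by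
    refine ⟨?_⟩
    rw [AddSubgroup.index_range_nsmul]
    exact pow_ne_zero _ (classNumber_ne_zero K)
  exact AddSubgroup.finiteIndex_of_le h1

lemma finrank_valLattice : Module.finrank ℤ (valLattice K S) = S.card := by
  rw [AddSubgroup.finrank_eq_of_finiteIndex, Module.finrank_fintype_fun_eq_card,
    Fintype.card_coe]

/-- a basis of the valuation lattice. -/
noncomputable def valBasis : Module.Basis (Fin S.card) ℤ (valLattice K S) :=
  Module.finBasisOfFinrankEq ℤ (valLattice K S) (finrank_valLattice K S)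

lemma exists_lift_valBasis (i : Fin S.card) :
    ∃ x : SUnits K S, valVecAdd K S (Additive.ofMul x) = (valBasis K S i : S → ℤ) := by
  obtain ⟨y, hy⟩ := (valBasis K S i).2
  exact ⟨Additive.toMul y, hy⟩

/-- a system of `S`-units whose valuation vectors form a basis of the valuation lattice. -/
noncomputable def sFundSystem (i : Fin S.card) : SUnits K S :=
  Classical.choose (exists_lift_valBasis K S i)

lemma valVecAdd_sFundSystem (i : Fin S.card) :
    valVecAdd K S (Additive.ofMul (sFundSystem K S i)) = (valBasis K S i : S → ℤ) :=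
  Classical.choose_spec (exists_lift_valBasis K S i)

lemma valVecAdd_prod_zpow (e : Fin S.card → ℤ) :
    valVecAdd K S (Additive.ofMul (∏ i, sFundSystem K S i ^ e i)) =
      ∑ i, e i • (valBasis K S i : S → ℤ) := by
  rw [ofMul_prod, map_sum]
  refine Finset.sum_congr rfl fun i _ => ?_
  rw [ofMul_zpow, map_zsmul, valVecAdd_sFundSystem]

lemma valVecAdd_mul (x y : SUnits K S) :
    valVecAdd K S (Additive.ofMul (x * y)) =
      valVecAdd K S (Additive.ofMul x) + valVecAdd K S (Additive.ofMul y) := by
  rw [ofMul_mul, map_add]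

lemma valVecAdd_unitsToSUnits (u : (𝓞 K)ˣ) :
    valVecAdd K S (Additive.ofMul (unitsToSUnits K S u)) = 0 :=
  (valVecAdd_eq_zero_iff K S _).mpr ⟨u, rfl⟩

lemma sum_smul_valBasis_injective {e f : Fin S.card → ℤ}
    (h : ∑ i, e i • (valBasis K S i : S → ℤ) = ∑ i, f i • (valBasis K S i : S → ℤ)) :
    e = f := by
  have h1 : ∑ i, e i • valBasis K S i = ∑ i, f i • valBasis K S i := by
    apply Subtype.ext
    simpa using h
  have h2 := congrArg (valBasis K S).repr h1
  simp only [map_sum, map_smul, Module.Basis.repr_self] at h2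
  funext i
  have h3 := congrArg (fun c => c i) h2
  simpa [Finsupp.single_apply] using h3

/-- **Dirichlet's `S`-unit theorem**, fundamental-system form relative to the units: every
`S`-unit is uniquely a unit times a product of powers of the `#S` elements `sFundSystem`. -/
theorem exist_unique_sUnit_eq (x : SUnits K S) :
    ∃! εe : (𝓞 K)ˣ × (Fin S.card → ℤ),
      x = unitsToSUnits K S εe.1 * ∏ i, sFundSystem K S i ^ εe.2 i := by
  have hx : valVecAdd K S (Additive.ofMul x) ∈ valLattice K S := ⟨_, rfl⟩
  set c := (valBasis K S).repr ⟨_, hx⟩ with hc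
  have hsum : ∑ i, c i • (valBasis K S i : S → ℤ) = valVecAdd K S (Additive.ofMul x) := by
    have h1 := (valBasis K S).sum_repr ⟨_, hx⟩
    have h2 := congrArg (Subtype.val) h1
    rw [AddSubgroup.val_finsetSum] at h2
    exact h2
  have hker : valVecAdd K S (Additive.ofMul (x * (∏ i, sFundSystem K S i ^ c i)⁻¹)) = 0 := by
    rw [ofMul_mul, map_add, ofMul_inv, map_neg, valVecAdd_prod_zpow, hsum, add_neg_cancel]
  obtain ⟨ε, hε⟩ := (valVecAdd_eq_zero_iff K S _).mp hker
  refine ⟨(ε, fun i => c i), ?_, ?_⟩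
  · change x = unitsToSUnits K S ε * ∏ i, sFundSystem K S i ^ c i
    rw [hε, inv_mul_cancel_right]
  · rintro ⟨ε', e'⟩ h'
    change x = unitsToSUnits K S ε' * ∏ i, sFundSystem K S i ^ e' i at h'
    have h1 : valVecAdd K S (Additive.ofMul x) = ∑ i, e' i • (valBasis K S i : S → ℤ) := by
      conv_lhs => rw [h']
      rw [valVecAdd_mul, valVecAdd_unitsToSUnits, zero_add, valVecAdd_prod_zpow]
    have h2 : e' = fun i => c i := sum_smul_valBasis_injective K S (h1.symm.trans hsum.symm)
    subst h2
    have h3 : unitsToSUnits K S ε' = unitsToSUnits K S ε := by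
      rw [hε, h', mul_inv_cancel_right]
    rw [unitsToSUnits_injective K S h3]

/-- The index of the `m`-th powers in the `S`-units. -/
theorem powIndex_sUnits_eq_mul (m : ℕ) :
    powIndex (SUnits K S) m = powIndex (𝓞 K)ˣ m * m ^ S.card :=
  powIndex_of_fundSystem (unitsToSUnits K S) (sFundSystem K S) (exist_unique_sUnit_eq K S) m

/-- The index of the `m`-th powers in the units of a number field. -/
theorem powIndex_units (m : ℕ) :
    powIndex (𝓞 K)ˣ m = (torsionOrder K).gcd m * m ^ Units.rank K := by
  rw [powIndex_of_fundSystem (torsion K).subtype (fundSystem K)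
    (fun x => exist_unique_eq_mul_prod K x) m, powIndex_of_isCyclic]
  rfl

lemma dvd_torsionOrder_of_isPrimitiveRoot {m : ℕ} (hm : m ≠ 0) {ζ : K}
    (hζ : IsPrimitiveRoot ζ m) : m ∣ torsionOrder K := by
  have : NeZero m := ⟨hm⟩
  have h1 : IsPrimitiveRoot hζ.toInteger m := hζ.toInteger_isPrimitiveRoot
  set u : (𝓞 K)ˣ := (h1.isUnit hm).unit with hu
  have h2 : IsPrimitiveRoot u m := by
    rw [← IsPrimitiveRoot.coe_units_iff]
    exact h1
  have hut : u ∈ torsion K := by
    rw [torsion, CommGroup.mem_torsion, isOfFinOrder_iff_pow_eq_one]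
    exact ⟨m, Nat.pos_of_ne_zero hm, h2.pow_eq_one⟩
  have h3 : orderOf (⟨u, hut⟩ : torsion K) = m := by
    rw [Subgroup.orderOf_mk]
    exact h2.eq_orderOf.symm
  rw [← h3, torsionOrder]
  exact orderOf_dvd_natCard _

/-- **Dirichlet's `S`-unit theorem**, index form: if `K` contains a primitive `m`-th root of
unity, the `m`-th powers have index `m ^ (r₁ + r₂ + #S)` in the `S`-units. -/
theorem powIndex_sUnits {m : ℕ} (hm : m ≠ 0) {ζ : K} (hζ : IsPrimitiveRoot ζ m) :
    powIndex (SUnits K S) m = m ^ (Fintype.card (InfinitePlace K) + S.card) := by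
  rw [powIndex_sUnits_eq_mul, powIndex_units,
    Nat.gcd_eq_right (dvd_torsionOrder_of_isPrimitiveRoot K hm hζ), Units.rank]
  have : 0 < Fintype.card (InfinitePlace K) := Fintype.card_pos
  rw [← pow_succ', ← pow_add]
  congr 1
  omega

/-- the `S`-units are isomorphic to `(𝓞 K)ˣ × ℤ ^ #S`. -/
noncomputable def sUnitsEquiv : (𝓞 K)ˣ × Multiplicative (Fin S.card → ℤ) ≃* SUnits K S :=
  equivOfFundSystem (unitsToSUnits K S) (sFundSystem K S) (exist_unique_sUnit_eq K S)

/-- **Dirichlet's `S`-unit theorem**: the group of `S`-units is finitely generated. -/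
instance sUnits_fg : Group.FG (SUnits K S) := by
  have h1 : Group.FG (𝓞 K)ˣ := Group.fg_iff_monoid_fg.mpr inferInstance
  exact Group.fg_of_surjective (f := (sUnitsEquiv K S).toMonoidHom) (sUnitsEquiv K S).surjective

end Fermat.Agent.H43.Cft
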