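import Mathlib
import Fermat.Agent.H43.Cft.SUnit

/-!
# P-CFT GLOBAL block: the common currency of the two inequalities (helper43, helper25)

Everything lives in `Kˣ`, `K` a number field; no completions, no ideles.

* `principalUnits K v m` : the subgroup `{u : v(u - 1) ≤ exp(-(m+1))}` of `Kˣ`;
* `vClosure K v H` : the `v`-adic closure `⨅ m, H ⊔ principalUnits K v m` of a subgroup `H`;
* `locPow K p v`, `locNorm K L v` : closures of the `p`-th powers / of the global norms
  (= elements that are `p`-th powers / norms in the completion at `v`);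
* `PT K p T`, `NT K L T` : intersections over `v ∈ T`;
* `normIdx K L T = [Kˣ : O_T^× · NT]`;
* `ClTrivial K T` : `Cl_T(K) = 0`, in the form "every prime outside `T` has a generator up to `T`";
* `primesAbove K L T`, `CyclicSetting`, and the Prop-defs `FirstInequalityStatement`,
  `SecondInequalityStatement`, `LocalNormIndexStatement`.
-/

open NumberField IsDedekindDomain

namespace Fermat.Agent.H43.Cft

section defs

variable (K : Type*) [Field K] [NumberField K]

/-- `U_v^{(m+1)} = {u ∈ Kˣ : v(u - 1) ≤ exp(-(m+1))}`. -/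
def principalUnits (v : HeightOneSpectrum (𝓞 K)) (m : ℕ) : Subgroup Kˣ where
  carrier := {u | v.valuation K ((u : K) - 1) ≤ WithZero.exp (-((m : ℤ) + 1))}
  one_mem' := by simp
  mul_mem' := by
    intro a b ha hb
    simp only [Set.mem_ofPred_eq] at ha hb ⊢
    have hlt : WithZero.exp (-((m : ℤ) + 1)) < (1 : WithZero (Multiplicative ℤ)) := by
      rw [← WithZero.exp_zero, WithZero.exp_lt_exp]; omega
    have hb1 : v.valuation K (b : K) = 1 := by
      have : v.valuation K ((b : K) - 1) < 1 := lt_of_le_of_lt hb hlt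
      have h2 := Valuation.map_add_eq_of_lt_left (v.valuation K) (x := (1 : K))
        (y := (b : K) - 1) (by simpa using this)
      simpa using h2
    have e : ((a * b : Kˣ) : K) - 1 = ((a : K) - 1) * (b : K) + ((b : K) - 1) := by
      push_cast; ring
    rw [e]
    refine le_trans (Valuation.map_add _ _ _) (max_le ?_ hb)
    rw [map_mul, hb1, mul_one]; exact ha
  inv_mem' := by
    intro a ha
    simp only [Set.mem_ofPred_eq] at ha ⊢
    have hlt : WithZero.exp (-((m : ℤ) + 1)) < (1 : WithZero (Multiplicative ℤ)) := by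
      rw [← WithZero.exp_zero, WithZero.exp_lt_exp]; omega
    have ha1 : v.valuation K (a : K) = 1 := by
      have : v.valuation K ((a : K) - 1) < 1 := lt_of_le_of_lt ha hlt
      have h2 := Valuation.map_add_eq_of_lt_left (v.valuation K) (x := (1 : K))
        (y := (a : K) - 1) (by simpa using this)
      simpa using h2
    have e : ((a⁻¹ : Kˣ) : K) - 1 = -(((a : K) - 1) * ((a⁻¹ : Kˣ) : K)) := by
      have : (a : K) * ((a⁻¹ : Kˣ) : K) = 1 := by simp
      linear_combination this
    rw [e, Valuation.map_neg, map_mul]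
    have : v.valuation K ((a⁻¹ : Kˣ) : K) = 1 := by
      rw [Units.val_inv_eq_inv_val, map_inv₀, ha1, inv_one]
    rw [this, mul_one]; exact ha

lemma mem_principalUnits {v : HeightOneSpectrum (𝓞 K)} {m : ℕ} {u : Kˣ} :
    u ∈ principalUnits K v m ↔
      v.valuation K ((u : K) - 1) ≤ WithZero.exp (-((m : ℤ) + 1)) := Iff.rfl

/-- The `v`-adic closure of a subgroup of `Kˣ`. -/
def vClosure (v : HeightOneSpectrum (𝓞 K)) (H : Subgroup Kˣ) : Subgroup Kˣ :=
  ⨅ m : ℕ, H ⊔ principalUnits K v m

/-- The subgroup of `p`-th powers of `Kˣ`. -/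
def powSubgroup (p : ℕ) : Subgroup Kˣ := (powMonoidHom p : Kˣ →* Kˣ).range

/-- Elements of `Kˣ` which are `p`-th powers in the completion at `v`. -/
def locPow (p : ℕ) (v : HeightOneSpectrum (𝓞 K)) : Subgroup Kˣ :=
  vClosure K v (powSubgroup K p)

/-- Elements of `Kˣ` which are `p`-th powers in the completion at every `v ∈ T`. -/
def PT (p : ℕ) (T : Finset (HeightOneSpectrum (𝓞 K))) : Subgroup Kˣ :=
  ⨅ v ∈ T, locPow K p v

/-- `Cl_T(K) = 0`: every prime outside `T` has a generator up to `T`. -/
def ClTrivial (T : Finset (HeightOneSpectrum (𝓞 K))) : Prop :=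
  ∀ v : HeightOneSpectrum (𝓞 K), v ∉ T → ∃ x : Kˣ,
    v.valuation K (x : K) = WithZero.exp (-1 : ℤ) ∧
    ∀ w : HeightOneSpectrum (𝓞 K), w ∉ T → w ≠ v → w.valuation K (x : K) = 1

variable (L : Type*) [Field L] [NumberField L] [Algebra K L]

/-- The subgroup of global norms `N_{L/K}(Lˣ)` of `Kˣ`. -/
noncomputable def normSubgroup : Subgroup Kˣ := (Units.map (Algebra.norm K : L →* K)).range

/-- Elements of `Kˣ` which are local norms from `L` at `v`
(closure of the global norms: weak approximation). -/
noncomputable def locNorm (v : HeightOneSpectrum (𝓞 K)) : Subgroup Kˣ :=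
  vClosure K v (normSubgroup K L)

/-- Elements of `Kˣ` which are local norms from `L` at every `v ∈ T`. -/
noncomputable def NT (T : Finset (HeightOneSpectrum (𝓞 K))) : Subgroup Kˣ :=
  ⨅ v ∈ T, locNorm K L v

/-- The norm index `[Kˣ : O_T^× · NT(L,T)]`
(`= [C_K : N C_L]` when `Cl_T(K) = Cl_T(L) = 0` and `T` contains the ramified primes). -/
noncomputable def normIdx (T : Finset (HeightOneSpectrum (𝓞 K))) : ℕ :=
  (SUnits K T ⊔ NT K L T).index

/-- The primes of `L` above the primes in `T`. -/
def primesAboveSet (T : Finset (HeightOneSpectrum (𝓞 K))) :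
    Set (HeightOneSpectrum (𝓞 L)) :=
  {w | w.under (𝓞 K) ∈ T}

lemma mem_primesAboveSet {T : Finset (HeightOneSpectrum (𝓞 K))}
    {w : HeightOneSpectrum (𝓞 L)} : w ∈ primesAboveSet K L T ↔ w.under (𝓞 K) ∈ T := Iff.rfl

lemma primesAboveSet_finite (T : Finset (HeightOneSpectrum (𝓞 K))) :
    (primesAboveSet K L T).Finite := by
  classical
  have h : primesAboveSet K L T ⊆
      ⋃ v ∈ (T : Set (HeightOneSpectrum (𝓞 K))),
        {w : HeightOneSpectrum (𝓞 L) | w.asIdeal ∈ v.asIdeal.primesOver (𝓞 L)} := by
    intro w hw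
    simp only [Set.mem_iUnion]
    refine ⟨w.under (𝓞 K), hw, ?_⟩
    exact ⟨w.isPrime, ⟨rfl⟩⟩
  refine Set.Finite.subset (Set.Finite.biUnion T.finite_toSet fun v _ => ?_) h
  have hfin := IsDedekindDomain.primesOver_finite v.asIdeal (𝓞 L)
  exact Set.Finite.preimage (fun a _ b _ hab => HeightOneSpectrum.ext hab) hfin

/-- The primes of `L` above the primes in `T`, as a finset. -/
noncomputable def primesAbove (T : Finset (HeightOneSpectrum (𝓞 K))) :
    Finset (HeightOneSpectrum (𝓞 L)) :=
  (primesAboveSet_finite K L T).toFinset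

lemma mem_primesAbove {T : Finset (HeightOneSpectrum (𝓞 K))}
    {w : HeightOneSpectrum (𝓞 L)} : w ∈ primesAbove K L T ↔ w.under (𝓞 K) ∈ T := by
  simp [primesAbove, primesAboveSet]

/-- The setting of the two inequalities: `L/K` Galois of odd prime degree `p`, `T` contains the
primes above `p` and the primes ramified in `L`, and `Cl_T(K) = 0`. -/
structure CyclicSetting (p : ℕ) (T : Finset (HeightOneSpectrum (𝓞 K))) : Prop where
  prime : p.Prime
  odd : p ≠ 2
  galois : IsGalois K L
  degree : Module.finrank K L = p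
  above_p : ∀ v : HeightOneSpectrum (𝓞 K), (p : 𝓞 K) ∈ v.asIdeal → v ∈ T
  unram : ∀ w : HeightOneSpectrum (𝓞 L), w.under (𝓞 K) ∉ T →
    w.asIdeal.ramificationIdx (𝓞 K) = 1
  cl : ClTrivial K T

/-- `v` does not split in `L`: there is exactly one prime of `L` above `v`. -/
def Nonsplit (v : HeightOneSpectrum (𝓞 K)) : Prop :=
  ∀ w w' : HeightOneSpectrum (𝓞 L), w.under (𝓞 K) = v → w'.under (𝓞 K) = v → w = w'

end defs

/-- **Local leaf (norm index at one place, approximation form).**  For `L/K` Galois of prime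
degree `p` and a prime `v` of `K`: the local norms have index `p` if `v` does not split and
index `1` if it does. -/
def LocalNormIndexStatement.{u, v} : Prop :=
  ∀ (K : Type u) [Field K] [NumberField K] (L : Type v) [Field L] [NumberField L]
    [Algebra K L] [IsGalois K L] (p : ℕ), p.Prime → Module.finrank K L = p →
    ∀ v : HeightOneSpectrum (𝓞 K),
      (Nonsplit K L v → (locNorm K L v).index = p) ∧ (¬ Nonsplit K L v → locNorm K L v = ⊤)

/-- **First inequality** (global norm index, `p ∣ [Kˣ : O_T^× NT]`). -/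
def FirstInequalityStatement.{u, v} : Prop :=
  ∀ (K : Type u) [Field K] [NumberField K] (L : Type v) [Field L] [NumberField L]
    [Algebra K L] (p : ℕ) (T : Finset (HeightOneSpectrum (𝓞 K))),
    CyclicSetting K L p T → normIdx K L T ≠ 0 ∧ p ∣ normIdx K L T

/-- **Second inequality** (global norm index, `[Kˣ : O_T^× NT] ∣ p`). -/
def SecondInequalityStatement.{u, v} : Prop :=
  ∀ (K : Type u) [Field K] [NumberField K] (L : Type v) [Field L] [NumberField L]
    [Algebra K L] (p : ℕ) (T : Finset (HeightOneSpectrum (𝓞 K))),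
    CyclicSetting K L p T → (∃ ζ : K, IsPrimitiveRoot ζ p) → ClTrivial L (primesAbove K L T) →
    normIdx K L T ∣ p

end Fermat.Agent.H43.Cft
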