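import Mathlib
import Fermat.Agent.H43.Cft.GlobalDefs

/-!
# P-CFT GLOBAL block, first inequality: the independent leaves (Prop-defs)

The first inequality `FirstInequalityStatement` is assembled (helper43) from

* `WeakApproxStatement` (G1-WA): weak approximation in `Kˣ` at finitely many finite places;
* `UnitsH1Statement` (G1-H1): `H¹(Gal(L/K), O_{L,T}^×) = 0` when `Cl_T(K) = 0` and `L/K` is
  unramified outside `T` (ambiguous ideals + Hilbert 90);
* `PlaceCountStatement` (G1-CNT): counting the places of `L` above those of `K`;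
* `LocalNormIndexStatement` (G-LOC, in `GlobalDefs`): local norm index in approximation form;
* the Herbrand rank formula (landed, `HerbrandRank.lean`) and the `S`-unit theorem (`SUnit.lean`).
-/

open NumberField IsDedekindDomain

namespace Fermat.Agent.H43.Cft

/-- **G1-WA: weak approximation** at finitely many finite places, multiplicative form. -/
def WeakApproxStatement.{u} : Prop :=
  ∀ (K : Type u) [Field K] [NumberField K] (T : Finset (HeightOneSpectrum (𝓞 K))) (m : ℕ)
    (x : HeightOneSpectrum (𝓞 K) → Kˣ),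
    ∃ y : Kˣ, ∀ v ∈ T, y / x v ∈ principalUnits K v m

/-- **G1-H1: `H¹(Gal(L/K), O_{L,T}^×) = 0`** (in the cyclic form `N x = 1 → x = σ y / y`). -/
def UnitsH1Statement.{u, v} : Prop :=
  ∀ (K : Type u) [Field K] [NumberField K] (L : Type v) [Field L] [NumberField L]
    [Algebra K L] (p : ℕ) (T : Finset (HeightOneSpectrum (𝓞 K))),
    CyclicSetting K L p T → ∀ σ : L ≃ₐ[K] L, (∀ τ : L ≃ₐ[K] L, τ ∈ Subgroup.zpowers σ) →
    ∀ x : Lˣ, x ∈ SUnits L (primesAbove K L T) → Algebra.norm K (x : L) = 1 →
    ∃ y : Lˣ, y ∈ SUnits L (primesAbove K L T) ∧ (x : L) = σ (y : L) / (y : L)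

open scoped Classical in
/-- **G1-CNT: counting places** in a Galois extension of odd prime degree `p`:
`#Inf(L) = p · #Inf(K)` and `#T_L + (p - 1) · #{v ∈ T nonsplit} = p · #T`. -/
def PlaceCountStatement.{u, v} : Prop :=
  ∀ (K : Type u) [Field K] [NumberField K] (L : Type v) [Field L] [NumberField L]
    [Algebra K L] [IsGalois K L] (p : ℕ), p.Prime → p ≠ 2 → Module.finrank K L = p →
    Fintype.card (InfinitePlace L) = p * Fintype.card (InfinitePlace K) ∧
    ∀ T : Finset (HeightOneSpectrum (𝓞 K)),
      (primesAbove K L T).card + (p - 1) * (T.filter (Nonsplit K L)).card = p * T.card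

end Fermat.Agent.H43.Cft
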