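import Mathlib
import Fermat.Agent.H43.Cft.GlobalDefs

/-!
# Galois action on the primes and on the `T`-units of a Galois extension of number fields;
Galois descent of `T`-units.
-/

open NumberField IsDedekindDomain

namespace Fermat.Agent.H43.Cft

section galPrime

variable {K : Type*} [Field K] [NumberField K]
variable {L : Type*} [Field L] [NumberField L] [Algebra K L]

/-- the ring automorphism of `𝓞 L` induced by `σ`. -/
noncomputable def intAut (σ : L ≃ₐ[K] L) : 𝓞 L ≃+* 𝓞 L :=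
  RingOfIntegers.mapRingEquiv (σ : L ≃+* L)

lemma intAut_coe (σ : L ≃ₐ[K] L) (r : 𝓞 L) : ((intAut σ r : 𝓞 L) : L) = σ (r : L) := rfl

lemma intAut_algebraMap (σ : L ≃ₐ[K] L) (a : 𝓞 K) :
    intAut σ (algebraMap (𝓞 K) (𝓞 L) a) = algebraMap (𝓞 K) (𝓞 L) a := by
  apply RingOfIntegers.ext
  rw [intAut_coe]
  have : ((algebraMap (𝓞 K) (𝓞 L) a : 𝓞 L) : L) = algebraMap K L (a : K) := rfl
  rw [this, AlgEquiv.commutes]

/-- the prime `σ⁻¹ w`. -/
noncomputable def galPrime (σ : L ≃ₐ[K] L) (w : HeightOneSpectrum (𝓞 L)) :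
    HeightOneSpectrum (𝓞 L) :=
  HeightOneSpectrum.comap ((intAut σ : 𝓞 L ≃+* 𝓞 L) : 𝓞 L →+* 𝓞 L) (intAut σ).surjective w

lemma mem_galPrime_pow (σ : L ≃ₐ[K] L) (w : HeightOneSpectrum (𝓞 L)) (r : 𝓞 L) (n : ℕ) :
    r ∈ (galPrime σ w).asIdeal ^ n ↔ intAut σ r ∈ w.asIdeal ^ n := by
  have h1 : (galPrime σ w).asIdeal = w.asIdeal.map (intAut σ).symm := by
    change w.asIdeal.comap _ = _
    exact (Ideal.map_symm (intAut σ)).symm
  rw [h1, ← Ideal.map_pow, Ideal.map_symm, Ideal.mem_comap]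

lemma intValuation_galPrime (σ : L ≃ₐ[K] L) (w : HeightOneSpectrum (𝓞 L)) (r : 𝓞 L) :
    (galPrime σ w).intValuation r = w.intValuation (intAut σ r) := by
  rcases eq_or_ne r 0 with rfl | hr
  · simp
  have hr' : intAut σ r ≠ 0 := by
    intro h
    exact hr ((intAut σ).injective (h.trans (map_zero _).symm))
  have key : ∀ n : ℕ, (galPrime σ w).intValuation r ≤ WithZero.exp (-(n : ℤ)) ↔
      w.intValuation (intAut σ r) ≤ WithZero.exp (-(n : ℤ)) := fun n => by
    rw [HeightOneSpectrum.intValuation_le_pow_iff_mem, HeightOneSpectrum.intValuation_le_pow_iff_mem,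
      mem_galPrime_pow]
  have aux : ∀ a b : WithZero (Multiplicative ℤ), a ≠ 0 → b ≠ 0 → a ≤ 1 → b ≤ 1 →
      (∀ n : ℕ, a ≤ WithZero.exp (-(n : ℤ)) → b ≤ WithZero.exp (-(n : ℤ))) → b ≤ a := by
    intro a b ha hb ha1 hb1 h
    rw [← WithZero.exp_log ha] at ha1 h ⊢
    rw [← WithZero.exp_zero, WithZero.exp_le_exp] at ha1
    obtain ⟨n, hn⟩ : ∃ n : ℕ, -(n : ℤ) = WithZero.log a := ⟨(-WithZero.log a).toNat, by omega⟩
    have := h n (by rw [hn])
    rwa [hn] at this
  exact le_antisymm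
    (aux _ _ (HeightOneSpectrum.intValuation_ne_zero _ _ hr')
      (HeightOneSpectrum.intValuation_ne_zero _ _ hr) (HeightOneSpectrum.intValuation_le_one _ _)
      (HeightOneSpectrum.intValuation_le_one _ _) fun n => (key n).mpr)
    (aux _ _ (HeightOneSpectrum.intValuation_ne_zero _ _ hr)
      (HeightOneSpectrum.intValuation_ne_zero _ _ hr') (HeightOneSpectrum.intValuation_le_one _ _)
      (HeightOneSpectrum.intValuation_le_one _ _) fun n => (key n).mp)

lemma valuation_galPrime (σ : L ≃ₐ[K] L) (w : HeightOneSpectrum (𝓞 L)) (x : L) :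
    (galPrime σ w).valuation L x = w.valuation L (σ x) := by
  obtain ⟨a, b, hb, rfl⟩ := IsFractionRing.div_surjective (A := 𝓞 L) x
  have hσ : ∀ r : 𝓞 L, σ (algebraMap (𝓞 L) L r) = algebraMap (𝓞 L) L (intAut σ r) := fun r => rfl
  rw [map_div₀, map_div₀, hσ, hσ, map_div₀, HeightOneSpectrum.valuation_of_algebraMap,
    HeightOneSpectrum.valuation_of_algebraMap, HeightOneSpectrum.valuation_of_algebraMap,
    HeightOneSpectrum.valuation_of_algebraMap, intValuation_galPrime, intValuation_galPrime]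

lemma under_galPrime (σ : L ≃ₐ[K] L) (w : HeightOneSpectrum (𝓞 L)) :
    (galPrime σ w).under (𝓞 K) = w.under (𝓞 K) := by
  apply HeightOneSpectrum.ext
  ext a
  change algebraMap (𝓞 K) (𝓞 L) a ∈ (galPrime σ w).asIdeal ↔ algebraMap (𝓞 K) (𝓞 L) a ∈ w.asIdeal
  change intAut σ (algebraMap (𝓞 K) (𝓞 L) a) ∈ w.asIdeal ↔ _
  rw [intAut_algebraMap]

end galPrime

section sunits

variable (K : Type*) [Field K] [NumberField K]
variable (L : Type*) [Field L] [NumberField L] [Algebra K L]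
variable (T : Finset (HeightOneSpectrum (𝓞 K)))

lemma mem_sUnits_iff {S : Finset (HeightOneSpectrum (𝓞 K))} {x : Kˣ} :
    x ∈ SUnits K S ↔ ∀ v, v ∉ S → v.valuation K (x : K) = 1 := by
  constructor
  · intro h v hv
    exact h v (by simpa using hv)
  · intro h v hv
    exact h v (by simpa using hv)

variable {K L T} in
lemma galPrime_notMem (σ : L ≃ₐ[K] L) {w : HeightOneSpectrum (𝓞 L)}
    (hw : w ∉ primesAbove K L T) : galPrime σ w ∉ primesAbove K L T := by
  rw [mem_primesAbove, under_galPrime]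
  rwa [mem_primesAbove] at hw

/-- the action of `σ` on the `T_L`-units. -/
noncomputable def sUnitsGal (σ : L ≃ₐ[K] L) :
    SUnits L (primesAbove K L T) →* SUnits L (primesAbove K L T) :=
  ((Units.map ((σ : L ≃* L) : L →* L)).comp (Subgroup.subtype _)).codRestrict _ (fun x => by
    rw [mem_sUnits_iff]
    intro w hw
    have h1 := valuation_galPrime σ w ((x : Lˣ) : L)
    have h2 := (mem_sUnits_iff L).mp x.2 _ (galPrime_notMem σ hw)
    rw [h1] at h2
    exact h2)

lemma sUnitsGal_coe (σ : L ≃ₐ[K] L) (x : SUnits L (primesAbove K L T)) :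
    (((sUnitsGal K L T σ x : SUnits L (primesAbove K L T)) : Lˣ) : L) = σ ((x : Lˣ) : L) := rfl

lemma sUnits_ext {S : Finset (HeightOneSpectrum (𝓞 K))} {x y : SUnits K S}
    (h : ((x : Kˣ) : K) = ((y : Kˣ) : K)) : x = y :=
  Subtype.ext (Units.ext h)

lemma sUnitsGal_one : sUnitsGal K L T 1 = MonoidHom.id _ := by
  ext x
  rfl

lemma sUnitsGal_mul (σ τ : L ≃ₐ[K] L) :
    sUnitsGal K L T (σ * τ) = (sUnitsGal K L T σ).comp (sUnitsGal K L T τ) := by
  ext x
  rfl

lemma exists_prime_above (v : HeightOneSpectrum (𝓞 K)) :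
    ∃ w : HeightOneSpectrum (𝓞 L), w.under (𝓞 K) = v := by
  obtain ⟨Q, hQ1, hQ2⟩ := Ideal.exists_ideal_over_prime_of_isIntegral (S := 𝓞 L) v.asIdeal
    (⊥ : Ideal (𝓞 L)) (by simp)
  have hQ3 : Q.IsPrime := hQ2.1
  have hQ4 : Q.comap (algebraMap (𝓞 K) (𝓞 L)) = v.asIdeal := hQ2.2
  have hne : Q ≠ ⊥ := by
    rintro rfl
    apply v.ne_bot
    rw [← hQ4]
    exact Ideal.comap_bot_of_injective _ (FaithfulSMul.algebraMap_injective (𝓞 K) (𝓞 L))
  exact ⟨⟨Q, hQ3, hne⟩, HeightOneSpectrum.ext hQ4⟩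

variable {K L} in
lemma valuation_algebraMap_eq_pow (w : HeightOneSpectrum (𝓞 L)) (x : K) :
    w.valuation L (algebraMap K L x) =
      (w.under (𝓞 K)).valuation K x ^
        ((w.under (𝓞 K)).asIdeal.ramificationIdx' w.asIdeal) := by
  haveI : w.asIdeal.LiesOver (w.under (𝓞 K)).asIdeal := ⟨rfl⟩
  exact (HeightOneSpectrum.valuation_liesOver L (w.under (𝓞 K)) w x).symm

variable {K L} in
lemma ramificationIdx'_ne_zero (w : HeightOneSpectrum (𝓞 L)) :
    (w.under (𝓞 K)).asIdeal.ramificationIdx' w.asIdeal ≠ 0 := by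
  haveI : w.asIdeal.LiesOver (w.under (𝓞 K)).asIdeal := ⟨rfl⟩
  exact Ideal.IsDedekindDomain.ramificationIdx'_ne_zero_of_liesOver w.asIdeal
    (w.under (𝓞 K)).ne_bot

variable {K L} in
lemma valuation_algebraMap_eq_one_iff (w : HeightOneSpectrum (𝓞 L)) (x : K) :
    w.valuation L (algebraMap K L x) = 1 ↔ (w.under (𝓞 K)).valuation K x = 1 := by
  rw [valuation_algebraMap_eq_pow]
  exact pow_eq_one_iff_of_nonneg zero_le' (ramificationIdx'_ne_zero w)

/-- the inclusion of the `T`-units of `K` into the `T_L`-units of `L`. -/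
noncomputable def sUnitsBase : SUnits K T →* SUnits L (primesAbove K L T) :=
  ((Units.map (algebraMap K L : K →* L)).comp (Subgroup.subtype _)).codRestrict _ (fun x => by
    rw [mem_sUnits_iff]
    intro w hw
    rw [mem_primesAbove] at hw
    change w.valuation L (algebraMap K L ((x : Kˣ) : K)) = 1
    rw [valuation_algebraMap_eq_one_iff]
    exact (mem_sUnits_iff K).mp x.2 _ hw)

lemma sUnitsBase_coe (x : SUnits K T) :
    (((sUnitsBase K L T x : SUnits L (primesAbove K L T)) : Lˣ) : L) =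
      algebraMap K L ((x : Kˣ) : K) := rfl

lemma sUnitsBase_injective : Function.Injective (sUnitsBase K L T) := by
  intro x y h
  have h1 := congrArg (fun z : SUnits L (primesAbove K L T) => ((z : Lˣ) : L)) h
  simp only [sUnitsBase_coe] at h1
  exact sUnits_ext K ((algebraMap K L).injective h1)

lemma sUnitsGal_sUnitsBase (σ : L ≃ₐ[K] L) (x : SUnits K T) :
    sUnitsGal K L T σ (sUnitsBase K L T x) = sUnitsBase K L T x := by
  apply sUnits_ext
  rw [sUnitsGal_coe, sUnitsBase_coe, AlgEquiv.commutes]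

/-- **Galois descent for `T`-units.** -/
theorem exists_sUnitsBase_eq [IsGalois K L] (x : SUnits L (primesAbove K L T))
    (hx : ∀ σ : L ≃ₐ[K] L, sUnitsGal K L T σ x = x) :
    ∃ y : SUnits K T, sUnitsBase K L T y = x := by
  have h1 : ((x : Lˣ) : L) ∈ Set.range (algebraMap K L) := by
    rw [IsGalois.mem_range_algebraMap_iff_fixed]
    intro σ
    have := congrArg (fun z : SUnits L (primesAbove K L T) => ((z : Lˣ) : L)) (hx σ)
    exact this
  obtain ⟨y, hy⟩ := h1
  have hy0 : y ≠ 0 := by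
    rintro rfl
    rw [map_zero] at hy
    exact (x : Lˣ).ne_zero hy.symm
  have hyT : Units.mk0 y hy0 ∈ SUnits K T := by
    rw [mem_sUnits_iff]
    intro v hv
    obtain ⟨w, rfl⟩ := exists_prime_above K L v
    have hw : w ∉ primesAbove K L T := by rwa [mem_primesAbove]
    have h2 := (mem_sUnits_iff L).mp x.2 w hw
    rw [← hy, valuation_algebraMap_eq_one_iff] at h2
    exact h2
  refine ⟨⟨Units.mk0 y hy0, hyT⟩, ?_⟩
  apply sUnits_ext
  rw [sUnitsBase_coe]
  exact hy

end sunits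

end Fermat.Agent.H43.Cft
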