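import Mathlib

/-!
# A polynomial identity modulo the `p`-th cyclotomic polynomial

In `ℤ[X] / Φ_p`, the element `(X - 1) ^ (p - 1)` is a unit multiple of `p`.  We state this as an
identity of integer polynomials, so that it can be evaluated at any endomorphism killed by `Φ_p`.
-/

set_option autoImplicit false

open Polynomial NumberField

namespace Fermat.Agent.H43.Cft

/-- An integer polynomial vanishing at a primitive `p`-th root of unity (in characteristic zero)
is divisible by the cyclotomic polynomial. -/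
lemma cyclotomic_dvd_of_aeval_eq_zero {p : ℕ} (hp : 0 < p) {K : Type*} [Field K] [CharZero K]
    {ζ : K} (hζ : IsPrimitiveRoot ζ p) {f : ℤ[X]} (hf : aeval ζ f = 0) :
    cyclotomic p ℤ ∣ f := by
  rw [cyclotomic_eq_minpoly hζ hp]
  exact minpoly.isIntegrallyClosed_dvd (hζ.isIntegral hp) hf

/-- In `ℤ[X]` modulo the `p`-th cyclotomic polynomial, `(X - 1) ^ (p - 1)` is a unit times `p`. -/
theorem exists_cyclotomic_unit_identity (p : ℕ) [hp : Fact p.Prime] :
    ∃ U V G H : ℤ[X], (X - 1) ^ (p - 1) * U = C (p : ℤ) + cyclotomic p ℤ * G ∧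
      U * V = 1 + cyclotomic p ℤ * H := by
  have : NeZero p := ⟨hp.out.ne_zero⟩
  have hcyc : IsCyclotomicExtension {p} ℚ (CyclotomicField p ℚ) :=
    CyclotomicField.isCyclotomicExtension p ℚ
  have hζ : IsPrimitiveRoot (IsCyclotomicExtension.zeta p ℚ (CyclotomicField p ℚ)) p :=
    IsCyclotomicExtension.zeta_spec p ℚ (CyclotomicField p ℚ)
  obtain ⟨u, hu⟩ := IsCyclotomicExtension.Rat.associated_zeta_sub_one_pow_prime p hζ
  obtain ⟨U, hU⟩ := hζ.integralPowerBasis.exists_eq_aeval' (u : 𝓞 (CyclotomicField p ℚ))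
  obtain ⟨V, hV⟩ := hζ.integralPowerBasis.exists_eq_aeval'
    ((u⁻¹ : (𝓞 (CyclotomicField p ℚ))ˣ) : 𝓞 (CyclotomicField p ℚ))
  rw [IsPrimitiveRoot.integralPowerBasis_gen] at hU hV
  have key : ∀ f : ℤ[X], aeval hζ.toInteger f = 0 → cyclotomic p ℤ ∣ f := by
    intro f hf
    apply cyclotomic_dvd_of_aeval_eq_zero hp.out.pos hζ
    have h1 := congrArg (algebraMap (𝓞 (CyclotomicField p ℚ)) (CyclotomicField p ℚ)) hf
    rw [← aeval_algebraMap_apply, map_zero] at h1
    exact h1
  have h1 : cyclotomic p ℤ ∣ (X - 1) ^ (p - 1) * U - C (p : ℤ) := by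
    apply key
    simp only [map_sub, map_mul, map_pow, aeval_X, map_one, aeval_C, ← hU]
    rw [hu]
    simp
  have h2 : cyclotomic p ℤ ∣ U * V - 1 := by
    apply key
    simp only [map_sub, map_mul, map_one, ← hU, ← hV]
    rw [← Units.val_mul, mul_inv_cancel, Units.val_one, sub_self]
  obtain ⟨G, hG⟩ := h1
  obtain ⟨H, hH⟩ := h2
  exact ⟨U, V, G, H, by rw [← hG]; ring, by rw [← hH]; ring⟩

end Fermat.Agent.H43.Cft
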