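import Mathlib

/-!
# Kernel and cokernel sizes of endomorphisms of abelian groups

For additive endomorphisms `f`, `g` of an abelian group we prove the counting identity
`#coker (f ∘ g) * #ker f * #ker g = #coker f * #coker g * #ker (f ∘ g)` (with `0` standing for
"infinite") and its consequence for powers.
-/

set_option autoImplicit false

namespace Fermat.Agent.H43.Cft

variable {X : Type*} [AddCommGroup X]

/-- the cardinality of the kernel (`0` if infinite). -/
noncomputable def kerCard (f : X →+ X) : ℕ := Nat.card f.ker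

/-- the index of the range (`0` if infinite). -/
noncomputable def cokerCard (f : X →+ X) : ℕ := f.range.index

lemma kerCard_comp_eq (f g : X →+ X) :
    kerCard (f.comp g) = kerCard g * Nat.card (f.ker ⊓ g.range : AddSubgroup X) := by
  have hle : g.ker ≤ (f.comp g).ker := fun x hx => by
    rw [AddMonoidHom.mem_ker] at hx ⊢
    rw [AddMonoidHom.comp_apply, hx, map_zero]
  have h1 := AddSubgroup.relIndex_mul_relIndex ⊥ g.ker (f.comp g).ker bot_le hle
  rw [AddSubgroup.relIndex_bot_left, AddSubgroup.relIndex_bot_left] at h1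
  have h2 : g.ker.relIndex (f.comp g).ker = Nat.card ((f.comp g).ker.map g) :=
    AddSubgroup.relIndex_ker _ g
  have h3 : (f.comp g).ker.map g = f.ker ⊓ g.range := by
    ext y
    constructor
    · rintro ⟨x, hx, rfl⟩
      exact ⟨hx, x, rfl⟩
    · rintro ⟨hy, x, rfl⟩
      exact ⟨x, hy, rfl⟩
  rw [h2, h3] at h1
  exact h1.symm

lemma kerCard_eq_mul (f g : X →+ X) :
    kerCard f = Nat.card (f.ker ⊓ g.range : AddSubgroup X) * g.range.relIndex f.ker := by
  have h1 := AddSubgroup.relIndex_mul_relIndex ⊥ (f.ker ⊓ g.range) f.ker bot_le inf_le_left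
  rw [AddSubgroup.relIndex_bot_left, AddSubgroup.relIndex_bot_left,
    AddSubgroup.inf_relIndex_left] at h1
  exact h1.symm

lemma cokerCard_comp_eq (f g : X →+ X) :
    cokerCard (f.comp g) = (g.range ⊔ f.ker).index * cokerCard f := by
  unfold cokerCard
  rw [AddMonoidHom.range_comp, AddSubgroup.index_map]

lemma cokerCard_eq_mul (f g : X →+ X) :
    cokerCard g = g.range.relIndex f.ker * (g.range ⊔ f.ker).index := by
  unfold cokerCard
  rw [← AddSubgroup.relIndex_mul_index (le_sup_left : g.range ≤ g.range ⊔ f.ker),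
    AddSubgroup.relIndex_sup_left]

/-- **Kernel-cokernel counting for a composite.** -/
theorem cokerCard_comp_mul (f g : X →+ X) :
    cokerCard (f.comp g) * kerCard f * kerCard g =
      cokerCard f * cokerCard g * kerCard (f.comp g) := by
  rw [cokerCard_comp_eq, kerCard_comp_eq, cokerCard_eq_mul f g, kerCard_eq_mul f g]
  ring

lemma kerCard_ne_zero_of_le {f g : X →+ X} (h : f.ker ≤ g.ker) (hg : kerCard g ≠ 0) :
    kerCard f ≠ 0 := by
  unfold kerCard at hg ⊢
  have : Finite g.ker := Nat.finite_of_card_ne_zero hg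
  have : Finite f.ker := Finite.of_injective (AddSubgroup.inclusion h)
    (AddSubgroup.inclusion_injective h)
  exact Nat.card_pos.ne'

lemma cokerCard_ne_zero_of_le {f g : X →+ X} (h : g.range ≤ f.range) (hg : cokerCard g ≠ 0) :
    cokerCard f ≠ 0 := by
  unfold cokerCard at hg ⊢
  intro h0
  apply hg
  rw [← AddSubgroup.relIndex_mul_index h, h0, mul_zero]

end Fermat.Agent.H43.Cft
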