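import Mathlib
import Fermat.Agent.H24.Herbrand
import Fermat.Agent.H43.Cft.EndoIndex
import Fermat.Agent.H43.Cft.CycloIdentity

/-!
# The Herbrand quotient of a module over a cyclic group of prime order, in terms of ranks

Let `σ` be an automorphism of order dividing `p` (a prime) of an abelian group `X`, and let
`A = X^σ`.  If `[X : pX] = p ^ r * #X[p]` and `[A : pA] = p ^ a * #A[p]` (for finitely generated
groups: `r = rank X`, `a = rank A`) and `r = a + (p - 1) * b`, then
`h0 * p ^ b = h1 * p ^ a`, i.e. the Herbrand quotient is `p ^ (a - b)`.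
-/

set_option autoImplicit false

open Fermat.Agent.H24 Polynomial

namespace Fermat.Agent.H43.Cft

variable {X : Type*} [AddCommGroup X]

section pairs

lemma h0_of_N_eq_zero (R : HerbrandPair X) (h : R.N = 0) : R.h0 = kerCard R.D := by
  unfold HerbrandPair.h0 kerCard
  rw [h, AddMonoidHom.range_zero, AddSubgroup.relIndex_bot_left]

lemma h1_of_N_eq_zero (R : HerbrandPair X) (h : R.N = 0) : R.h1 = cokerCard R.D := by
  unfold HerbrandPair.h1 cokerCard
  rw [h, AddMonoidHom.ker_zero, AddSubgroup.relIndex_top_right]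

lemma h0_of_D_eq_zero (R : HerbrandPair X) (h : R.D = 0) : R.h0 = cokerCard R.N := by
  unfold HerbrandPair.h0 cokerCard
  rw [h, AddMonoidHom.ker_zero, AddSubgroup.relIndex_top_right]

lemma h1_of_D_eq_zero (R : HerbrandPair X) (h : R.D = 0) : R.h1 = kerCard R.N := by
  unfold HerbrandPair.h1 kerCard
  rw [h, AddMonoidHom.range_zero, AddSubgroup.relIndex_bot_left]

end pairs

section pow

lemma kerCard_one : kerCard (1 : AddMonoid.End X) = 1 := by
  unfold kerCard
  have : (1 : AddMonoid.End X).ker = ⊥ := by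
    ext x
    rw [AddMonoidHom.mem_ker, AddSubgroup.mem_bot]
    rfl
  rw [this]
  simp

lemma cokerCard_one : cokerCard (1 : AddMonoid.End X) = 1 := by
  unfold cokerCard
  have : (1 : AddMonoid.End X).range = ⊤ := by
    ext x
    simp only [AddSubgroup.mem_top, iff_true]
    exact ⟨x, rfl⟩
  rw [this]
  simp

lemma ker_pow_le_succ (δ : AddMonoid.End X) (n : ℕ) :
    (δ ^ n : AddMonoid.End X).ker ≤ (δ ^ (n + 1) : AddMonoid.End X).ker := by
  intro x hx
  rw [AddMonoidHom.mem_ker] at hx ⊢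
  rw [pow_succ']
  exact (congrArg δ hx).trans (map_zero δ)

lemma ker_le_ker_pow (δ : AddMonoid.End X) {n : ℕ} (hn : n ≠ 0) :
    (δ : AddMonoid.End X).ker ≤ (δ ^ n : AddMonoid.End X).ker := by
  intro x hx
  rw [AddMonoidHom.mem_ker] at hx ⊢
  obtain ⟨m, rfl⟩ := Nat.exists_eq_succ_of_ne_zero hn
  rw [pow_succ]
  exact (congrArg (δ ^ m) hx).trans (map_zero (δ ^ m))

lemma range_pow_le_range (δ : AddMonoid.End X) {n : ℕ} (hn : n ≠ 0) :
    (δ ^ n : AddMonoid.End X).range ≤ (δ : AddMonoid.End X).range := by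
  rintro _ ⟨x, rfl⟩
  obtain ⟨m, rfl⟩ := Nat.exists_eq_succ_of_ne_zero hn
  rw [pow_succ']
  exact ⟨(δ ^ m) x, rfl⟩

/-- **Kernel-cokernel counting for a power.** -/
theorem cokerCard_pow_mul (δ : AddMonoid.End X) (n : ℕ) (hk : kerCard (δ ^ n) ≠ 0) :
    cokerCard (δ ^ n) * kerCard δ ^ n = cokerCard δ ^ n * kerCard (δ ^ n) := by
  induction n with
  | zero => simp [kerCard_one, cokerCard_one]
  | succ n ih =>
    have hkn : kerCard (δ ^ n) ≠ 0 := kerCard_ne_zero_of_le (ker_pow_le_succ δ n) hk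
    have h1 := cokerCard_comp_mul δ (δ ^ n)
    have h2 := ih hkn
    have e : (δ ^ (n + 1) : AddMonoid.End X) = AddMonoidHom.comp δ (δ ^ n) := by
      rw [pow_succ']
      rfl
    rw [e]
    apply Nat.eq_of_mul_eq_mul_right (Nat.pos_of_ne_zero hkn)
    calc cokerCard (AddMonoidHom.comp δ (δ ^ n)) * kerCard δ ^ (n + 1) * kerCard (δ ^ n)
        = (cokerCard (AddMonoidHom.comp δ (δ ^ n)) * kerCard δ * kerCard (δ ^ n)) *
            kerCard δ ^ n := by ring
      _ = cokerCard δ * kerCard (AddMonoidHom.comp δ (δ ^ n)) *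
            (cokerCard (δ ^ n) * kerCard δ ^ n) := by rw [h1]; ring
      _ = cokerCard δ ^ (n + 1) * kerCard (AddMonoidHom.comp δ (δ ^ n)) * kerCard (δ ^ n) := by
          rw [h2]; ring

end pow

section main

/-- evaluation of endomorphisms at a point, as an additive map. -/
def evalEnd (x : X) : AddMonoid.End X →+ X where
  toFun f := f x
  map_zero' := rfl
  map_add' _ _ := rfl

lemma endSum_apply {ι : Type*} (s : Finset ι) (f : ι → AddMonoid.End X) (x : X) :
    (∑ i ∈ s, f i : AddMonoid.End X) x = ∑ i ∈ s, (f i) x :=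
  map_sum (evalEnd x) f s

variable (p : ℕ) (σ : AddMonoid.End X) (hσ : σ ^ p = 1)

/-- The Herbrand pair `D = σ - 1`, `N = 1 + σ + ⋯ + σ^(p-1)` of an automorphism with
`σ ^ p = 1`. -/
def cyclicPair : HerbrandPair X where
  D := (σ - 1 : AddMonoid.End X)
  N := (∑ i ∈ Finset.range p, σ ^ i : AddMonoid.End X)
  D_N a := by
    have h : (σ - 1) * ∑ i ∈ Finset.range p, σ ^ i = 0 := by rw [mul_geom_sum, hσ, sub_self]
    exact DFunLike.congr_fun h a
  N_D a := by
    have h : (∑ i ∈ Finset.range p, σ ^ i) * (σ - 1) = 0 := by rw [geom_sum_mul, hσ, sub_self]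
    exact DFunLike.congr_fun h a

lemma cyclicPair_D_apply (x : X) : (cyclicPair p σ hσ).D x = σ x - x := rfl

lemma cyclicPair_N_apply (x : X) :
    (cyclicPair p σ hσ).N x = ∑ i ∈ Finset.range p, (σ ^ i) x :=
  endSum_apply _ _ x

lemma mem_ker_cyclicPair_D (x : X) : x ∈ (cyclicPair p σ hσ).D.ker ↔ σ x = x := by
  rw [AddMonoidHom.mem_ker, cyclicPair_D_apply, sub_eq_zero]

lemma pow_apply_of_fixed {x : X} (hx : σ x = x) (i : ℕ) : (σ ^ i) x = x := by
  induction i with
  | zero => rfl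
  | succ i ih =>
    rw [pow_succ]
    exact (congrArg (σ ^ i) hx).trans ih

lemma cyclicPair_N_apply_of_fixed {x : X} (hx : σ x = x) :
    (cyclicPair p σ hσ).N x = p • x := by
  rw [cyclicPair_N_apply, Finset.sum_congr rfl (fun i _ => pow_apply_of_fixed σ hx i),
    Finset.sum_const, Finset.card_range]

lemma cyclicPair_isStable : (cyclicPair p σ hσ).IsStable (cyclicPair p σ hσ).D.ker :=
  ⟨fun a ha => by rw [AddMonoidHom.mem_ker.mp ha]; exact zero_mem _,
   fun a _ => (cyclicPair p σ hσ).D_N a⟩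

/-- The Herbrand pair `D = p`, `N = 0`. -/
def mulPair (X : Type*) [AddCommGroup X] (p : ℕ) : HerbrandPair X where
  D := (p : AddMonoid.End X)
  N := 0
  D_N _ := map_zero _
  N_D _ := rfl

lemma mulPair_isStable (H : AddSubgroup X) : (mulPair X p).IsStable H :=
  ⟨fun _ ha => H.nsmul_mem ha p, fun _ _ => H.zero_mem⟩

lemma mulPair_restrict_D (H : AddSubgroup X) :
    ((mulPair X p).restrict H (mulPair_isStable p H)).D = (p : AddMonoid.End H) := by
  ext _
  rfl

lemma mulPair_restrict_N (H : AddSubgroup X) :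
    ((mulPair X p).restrict H (mulPair_isStable p H)).N = 0 := by
  ext a
  rfl

lemma mulPair_quotient_D (H : AddSubgroup X) :
    ((mulPair X p).quotient H (mulPair_isStable p H)).D = (p : AddMonoid.End (X ⧸ H)) := by
  ext _
  rfl

lemma mulPair_quotient_N (H : AddSubgroup X) :
    ((mulPair X p).quotient H (mulPair_isStable p H)).N = 0 := by
  ext a
  rfl

end main

section quotient

variable (p : ℕ) (σ : AddMonoid.End X) (hσ : σ ^ p = 1)

/-- the endomorphism induced by `σ` on `X / X^σ`. -/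
def sigmaQuot : AddMonoid.End (X ⧸ (cyclicPair p σ hσ).D.ker) :=
  QuotientAddGroup.map _ _ (σ : X →+ X) (fun a ha => by
    rw [AddSubgroup.mem_comap]
    have h : (σ : X →+ X) a = a := (mem_ker_cyclicPair_D p σ hσ a).mp ha
    exact h.symm ▸ ha)

lemma sigmaQuot_mk (x : X) : sigmaQuot p σ hσ (QuotientAddGroup.mk x) = QuotientAddGroup.mk (σ x) :=
  rfl

lemma sigmaQuot_pow_mk (i : ℕ) (x : X) :
    (sigmaQuot p σ hσ ^ i) (QuotientAddGroup.mk x) = QuotientAddGroup.mk ((σ ^ i) x) := by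
  induction i generalizing x with
  | zero => rfl
  | succ i ih =>
    rw [pow_succ, pow_succ]
    exact (congrArg (sigmaQuot p σ hσ ^ i) (sigmaQuot_mk p σ hσ x)).trans (ih (σ x))

lemma quotient_D_eq :
    ((cyclicPair p σ hσ).quotient _ (cyclicPair_isStable p σ hσ)).D =
      (sigmaQuot p σ hσ - 1 : AddMonoid.End _) := by
  ext x
  rfl

lemma quotient_N_eq_zero :
    ((cyclicPair p σ hσ).quotient _ (cyclicPair_isStable p σ hσ)).N = 0 := by
  ext x
  change QuotientAddGroup.mk ((cyclicPair p σ hσ).N x) = 0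
  rw [QuotientAddGroup.eq_zero_iff]
  exact (cyclicPair p σ hσ).D_N x

lemma sum_sigmaQuot_pow :
    (∑ i ∈ Finset.range p, sigmaQuot p σ hσ ^ i : AddMonoid.End _) = 0 := by
  ext x
  induction x using QuotientAddGroup.induction_on with
  | H x =>
    rw [endSum_apply, Finset.sum_congr rfl (fun i _ => sigmaQuot_pow_mk p σ hσ i x)]
    have h1 := DFunLike.congr_fun (quotient_N_eq_zero p σ hσ) (QuotientAddGroup.mk x)
    change QuotientAddGroup.mk ((cyclicPair p σ hσ).N x) = 0 at h1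
    rw [cyclicPair_N_apply] at h1
    exact ((map_sum (QuotientAddGroup.mk' (cyclicPair p σ hσ).D.ker)
      (fun i => (σ ^ i) x) (Finset.range p)).symm.trans h1)

/-- On `X / X^σ`, `(σ - 1) ^ (p - 1) = p * v` with `v` invertible. -/
lemma exists_unit_sigmaQuot [hp : Fact p.Prime] :
    ∃ u v : AddMonoid.End (X ⧸ (cyclicPair p σ hσ).D.ker), u * v = 1 ∧ v * u = 1 ∧
      (sigmaQuot p σ hσ - 1) ^ (p - 1) = (p : AddMonoid.End _) * v := by
  obtain ⟨U, V, G, H, h1, h2⟩ := exists_cyclotomic_unit_identity p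
  set φ := Polynomial.aeval (R := ℤ) (sigmaQuot p σ hσ) with hφ
  have hcyc : φ (cyclotomic p ℤ) = 0 := by
    rw [cyclotomic_prime ℤ p, map_sum]
    simp only [map_pow, hφ, aeval_X]
    exact sum_sigmaQuot_pow p σ hσ
  have e1 := congrArg φ h1
  have e2 := congrArg φ h2
  have e3 : φ (V * U) = φ (U * V) := by rw [mul_comm]
  simp only [map_mul, map_add, map_pow, map_sub, map_one, hcyc, zero_mul, add_zero] at e1 e2 e3
  rw [hφ, aeval_X] at e1
  have hC : (Polynomial.aeval (R := ℤ) (sigmaQuot p σ hσ)) (C (p : ℤ)) =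
      (p : AddMonoid.End (X ⧸ (cyclicPair p σ hσ).D.ker)) := by
    rw [aeval_C, eq_intCast, Int.cast_natCast]
  rw [hC] at e1
  refine ⟨φ U, φ V, e2, e3.trans e2, ?_⟩
  calc (sigmaQuot p σ hσ - 1) ^ (p - 1)
      = (sigmaQuot p σ hσ - 1) ^ (p - 1) * (φ U * φ V) := by rw [e2, mul_one]
    _ = (p : AddMonoid.End _) * φ V := by rw [← mul_assoc, e1]

end quotient

section final

lemma herbrand_arith_aux {p n a r b c k : ℕ} (hp : 0 < p) (hn : n ≠ 0) (hb : r = a + n * b)
    (h : p ^ a * c ^ n = p ^ r * k ^ n) : c = p ^ b * k := by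
  rw [hb, pow_add, mul_assoc] at h
  have h5 := Nat.eq_of_mul_eq_mul_left (pow_pos hp a) h
  have h6 : c ^ n = (p ^ b * k) ^ n := by
    rw [h5, mul_pow, ← pow_mul, mul_comm n b]
  exact Nat.pow_left_injective hn h6

lemma kerCard_mul_unit {Y : Type*} [AddCommGroup Y] (f u v : AddMonoid.End Y)
    (huv : u * v = 1) (hvu : v * u = 1) :
    kerCard (f * v : AddMonoid.End Y) = kerCard f ∧
      cokerCard (f * v : AddMonoid.End Y) = cokerCard f := by
  have hker : (v : Y →+ Y).ker = ⊥ := by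
    ext x
    rw [AddMonoidHom.mem_ker, AddSubgroup.mem_bot]
    constructor
    · intro hx
      have h1 : (u * v) x = x := by rw [huv]; rfl
      have h2 : (u * v) x = u (v x) := rfl
      rw [← h1, h2]
      exact (congrArg u hx).trans (map_zero u)
    · rintro rfl
      exact map_zero v
  have hrange : (v : Y →+ Y).range = ⊤ := by
    ext x
    simp only [AddSubgroup.mem_top, iff_true]
    refine ⟨u x, ?_⟩
    have h1 : (v * u) x = x := by rw [hvu]; rfl
    exact h1
  have e : (f * v : AddMonoid.End Y) = AddMonoidHom.comp (f : Y →+ Y) (v : Y →+ Y) := rfl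
  constructor
  · rw [e, kerCard_comp_eq, hrange, inf_top_eq]
    have : kerCard (v : Y →+ Y) = 1 := by
      unfold kerCard
      rw [hker]
      simp
    rw [this, one_mul]
    rfl
  · rw [e, cokerCard_comp_eq, hrange, top_sup_eq, AddSubgroup.index_top, one_mul]

variable (p : ℕ) (σ : AddMonoid.End X) (hσ : σ ^ p = 1)

lemma restrict_D_eq_zero :
    ((cyclicPair p σ hσ).restrict _ (cyclicPair_isStable p σ hσ)).D = 0 := by
  ext a
  exact AddMonoidHom.mem_ker.mp a.2

lemma restrict_N_eq :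
    ((cyclicPair p σ hσ).restrict _ (cyclicPair_isStable p σ hσ)).N =
      (p : AddMonoid.End (cyclicPair p σ hσ).D.ker) := by
  ext a
  exact cyclicPair_N_apply_of_fixed p σ hσ ((mem_ker_cyclicPair_D p σ hσ a).mp a.2)

/-- **The Herbrand quotient over a cyclic group of prime order, via ranks.**  If
`[X : pX] = p ^ r * #X[p]`, `[A : pA] = p ^ a * #A[p]` for `A = X^σ`, and
`r = a + (p - 1) * b`, then `h0 * p ^ b = h1 * p ^ a` (and both indices are finite). -/
theorem herbrand_rank_formula [hp : Fact p.Prime] (r a b : ℕ)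
    (hX : cokerCard (p : AddMonoid.End X) = p ^ r * kerCard (p : AddMonoid.End X))
    (hX0 : kerCard (p : AddMonoid.End X) ≠ 0)
    (hA : cokerCard (p : AddMonoid.End (cyclicPair p σ hσ).D.ker) =
      p ^ a * kerCard (p : AddMonoid.End (cyclicPair p σ hσ).D.ker))
    (hA0 : kerCard (p : AddMonoid.End (cyclicPair p σ hσ).D.ker) ≠ 0)
    (hb : r = a + (p - 1) * b) :
    (cyclicPair p σ hσ).h0 ≠ 0 ∧ (cyclicPair p σ hσ).h1 ≠ 0 ∧
      (cyclicPair p σ hσ).h0 * p ^ b = (cyclicPair p σ hσ).h1 * p ^ a := by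
  have hp0 : p ≠ 0 := hp.out.ne_zero
  have hn : p - 1 ≠ 0 := by have := hp.out.two_le; omega
  set P := cyclicPair p σ hσ with hP
  set A := P.D.ker with hAdef
  have hst : P.IsStable A := cyclicPair_isStable p σ hσ
  set Q := mulPair X p with hQdef
  have hQst : Q.IsStable A := mulPair_isStable p A
  -- the `p`-pair
  have hQ0 : Q.h0 = kerCard (p : AddMonoid.End X) := h0_of_N_eq_zero Q rfl
  have hQ1 : Q.h1 = cokerCard (p : AddMonoid.End X) := h1_of_N_eq_zero Q rfl
  have hQA0 : (Q.restrict A hQst).h0 = kerCard (p : AddMonoid.End A) := by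
    rw [h0_of_N_eq_zero _ (mulPair_restrict_N p A), mulPair_restrict_D]
  have hQA1 : (Q.restrict A hQst).h1 = cokerCard (p : AddMonoid.End A) := by
    rw [h1_of_N_eq_zero _ (mulPair_restrict_N p A), mulPair_restrict_D]
  have hQM0 : (Q.quotient A hQst).h0 = kerCard (p : AddMonoid.End (X ⧸ A)) := by
    rw [h0_of_N_eq_zero _ (mulPair_quotient_N p A), mulPair_quotient_D]
  have hQM1 : (Q.quotient A hQst).h1 = cokerCard (p : AddMonoid.End (X ⧸ A)) := by
    rw [h1_of_N_eq_zero _ (mulPair_quotient_N p A), mulPair_quotient_D]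
  have hcX0 : cokerCard (p : AddMonoid.End X) ≠ 0 := by
    rw [hX]; exact mul_ne_zero (pow_ne_zero _ hp0) hX0
  have hcA0 : cokerCard (p : AddMonoid.End A) ≠ 0 := by
    rw [hA]; exact mul_ne_zero (pow_ne_zero _ hp0) hA0
  have hexQ := Q.hexagon_subgroup A hQst
  rw [hQ0, hQ1, hQA0, hQA1, hQM0, hQM1] at hexQ
  obtain ⟨hkM0, hcM0⟩ := HerbrandPair.ne_zero_right (Q.isHom_subtype A hQst)
    (Q.isHom_mk' A hQst) A.subtype_injective (QuotientAddGroup.mk'_surjective A)
    (by rw [AddSubgroup.range_subtype, QuotientAddGroup.ker_mk'])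
    (by rw [hQA0]; exact hA0) (by rw [hQA1]; exact hcA0) (by rw [hQ0]; exact hX0)
    (by rw [hQ1]; exact hcX0)
  rw [hQM0] at hkM0
  rw [hQM1] at hcM0
  have hM : p ^ a * cokerCard (p : AddMonoid.End (X ⧸ A)) =
      p ^ r * kerCard (p : AddMonoid.End (X ⧸ A)) := by
    rw [hX, hA] at hexQ
    apply Nat.eq_of_mul_eq_mul_left (Nat.pos_of_ne_zero (mul_ne_zero hX0 hA0))
    calc kerCard (p : AddMonoid.End X) * kerCard (p : AddMonoid.End A) *
          (p ^ a * cokerCard (p : AddMonoid.End (X ⧸ A)))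
        = kerCard (p : AddMonoid.End X) * (p ^ a * kerCard (p : AddMonoid.End A)) *
            cokerCard (p : AddMonoid.End (X ⧸ A)) := by ring
      _ = p ^ r * kerCard (p : AddMonoid.End X) * kerCard (p : AddMonoid.End A) *
            kerCard (p : AddMonoid.End (X ⧸ A)) := hexQ
      _ = _ := by ring
  -- the quotient
  obtain ⟨u, v, huv, hvu, hδ⟩ := exists_unit_sigmaQuot p σ hσ
  set δ : AddMonoid.End (X ⧸ A) := sigmaQuot p σ hσ - 1 with hδdef
  obtain ⟨hk, hc⟩ := kerCard_mul_unit (p : AddMonoid.End (X ⧸ A)) u v huv hvu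
  rw [← hδ] at hk hc
  have hpow := cokerCard_pow_mul δ (p - 1) (by rw [hk]; exact hkM0)
  rw [hk, hc] at hpow
  have hkδ : kerCard δ ≠ 0 :=
    kerCard_ne_zero_of_le (ker_le_ker_pow δ hn) (by rw [hk]; exact hkM0)
  have h3 : p ^ a * cokerCard δ ^ (p - 1) = p ^ r * kerCard δ ^ (p - 1) := by
    apply Nat.eq_of_mul_eq_mul_right (Nat.pos_of_ne_zero hkM0)
    calc p ^ a * cokerCard δ ^ (p - 1) * kerCard (p : AddMonoid.End (X ⧸ A))
        = p ^ a * (cokerCard δ ^ (p - 1) * kerCard (p : AddMonoid.End (X ⧸ A))) := by ring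
      _ = p ^ a * cokerCard (p : AddMonoid.End (X ⧸ A)) * kerCard δ ^ (p - 1) := by
          rw [← hpow]; ring
      _ = p ^ r * kerCard δ ^ (p - 1) * kerCard (p : AddMonoid.End (X ⧸ A)) := by
          rw [hM]; ring
  have h4 : cokerCard δ = p ^ b * kerCard δ := herbrand_arith_aux hp.out.pos hn hb h3
  have hcδ : cokerCard δ ≠ 0 := by
    rw [h4]; exact mul_ne_zero (pow_ne_zero _ hp0) hkδ
  -- the hexagon of the cyclic pair
  have hPA0 : (P.restrict A hst).h0 = cokerCard (p : AddMonoid.End A) := by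
    rw [h0_of_D_eq_zero _ (restrict_D_eq_zero p σ hσ), restrict_N_eq]
  have hPA1 : (P.restrict A hst).h1 = kerCard (p : AddMonoid.End A) := by
    rw [h1_of_D_eq_zero _ (restrict_D_eq_zero p σ hσ), restrict_N_eq]
  have hPM0 : (P.quotient A hst).h0 = kerCard δ := by
    rw [h0_of_N_eq_zero _ (quotient_N_eq_zero p σ hσ), quotient_D_eq]
  have hPM1 : (P.quotient A hst).h1 = cokerCard δ := by
    rw [h1_of_N_eq_zero _ (quotient_N_eq_zero p σ hσ), quotient_D_eq]
  have hexP := P.hexagon_subgroup A hst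
  rw [hPA0, hPA1, hPM0, hPM1, hA, h4] at hexP
  obtain ⟨hP0, hP1⟩ := HerbrandPair.ne_zero_mid (P.isHom_subtype A hst)
    (P.isHom_mk' A hst) A.subtype_injective (QuotientAddGroup.mk'_surjective A)
    (by rw [AddSubgroup.range_subtype, QuotientAddGroup.ker_mk'])
    (by rw [hPA0]; exact hcA0) (by rw [hPA1]; exact hA0) (by rw [hPM0]; exact hkδ)
    (by rw [hPM1]; exact hcδ)
  refine ⟨hP0, hP1, ?_⟩
  apply Nat.eq_of_mul_eq_mul_left (Nat.pos_of_ne_zero (mul_ne_zero hA0 hkδ))
  calc kerCard (p : AddMonoid.End A) * kerCard δ * (P.h0 * p ^ b)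
      = P.h0 * kerCard (p : AddMonoid.End A) * (p ^ b * kerCard δ) := by ring
    _ = P.h1 * (p ^ a * kerCard (p : AddMonoid.End A)) * kerCard δ := hexP
    _ = _ := by ring

end final

end Fermat.Agent.H43.Cft
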