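import Mathlib
import Fermat.Agent.H43.Cft.SUnit
import Fermat.Agent.H43.Cft.EndoIndex

/-!
# The kernel of the `m`-th power map on the `S`-units, and the translation to `kerCard`,
`cokerCard` of multiplication by `m` on `Additive (SUnits K S)`.
-/

open NumberField IsDedekindDomain NumberField.Units

namespace Fermat.Agent.H43.Cft

/-- the number of solutions of `x ^ m = 1` in `G` (`0` if infinite). -/
noncomputable def powKer (G : Type*) [CommGroup G] (m : ℕ) : ℕ :=
  Nat.card (powMonoidHom m : G →* G).ker

lemma powKer_congr {G H : Type*} [CommGroup G] [CommGroup H] (e : G ≃* H) (m : ℕ) :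
    powKer G m = powKer H m := by
  unfold powKer
  refine Nat.card_congr ⟨fun x => ⟨e x.1, ?_⟩, fun y => ⟨e.symm y.1, ?_⟩, fun x => ?_, fun y => ?_⟩
  · have := x.2
    rw [MonoidHom.mem_ker, powMonoidHom_apply] at this ⊢
    rw [← map_pow, this, map_one]
  · have := y.2
    rw [MonoidHom.mem_ker, powMonoidHom_apply] at this ⊢
    rw [← map_pow, this, map_one]
  · ext; simp
  · ext; simp

lemma powKer_prod (G H : Type*) [CommGroup G] [CommGroup H] (m : ℕ) :
    powKer (G × H) m = powKer G m * powKer H m := by
  unfold powKer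
  rw [← Nat.card_prod]
  refine Nat.card_congr ⟨fun x => (⟨x.1.1, ?_⟩, ⟨x.1.2, ?_⟩), fun y => ⟨(y.1.1, y.2.1), ?_⟩,
    fun x => ?_, fun y => ?_⟩
  · have := x.2
    rw [MonoidHom.mem_ker, powMonoidHom_apply] at this ⊢
    exact congrArg Prod.fst this
  · have := x.2
    rw [MonoidHom.mem_ker, powMonoidHom_apply] at this ⊢
    exact congrArg Prod.snd this
  · have h1 := y.1.2
    have h2 := y.2.2
    rw [MonoidHom.mem_ker, powMonoidHom_apply] at h1 h2 ⊢
    exact Prod.ext h1 h2
  · rfl
  · rfl

lemma powKer_multiplicative_pi (ι : Type*) {m : ℕ} (hm : m ≠ 0) :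
    powKer (Multiplicative (ι → ℤ)) m = 1 := by
  unfold powKer
  have : (powMonoidHom m : Multiplicative (ι → ℤ) →* Multiplicative (ι → ℤ)).ker = ⊥ := by
    rw [Subgroup.eq_bot_iff_forall]
    intro x hx
    rw [MonoidHom.mem_ker, powMonoidHom_apply] at hx
    have h1 : m • Multiplicative.toAdd x = 0 := congrArg Multiplicative.toAdd hx
    have h2 : Multiplicative.toAdd x = 0 := by
      funext i
      have := congrFun h1 i
      simp only [Pi.smul_apply, smul_eq_mul, Pi.zero_apply, nsmul_eq_mul, mul_eq_zero,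
        Nat.cast_eq_zero] at this
      rcases this with h | h
      · exact absurd h hm
      · exact h
    exact congrArg Multiplicative.ofAdd h2
  rw [this]
  simp

lemma powKer_of_isCyclic (G : Type*) [CommGroup G] [IsCyclic G] [Finite G] (m : ℕ) :
    powKer G m = (Nat.card G).gcd m :=
  IsCyclic.card_powMonoidHom_ker G m

lemma powKer_of_fundSystem {G H : Type*} [CommGroup G] [CommGroup H] {n : ℕ}
    (ι : H →* G) (u : Fin n → G)
    (h : ∀ x : G, ∃! he : H × (Fin n → ℤ), x = ι he.1 * ∏ i, u i ^ he.2 i) {m : ℕ}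
    (hm : m ≠ 0) :
    powKer G m = powKer H m := by
  rw [← powKer_congr (equivOfFundSystem ι u h), powKer_prod, powKer_multiplicative_pi _ hm,
    mul_one]

variable (K : Type*) [Field K] [NumberField K]
variable (S : Finset (HeightOneSpectrum (𝓞 K)))

theorem powKer_units {m : ℕ} (hm : m ≠ 0) :
    powKer (𝓞 K)ˣ m = (torsionOrder K).gcd m := by
  rw [powKer_of_fundSystem (torsion K).subtype (fundSystem K)
    (fun x => exist_unique_eq_mul_prod K x) hm, powKer_of_isCyclic]
  rfl

theorem powKer_sUnits {m : ℕ} (hm : m ≠ 0) :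
    powKer (SUnits K S) m = (torsionOrder K).gcd m := by
  rw [powKer_of_fundSystem (unitsToSUnits K S) (sFundSystem K S) (exist_unique_sUnit_eq K S) hm,
    powKer_units K hm]

/-- `[E_S : E_S^m] = m ^ (rank + #S) * #E_S[m]`. -/
theorem powIndex_sUnits_eq_pow_mul_powKer {m : ℕ} (hm : m ≠ 0) :
    powIndex (SUnits K S) m = m ^ (Units.rank K + S.card) * powKer (SUnits K S) m := by
  rw [powIndex_sUnits_eq_mul, powIndex_units, powKer_sUnits K S hm]
  ring

lemma powKer_sUnits_ne_zero {m : ℕ} (hm : m ≠ 0) : powKer (SUnits K S) m ≠ 0 := by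
  rw [powKer_sUnits K S hm]
  exact Nat.gcd_ne_zero_right hm

section additive

variable (G : Type*) [CommGroup G]

lemma cokerCard_natCast_additive (m : ℕ) :
    cokerCard ((m : AddMonoid.End (Additive G)) : Additive G →+ Additive G) = powIndex G m := by
  unfold cokerCard powIndex
  have h : (powMonoidHom m : G →* G).range =
      AddSubgroup.toSubgroup' ((m : AddMonoid.End (Additive G)) : Additive G →+ Additive G).range := by
    ext y
    constructor
    · rintro ⟨x, rfl⟩
      exact ⟨Additive.ofMul x, rfl⟩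
    · rintro ⟨x, hx⟩
      exact ⟨Additive.toMul x, hx⟩
  rw [h]
  rfl

lemma kerCard_natCast_additive (m : ℕ) :
    kerCard ((m : AddMonoid.End (Additive G)) : Additive G →+ Additive G) = powKer G m := by
  unfold kerCard powKer
  refine Nat.card_congr ⟨fun x => ⟨Additive.toMul x.1, ?_⟩, fun y => ⟨Additive.ofMul y.1, ?_⟩,
    fun x => rfl, fun y => rfl⟩
  · have := x.2
    rw [AddMonoidHom.mem_ker] at this
    rw [MonoidHom.mem_ker, powMonoidHom_apply]
    exact this
  · have := y.2
    rw [MonoidHom.mem_ker, powMonoidHom_apply] at this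
    rw [AddMonoidHom.mem_ker]
    exact this

end additive

/-- The `p`-rank statement for the `S`-units, in the form used by `herbrand_rank_formula`. -/
theorem cokerCard_sUnits {m : ℕ} (hm : m ≠ 0) :
    cokerCard ((m : AddMonoid.End (Additive (SUnits K S))) :
        Additive (SUnits K S) →+ Additive (SUnits K S)) =
      m ^ (Units.rank K + S.card) *
        kerCard ((m : AddMonoid.End (Additive (SUnits K S))) :
          Additive (SUnits K S) →+ Additive (SUnits K S)) := by
  rw [cokerCard_natCast_additive, kerCard_natCast_additive,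
    powIndex_sUnits_eq_pow_mul_powKer K S hm]

theorem kerCard_sUnits_ne_zero {m : ℕ} (hm : m ≠ 0) :
    kerCard ((m : AddMonoid.End (Additive (SUnits K S))) :
        Additive (SUnits K S) →+ Additive (SUnits K S)) ≠ 0 := by
  rw [kerCard_natCast_additive]
  exact powKer_sUnits_ne_zero K S hm

end Fermat.Agent.H43.Cft
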