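import Mathlib
import Fermat.Agent.H24.Herbrand
import Fermat.Agent.H43.Cft.HerbrandRank
import Fermat.Agent.H43.Cft.PowKer
import Fermat.Agent.H43.Cft.GaloisSUnit
import Fermat.Agent.H43.Cft.G1Leaves

/-!
# The Herbrand quotient of the `T`-units in a cyclic extension of odd prime degree
-/

open NumberField IsDedekindDomain NumberField.Units
open Fermat.Agent.H24

namespace Fermat.Agent.H43.Cft

section congr

variable {X Y : Type*} [AddCommGroup X] [AddCommGroup Y]

lemma natCast_end_apply (m : ℕ) (x : X) : ((m : AddMonoid.End X) : X →+ X) x = m • x := by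
  induction m with
  | zero => simp
  | succ n ih =>
    rw [Nat.cast_succ, succ_nsmul, ← ih]
    rfl

lemma natCast_end_map (e : X ≃+ Y) (m : ℕ) (x : X) :
    e (((m : AddMonoid.End X) : X →+ X) x) = ((m : AddMonoid.End Y) : Y →+ Y) (e x) :=
  (congrArg e (natCast_end_apply m x)).trans
    ((map_nsmul e m x).trans (natCast_end_apply m (e x)).symm)

lemma cokerCard_natCast_congr (e : X ≃+ Y) (m : ℕ) :
    cokerCard ((m : AddMonoid.End X) : X →+ X) = cokerCard ((m : AddMonoid.End Y) : Y →+ Y) := by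
  unfold cokerCard
  have h : ((m : AddMonoid.End Y) : Y →+ Y).range =
      (((m : AddMonoid.End X) : X →+ X).range).map (e : X →+ Y) := by
    ext y
    constructor
    · rintro ⟨z, rfl⟩
      refine ⟨((m : AddMonoid.End X) : X →+ X) (e.symm z), ⟨_, rfl⟩, ?_⟩
      exact (natCast_end_map e m (e.symm z)).trans
        (congrArg (((m : AddMonoid.End Y) : Y →+ Y)) (e.apply_symm_apply z))
    · rintro ⟨_, ⟨x, rfl⟩, rfl⟩
      exact ⟨e x, (natCast_end_map e m x).symm⟩
  rw [h]
  exact (AddSubgroup.index_map_equiv _ e).symm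

lemma kerCard_natCast_congr (e : X ≃+ Y) (m : ℕ) :
    kerCard ((m : AddMonoid.End X) : X →+ X) = kerCard ((m : AddMonoid.End Y) : Y →+ Y) := by
  unfold kerCard
  refine Nat.card_congr ⟨fun x => ⟨e x.1, ?_⟩, fun y => ⟨e.symm y.1, ?_⟩, fun x => ?_, fun y => ?_⟩
  · have h1 : ((m : AddMonoid.End X) : X →+ X) x.1 = 0 := AddMonoidHom.mem_ker.mp x.2
    exact AddMonoidHom.mem_ker.mpr
      ((natCast_end_map e m x.1).symm.trans ((congrArg e h1).trans (map_zero e)))
  · have h1 : ((m : AddMonoid.End Y) : Y →+ Y) y.1 = 0 := AddMonoidHom.mem_ker.mp y.2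
    exact AddMonoidHom.mem_ker.mpr
      ((natCast_end_map e.symm m y.1).symm.trans ((congrArg e.symm h1).trans (map_zero e.symm)))
  · ext; simp
  · ext; simp

end congr

section setting

variable (K : Type*) [Field K] [NumberField K]
variable (L : Type*) [Field L] [NumberField L] [Algebra K L]
variable (T : Finset (HeightOneSpectrum (𝓞 K)))

/-- the endomorphism of `Additive (T_L-units)` induced by `σ`. -/
noncomputable def sigmaX (σ : L ≃ₐ[K] L) : AddMonoid.End (Additive (SUnits L (primesAbove K L T))) :=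
  MonoidHom.toAdditive (sUnitsGal K L T σ)

lemma sigmaX_apply (σ : L ≃ₐ[K] L) (x : Additive (SUnits L (primesAbove K L T))) :
    sigmaX K L T σ x = Additive.ofMul (sUnitsGal K L T σ (Additive.toMul x)) := rfl

lemma sigmaX_pow (σ : L ≃ₐ[K] L) (n : ℕ) : sigmaX K L T σ ^ n = sigmaX K L T (σ ^ n) := by
  induction n with
  | zero =>
    rw [pow_zero, pow_zero]
    ext x
    rfl
  | succ n ih =>
    rw [pow_succ, pow_succ, ih]
    ext x
    rfl

lemma sigmaX_pow_card [IsGalois K L] {p : ℕ} (hp : Module.finrank K L = p) (σ : L ≃ₐ[K] L) :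
    sigmaX K L T σ ^ p = 1 := by
  rw [sigmaX_pow]
  have h1 : σ ^ p = 1 := by
    rw [← hp, ← IsGalois.card_aut_eq_finrank]
    exact pow_card_eq_one'
  rw [h1]
  ext x
  rfl

section norm

variable [IsGalois K L]

/-- the product of the conjugates of a `T_L`-unit. -/
noncomputable def galProd (x : SUnits L (primesAbove K L T)) : SUnits L (primesAbove K L T) :=
  ∏ τ : L ≃ₐ[K] L, sUnitsGal K L T τ x

lemma galProd_coe (x : SUnits L (primesAbove K L T)) :
    (((galProd K L T x : SUnits L (primesAbove K L T)) : Lˣ) : L) =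
      algebraMap K L (Algebra.norm K ((x : Lˣ) : L)) := by
  unfold galProd
  rw [Subgroup.val_finsetProd, Units.coe_prod, Algebra.norm_eq_prod_automorphisms]
  rfl

lemma sUnitsGal_galProd (τ : L ≃ₐ[K] L) (x : SUnits L (primesAbove K L T)) :
    sUnitsGal K L T τ (galProd K L T x) = galProd K L T x := by
  unfold galProd
  rw [map_prod]
  refine Fintype.prod_equiv (Equiv.mulLeft τ) _ _ (fun ρ => ?_)
  rw [Equiv.coe_mulLeft, sUnitsGal_mul]
  rfl

lemma norm_mem_sUnits (x : SUnits L (primesAbove K L T)) :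
    Units.map (Algebra.norm K : L →* K) (x : Lˣ) ∈ SUnits K T := by
  obtain ⟨y, hy⟩ := exists_sUnitsBase_eq K L T (galProd K L T x)
    (fun τ => sUnitsGal_galProd K L T τ x)
  have h1 := congrArg (fun z : SUnits L (primesAbove K L T) => ((z : Lˣ) : L)) hy
  simp only [sUnitsBase_coe, galProd_coe] at h1
  have h2 : ((y : Kˣ) : K) = Algebra.norm K ((x : Lˣ) : L) := (algebraMap K L).injective h1
  have h3 : (y : Kˣ) = Units.map (Algebra.norm K : L →* K) (x : Lˣ) := Units.ext h2
  rw [← h3]
  exact y.2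

/-- the norm `O_{L,T}^× → O_{K,T}^×`. -/
noncomputable def sUnitsNorm : SUnits L (primesAbove K L T) →* SUnits K T :=
  ((Units.map (Algebra.norm K : L →* K)).comp (Subgroup.subtype _)).codRestrict _
    (norm_mem_sUnits K L T)

lemma sUnitsNorm_coe (x : SUnits L (primesAbove K L T)) :
    (((sUnitsNorm K L T x : SUnits K T) : Kˣ) : K) = Algebra.norm K ((x : Lˣ) : L) := rfl

end norm

section pair

variable [IsGalois K L] {p : ℕ} (hp : Module.finrank K L = p) (σ : L ≃ₐ[K] L)

/-- the Herbrand pair `(σ - 1, 1 + σ + ⋯ + σ^(p-1))` of the `T_L`-units. -/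
noncomputable def unitPair : HerbrandPair (Additive (SUnits L (primesAbove K L T))) :=
  cyclicPair p (sigmaX K L T σ) (sigmaX_pow_card K L T hp σ)

lemma mem_ker_unitPair_D (x : Additive (SUnits L (primesAbove K L T))) :
    x ∈ (unitPair K L T hp σ).D.ker ↔ sUnitsGal K L T σ (Additive.toMul x) = Additive.toMul x := by
  unfold unitPair
  rw [mem_ker_cyclicPair_D]
  rfl

lemma sUnitsGal_pow_fixed {x : SUnits L (primesAbove K L T)}
    (hx : sUnitsGal K L T σ x = x) (n : ℕ) : sUnitsGal K L T (σ ^ n) x = x := by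
  induction n with
  | zero => rw [pow_zero, sUnitsGal_one]; rfl
  | succ n ih =>
    rw [pow_succ, sUnitsGal_mul, MonoidHom.comp_apply, hx, ih]

variable {σ} in
lemma sUnitsGal_fixed_of_generator (hσ : ∀ τ : L ≃ₐ[K] L, τ ∈ Subgroup.zpowers σ)
    {x : SUnits L (primesAbove K L T)} (hx : sUnitsGal K L T σ x = x) (τ : L ≃ₐ[K] L) :
    sUnitsGal K L T τ x = x := by
  have h1 : τ ∈ Submonoid.powers σ := by
    rw [mem_powers_iff_mem_zpowers]
    exact hσ τ
  obtain ⟨n, rfl⟩ := h1
  exact sUnitsGal_pow_fixed K L T σ hx n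

/-- the fixed points of `σ` on the `T_L`-units are the `T`-units of `K`. -/
noncomputable def fixedEquiv (hσ : ∀ τ : L ≃ₐ[K] L, τ ∈ Subgroup.zpowers σ) :
    Additive (SUnits K T) ≃+ (unitPair K L T hp σ).D.ker :=
  AddEquiv.ofBijective
    (AddMonoidHom.codRestrict (MonoidHom.toAdditive (sUnitsBase K L T)) _ (fun y => by
      rw [mem_ker_unitPair_D]
      exact sUnitsGal_sUnitsBase K L T σ _))
    (by
      constructor
      · intro x y h
        have h1 := congrArg Subtype.val h
        exact sUnitsBase_injective K L T h1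
      · rintro ⟨x, hx⟩
        rw [mem_ker_unitPair_D] at hx
        obtain ⟨y, hy⟩ := exists_sUnitsBase_eq K L T (Additive.toMul x)
          (sUnitsGal_fixed_of_generator K L T hσ hx)
        exact ⟨Additive.ofMul y, Subtype.ext hy⟩)

lemma fixedEquiv_coe (hσ : ∀ τ : L ≃ₐ[K] L, τ ∈ Subgroup.zpowers σ)
    (y : Additive (SUnits K T)) :
    ((fixedEquiv K L T hp σ hσ y : (unitPair K L T hp σ).D.ker) :
      Additive (SUnits L (primesAbove K L T))) =
      Additive.ofMul (sUnitsBase K L T (Additive.toMul y)) := rfl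

open scoped Classical in
/-- **The Herbrand quotient of the `T_L`-units** (rank form). -/
theorem unitPair_formula (hcnt : PlaceCountStatement.{u_1, u_2}) (hpp : p.Prime) (hp2 : p ≠ 2)
    (hσ : ∀ τ : L ≃ₐ[K] L, τ ∈ Subgroup.zpowers σ) :
    (unitPair K L T hp σ).h0 ≠ 0 ∧ (unitPair K L T hp σ).h1 ≠ 0 ∧
      (unitPair K L T hp σ).h0 *
          p ^ (Fintype.card (InfinitePlace K) + T.card - (T.filter (Nonsplit K L)).card) =
        (unitPair K L T hp σ).h1 * p ^ (Units.rank K + T.card) := by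
  haveI : Fact p.Prime := ⟨hpp⟩
  obtain ⟨hinf, hfin⟩ := hcnt K L p hpp hp2 hp
  have hT := hfin T
  have hp0 : p ≠ 0 := hpp.ne_zero
  have htle : (T.filter (Nonsplit K L)).card ≤ T.card := Finset.card_filter_le _ _
  refine herbrand_rank_formula p (sigmaX K L T σ) (sigmaX_pow_card K L T hp σ)
    (Units.rank L + (primesAbove K L T).card) (Units.rank K + T.card)
    (Fintype.card (InfinitePlace K) + T.card - (T.filter (Nonsplit K L)).card)
    (cokerCard_sUnits L (primesAbove K L T) hp0) (kerCard_sUnits_ne_zero L _ hp0) ?_ ?_ ?_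
  · have e := fixedEquiv K L T hp σ hσ
    exact (cokerCard_natCast_congr e p).symm.trans ((cokerCard_sUnits K T hp0).trans
      (congrArg (fun k => p ^ (Units.rank K + T.card) * k) (kerCard_natCast_congr e p)))
  · have e := fixedEquiv K L T hp σ hσ
    exact fun h => kerCard_sUnits_ne_zero K T hp0 ((kerCard_natCast_congr e p).trans h)
  · unfold Units.rank
    rw [hinf]
    have hI : 0 < Fintype.card (InfinitePlace K) := Fintype.card_pos
    obtain ⟨q, rfl⟩ : ∃ q, p = q + 1 := ⟨p - 1, by have := hpp.two_le; omega⟩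
    obtain ⟨I, hI'⟩ : ∃ I, Fintype.card (InfinitePlace K) = I + 1 := ⟨_, (Nat.succ_pred_eq_of_pos hI).symm⟩
    obtain ⟨d, hd⟩ : ∃ d, T.card = (T.filter (Nonsplit K L)).card + d := ⟨_, (Nat.add_sub_cancel' htle).symm⟩
    rw [hI'] at *
    rw [hd] at hT ⊢
    generalize (T.filter (Nonsplit K L)).card = t at *
    generalize (primesAbove K L T).card = TL at *
    have h1 : (q + 1) * (I + 1) - 1 = q * I + q + I := by
      have : (q + 1) * (I + 1) = q * I + q + I + 1 := by ring
      rw [this]; rfl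
    have h2 : I + 1 + (t + d) - t = I + 1 + d := by omega
    have h3 : TL = t + d + q * d := by
      have : TL + q * t = q * t + (t + d + q * d) := by
        have h4 : (q + 1) * (t + d) = q * t + (t + d + q * d) := by ring
        rw [← h4]
        simpa using hT
      omega
    rw [h1, h2, h3]
    simp only [Nat.add_sub_cancel]
    ring

include hp in
/-- a product over a cyclic group of order `p` with generator `σ`. -/
lemma prod_gal_eq_prod_range (hpp : p.Prime) (hσ : ∀ τ : L ≃ₐ[K] L, τ ∈ Subgroup.zpowers σ)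
    (f : (L ≃ₐ[K] L) → L) :
    ∏ τ : L ≃ₐ[K] L, f τ = ∏ i ∈ Finset.range p, f (σ ^ i) := by
  classical
  have hcard : Nat.card (L ≃ₐ[K] L) = p := (IsGalois.card_aut_eq_finrank K L).trans hp
  have hord : orderOf σ = p := by
    rw [← hcard]
    exact orderOf_eq_card_of_forall_mem_zpowers hσ
  symm
  refine Finset.prod_bij (fun i _ => σ ^ i) (fun _ _ => Finset.mem_univ _) ?_ ?_ (fun _ _ => rfl)
  · intro i hi j hj hij
    rw [Finset.mem_range, ← hord] at hi hj
    exact pow_injOn_Iio_orderOf hi hj hij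
  · intro τ _
    have h1 : τ ∈ Submonoid.powers σ := by
      rw [mem_powers_iff_mem_zpowers]
      exact hσ τ
    obtain ⟨n, rfl⟩ := h1
    refine ⟨n % p, Finset.mem_range.mpr (Nat.mod_lt _ hpp.pos), ?_⟩
    change σ ^ (n % p) = σ ^ n
    rw [← hord, pow_mod_orderOf]

lemma unitPair_N_coe (x : Additive (SUnits L (primesAbove K L T))) :
    ((Additive.toMul ((unitPair K L T hp σ).N x) : SUnits L (primesAbove K L T)) : Lˣ) =
      ∏ i ∈ Finset.range p, Units.map ((σ ^ i : L ≃ₐ[K] L) : L →* L)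
        ((Additive.toMul x : SUnits L (primesAbove K L T)) : Lˣ) := by
  unfold unitPair
  rw [cyclicPair_N_apply]
  have h1 : ∀ i : ℕ, (sigmaX K L T σ ^ i) x =
      Additive.ofMul (sUnitsGal K L T (σ ^ i) (Additive.toMul x)) := fun i => by
    rw [sigmaX_pow]
    rfl
  rw [Finset.sum_congr rfl (fun i _ => h1 i), ← ofMul_prod, toMul_ofMul, Subgroup.val_finsetProd]
  rfl

lemma unitPair_N_coe' (hpp : p.Prime) (hσ : ∀ τ : L ≃ₐ[K] L, τ ∈ Subgroup.zpowers σ)
    (x : Additive (SUnits L (primesAbove K L T))) :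
    (((Additive.toMul ((unitPair K L T hp σ).N x) : SUnits L (primesAbove K L T)) : Lˣ) : L) =
      algebraMap K L (Algebra.norm K (((Additive.toMul x : SUnits L (primesAbove K L T)) : Lˣ) : L)) := by
  rw [unitPair_N_coe, Algebra.norm_eq_prod_automorphisms,
    prod_gal_eq_prod_range K L hp σ hpp hσ, Units.coe_prod]
  rfl

/-- `H¹ = 0` for the `T_L`-units, from the leaf `UnitsH1Statement`. -/
theorem unitPair_h1_eq_one (hH1 : UnitsH1Statement.{u_1, u_2}) (hcs : CyclicSetting K L p T)
    (hσ : ∀ τ : L ≃ₐ[K] L, τ ∈ Subgroup.zpowers σ) :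
    (unitPair K L T hp σ).h1 = 1 := by
  unfold HerbrandPair.h1
  rw [AddSubgroup.relIndex_eq_one]
  intro x hx
  rw [AddMonoidHom.mem_ker] at hx
  have h1 := unitPair_N_coe' K L T hp σ hcs.prime hσ x
  rw [hx] at h1
  have h2 : Algebra.norm K (((Additive.toMul x : SUnits L (primesAbove K L T)) : Lˣ) : L) = 1 := by
    apply (algebraMap K L).injective
    rw [← h1, map_one]
    rfl
  obtain ⟨y, hy, hxy⟩ := hH1 K L p T hcs σ hσ (Additive.toMul x : SUnits L (primesAbove K L T))
    (Additive.toMul x).2 h2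
  refine ⟨Additive.ofMul ⟨y, hy⟩, ?_⟩
  unfold unitPair
  rw [cyclicPair_D_apply]
  apply Additive.toMul.injective
  apply sUnits_ext
  have h3 : Additive.toMul (sigmaX K L T σ (Additive.ofMul ⟨y, hy⟩) - Additive.ofMul ⟨y, hy⟩) =
      sUnitsGal K L T σ ⟨y, hy⟩ / (⟨y, hy⟩ : SUnits L (primesAbove K L T)) := rfl
  rw [h3, hxy, Subgroup.coe_div, Units.val_div_eq_div_val]
  rfl

/-- `h0` of the unit pair is the index of the norms of `T_L`-units in the `T`-units. -/
theorem unitPair_h0 (hpp : p.Prime) (hσ : ∀ τ : L ≃ₐ[K] L, τ ∈ Subgroup.zpowers σ) :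
    (unitPair K L T hp σ).h0 = (sUnitsNorm K L T).range.index := by
  unfold HerbrandPair.h0 AddSubgroup.relIndex
  set e := fixedEquiv K L T hp σ hσ with he
  have hsurj : Function.Surjective (e : Additive (SUnits K T) →+ (unitPair K L T hp σ).D.ker) :=
    e.surjective
  rw [← AddSubgroup.index_comap_of_surjective _ hsurj]
  have h : (((unitPair K L T hp σ).N.range.addSubgroupOf (unitPair K L T hp σ).D.ker).comap
      (e : Additive (SUnits K T) →+ (unitPair K L T hp σ).D.ker)) =
      Subgroup.toAddSubgroup (sUnitsNorm K L T).range := by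
    ext y
    rw [AddSubgroup.mem_comap, AddSubgroup.mem_addSubgroupOf]
    change Additive.ofMul (sUnitsBase K L T (Additive.toMul y)) ∈ _ ↔
      Additive.toMul y ∈ (sUnitsNorm K L T).range
    constructor
    · rintro ⟨x, hx⟩
      refine ⟨Additive.toMul x, ?_⟩
      apply sUnits_ext
      apply (algebraMap K L).injective
      rw [sUnitsNorm_coe, ← unitPair_N_coe' K L T hp σ hpp hσ x, hx]
      rfl
    · rintro ⟨x, hx⟩
      refine ⟨Additive.ofMul x, ?_⟩
      apply Additive.toMul.injective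
      apply sUnits_ext
      rw [unitPair_N_coe' K L T hp σ hpp hσ (Additive.ofMul x)]
      change algebraMap K L (Algebra.norm K ((x : Lˣ) : L)) =
        algebraMap K L (((Additive.toMul y : SUnits K T) : Kˣ) : K)
      rw [← hx]
      rfl
  rw [h]
  rfl

end pair

end setting

end Fermat.Agent.H43.Cft
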