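import Mathlib
import Fermat.Agent.H43.Cft.SUnitHerbrand

/-!
# The first inequality (global norm index), assembled from the leaves
-/

open NumberField IsDedekindDomain NumberField.Units
open Fermat.Agent.H24

namespace Fermat.Agent.H43.Cft

/-- **Corollary of weak approximation** (index of an intersection of open subgroups at
distinct places). -/
def WeakApproxIndexStatement.{u} : Prop :=
  ∀ (K : Type u) [Field K] [NumberField K] (T : Finset (HeightOneSpectrum (𝓞 K)))
    (H : HeightOneSpectrum (𝓞 K) → Subgroup Kˣ),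
    (∀ v ∈ T, ∃ m : ℕ, principalUnits K v m ≤ H v) →
    (⨅ v ∈ T, H v).index = ∏ v ∈ T, (H v).index

/-- **Local leaf, weak form** (what the first inequality uses): the local norms have finite
index, divisible by `p` at the nonsplit places. -/
def LocalNormIndexGeStatement.{u, v} : Prop :=
  ∀ (K : Type u) [Field K] [NumberField K] (L : Type v) [Field L] [NumberField L]
    [Algebra K L] [IsGalois K L] (p : ℕ), p.Prime → Module.finrank K L = p →
    ∀ v : HeightOneSpectrum (𝓞 K),
      (locNorm K L v).index ≠ 0 ∧ (Nonsplit K L v → p ∣ (locNorm K L v).index)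

lemma localNormIndexGe_of_localNormIndex.{u, v} (h : LocalNormIndexStatement.{u, v}) :
    LocalNormIndexGeStatement.{u, v} := by
  intro K _ _ L _ _ _ _ p hp hdeg v
  obtain ⟨h1, h2⟩ := h K L p hp hdeg v
  by_cases hv : Nonsplit K L v
  · exact ⟨by rw [h1 hv]; exact hp.ne_zero, fun _ => by rw [h1 hv]⟩
  · exact ⟨by rw [h2 hv, Subgroup.index_top]; exact one_ne_zero, fun h => absurd h hv⟩

section closure

variable (K : Type*) [Field K] [NumberField K]

lemma principalUnits_anti (v : HeightOneSpectrum (𝓞 K)) {m m' : ℕ} (h : m ≤ m') :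
    principalUnits K v m' ≤ principalUnits K v m := by
  intro u hu
  rw [mem_principalUnits] at hu ⊢
  refine le_trans hu ?_
  rw [WithZero.exp_le_exp]
  omega

lemma le_vClosure (v : HeightOneSpectrum (𝓞 K)) (H : Subgroup Kˣ) : H ≤ vClosure K v H :=
  le_iInf fun _ => le_sup_left

lemma vClosure_le (v : HeightOneSpectrum (𝓞 K)) (H : Subgroup Kˣ) (m : ℕ) :
    vClosure K v H ≤ H ⊔ principalUnits K v m :=
  iInf_le _ m

/-- a subgroup whose `v`-adic closure has finite index has an open closure. -/
theorem exists_principalUnits_le_vClosure (v : HeightOneSpectrum (𝓞 K)) (H : Subgroup Kˣ)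
    (h : (vClosure K v H).index ≠ 0) : ∃ m : ℕ, principalUnits K v m ≤ vClosure K v H := by
  set N := (vClosure K v H).index with hN
  set c : ℕ → ℕ := fun m => (H ⊔ principalUnits K v m).index with hc
  have hcN : ∀ m, c m ∣ N := fun m => Subgroup.index_dvd_of_le (vClosure_le K v H m)
  have hc0 : ∀ m, c m ≠ 0 := fun m h0 => h (Nat.eq_zero_of_zero_dvd (h0 ▸ hcN m))
  have hcle : ∀ m, c m ≤ N := fun m => Nat.le_of_dvd (Nat.pos_of_ne_zero h) (hcN m)
  have hmono : ∀ {m m'}, m ≤ m' → c m ∣ c m' := fun {m m'} hmm =>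
    Subgroup.index_dvd_of_le (sup_le_sup_left (principalUnits_anti K v hmm) H)
  set m₀ := Function.argmin (fun m => N - c m) with hm₀
  have hmax : ∀ m, c m ≤ c m₀ := fun m => by
    have h1 : N - c m₀ ≤ N - c m := Function.argmin_le (fun m => N - c m) m
    have := hcle m
    have := hcle m₀
    omega
  refine ⟨m₀, ?_⟩
  refine le_trans (le_sup_right : principalUnits K v m₀ ≤ H ⊔ principalUnits K v m₀)
    (le_iInf fun m => ?_)
  -- `H ⊔ U_{m₀} = H ⊔ U_{max m m₀} ≤ H ⊔ U_m`
  have hle : H ⊔ principalUnits K v (max m m₀) ≤ H ⊔ principalUnits K v m₀ :=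
    sup_le_sup_left (principalUnits_anti K v (le_max_right m m₀)) H
  have hidx : c (max m m₀) = c m₀ :=
    le_antisymm (hmax _) (Nat.le_of_dvd (Nat.pos_of_ne_zero (hc0 _)) (hmono (le_max_right m m₀)))
  have heq : H ⊔ principalUnits K v m₀ ≤ H ⊔ principalUnits K v (max m m₀) := by
    rw [← Subgroup.relIndex_eq_one]
    have h1 := Subgroup.relIndex_mul_index hle
    change _ * c m₀ = c (max m m₀) at h1
    rw [hidx] at h1
    exact Nat.eq_of_mul_eq_mul_right (Nat.pos_of_ne_zero (hc0 m₀)) (by rw [h1, one_mul])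
  exact le_trans heq (sup_le_sup_left (principalUnits_anti K v (le_max_left m m₀)) H)

end closure

section main

variable (K : Type*) [Field K] [NumberField K]
variable (L : Type*) [Field L] [NumberField L] [Algebra K L]
variable (T : Finset (HeightOneSpectrum (𝓞 K)))

lemma normSubgroup_le_locNorm (v : HeightOneSpectrum (𝓞 K)) :
    normSubgroup K L ≤ locNorm K L v :=
  le_vClosure K v _

lemma normSubgroup_le_NT : normSubgroup K L ≤ NT K L T :=
  le_iInf fun v => le_iInf fun _ => normSubgroup_le_locNorm K L v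

lemma sUnitsNorm_range_le [IsGalois K L] :
    (sUnitsNorm K L T).range ≤ (NT K L T).subgroupOf (SUnits K T) := by
  rintro _ ⟨x, rfl⟩
  rw [Subgroup.mem_subgroupOf]
  apply normSubgroup_le_NT K L T
  exact ⟨(x : Lˣ), rfl⟩

/-- arithmetic core of the first inequality. -/
lemma first_ineq_arith {p n0 a b t I c d idx nt : ℕ} (hp : p.Prime) (hI : 0 < I) (htc : t ≤ c)
    (ha : a = I - 1 + c) (hb : b = I + c - t) (h0 : n0 * p ^ b = p ^ a)
    (hd : d ∣ n0) (hnt : d * idx = nt) (hpt : p ^ t ∣ nt) (hnt0 : nt ≠ 0) :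
    idx ≠ 0 ∧ p ∣ idx := by
  have hidx : idx ≠ 0 := by
    rintro rfl
    exact hnt0 (by rw [← hnt, mul_zero])
  refine ⟨hidx, ?_⟩
  have hn0 : n0 ∣ p ^ a := Dvd.intro _ h0
  obtain ⟨j, hja, rfl⟩ := (Nat.dvd_prime_pow hp).mp hn0
  rw [← pow_add] at h0
  have hjb : j + b = a := Nat.pow_right_injective hp.two_le h0
  have ht : t = j + 1 := by omega
  obtain ⟨i, hij, rfl⟩ := (Nat.dvd_prime_pow hp).mp hd
  rw [← hnt, ht] at hpt
  have h1 : p ^ (j + 1) = p ^ i * p ^ (j + 1 - i) := by
    rw [← pow_add]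
    congr 1
    omega
  rw [h1] at hpt
  have h2 : p ^ (j + 1 - i) ∣ idx :=
    (Nat.mul_dvd_mul_iff_left (pow_pos hp.pos i)).mp hpt
  refine dvd_trans ?_ h2
  exact dvd_pow_self p (by omega)

open scoped Classical in
/-- **The first inequality**, from the leaves. -/
theorem firstInequality_of_leaves.{u, v} (hWA : WeakApproxIndexStatement.{u})
    (hH1 : UnitsH1Statement.{u, v}) (hcnt : PlaceCountStatement.{u, v})
    (hloc : LocalNormIndexGeStatement.{u, v}) : FirstInequalityStatement.{u, v} := by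
  intro K _ _ L _ _ _ p T hcs
  haveI : IsGalois K L := hcs.galois
  have hpp := hcs.prime
  have hdeg := hcs.degree
  -- a generator of the Galois group
  have hcard : Nat.card (L ≃ₐ[K] L) = p := (IsGalois.card_aut_eq_finrank K L).trans hdeg
  haveI : Fact p.Prime := ⟨hpp⟩
  haveI : IsCyclic (L ≃ₐ[K] L) := isCyclic_of_prime_card hcard
  obtain ⟨σ, hσ⟩ := IsCyclic.exists_generator (α := L ≃ₐ[K] L)
  -- the Herbrand quotient of the units
  obtain ⟨h00, -, hform⟩ := unitPair_formula K L T hdeg σ hcnt hpp hcs.odd hσ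
  rw [unitPair_h1_eq_one K L T hdeg σ hH1 hcs hσ, one_mul,
    unitPair_h0 K L T hdeg σ hpp hσ] at hform
  -- the local indices
  have hopen : ∀ v ∈ T, ∃ m : ℕ, principalUnits K v m ≤ locNorm K L v := fun v _ =>
    exists_principalUnits_le_vClosure K v _ (hloc K L p hpp hdeg v).1
  have hNT : (NT K L T).index = ∏ v ∈ T, (locNorm K L v).index :=
    hWA K T (fun v => locNorm K L v) hopen
  have hNT0 : (NT K L T).index ≠ 0 := by
    rw [hNT]
    exact Finset.prod_ne_zero_iff.mpr fun v _ => (hloc K L p hpp hdeg v).1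
  have hpt : p ^ (T.filter (Nonsplit K L)).card ∣ (NT K L T).index := by
    rw [hNT, ← Finset.prod_const]
    refine dvd_trans (Finset.prod_dvd_prod_of_dvd _ _ fun v hv => ?_)
      (Finset.prod_dvd_prod_of_subset _ _ _ (Finset.filter_subset _ _))
    exact (hloc K L p hpp hdeg v).2 (Finset.mem_filter.mp hv).2
  -- index bookkeeping
  have hrel : (NT K L T).relIndex (SUnits K T) * normIdx K L T = (NT K L T).index := by
    unfold normIdx
    rw [← Subgroup.relIndex_sup_right (H := SUnits K T) (K := NT K L T)]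
    exact Subgroup.relIndex_mul_index le_sup_right
  have hd : (NT K L T).relIndex (SUnits K T) ∣ (sUnitsNorm K L T).range.index :=
    Subgroup.index_dvd_of_le (sUnitsNorm_range_le K L T)
  exact first_ineq_arith hpp Fintype.card_pos (Finset.card_filter_le _ _) rfl rfl hform hd hrel
    hpt hNT0

end main

end Fermat.Agent.H43.Cft
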