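import Mathlib
import Fermat.Agent.H43.Cft.FirstIneq

/-!
# The Hasse norm theorem for cyclic extensions of odd prime degree (index currency)

From the first and the second inequality: if `normIdx K L T = p` then the `T`-units which are
local norms at all places of `T` are norms of `T_L`-units; enlarging `T`, every element of `Kˣ`
which is a local norm everywhere is a global norm.
-/

open NumberField IsDedekindDomain NumberField.Units
open Fermat.Agent.H24

namespace Fermat.Agent.H43.Cft

/-- arithmetic core of the Hasse norm theorem for units. -/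
lemma hasse_arith {p n0 a b t I c d idx nt : ℕ} (hp : p.Prime) (hI : 0 < I) (htc : t ≤ c)
    (ha : a = I - 1 + c) (hb : b = I + c - t) (h0 : n0 * p ^ b = p ^ a)
    (hd : d ∣ n0) (hnt : d * idx = nt) (hpt : p ^ t ∣ nt) (hidx : idx ∣ p) :
    d = n0 := by
  have hn0 : n0 ∣ p ^ a := Dvd.intro _ h0
  obtain ⟨j, hja, rfl⟩ := (Nat.dvd_prime_pow hp).mp hn0
  rw [← pow_add] at h0
  have hjb : j + b = a := Nat.pow_right_injective hp.two_le h0
  have ht : t = j + 1 := by omega
  obtain ⟨i, hij, rfl⟩ := (Nat.dvd_prime_pow hp).mp hd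
  have h1 : p ^ t ∣ p ^ i * p := by
    rw [← hnt] at hpt
    exact dvd_trans hpt (Nat.mul_dvd_mul_left _ hidx)
  rw [← pow_succ, ht] at h1
  have h2 : j + 1 ≤ i + 1 := (Nat.pow_dvd_pow_iff_le_right hp.one_lt).mp h1
  have : i = j := by omega
  rw [this]

section main

variable (K : Type*) [Field K] [NumberField K]
variable (L : Type*) [Field L] [NumberField L] [Algebra K L]
variable (T : Finset (HeightOneSpectrum (𝓞 K)))

open scoped Classical in
/-- **Hasse norm theorem for `T`-units**: if the norm index is `p` (second inequality), a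
`T`-unit which is a local norm at all places of `T` is the norm of a `T_L`-unit. -/
theorem hasse_norm_units.{u, v} {K : Type u} [Field K] [NumberField K] {L : Type v} [Field L]
    [NumberField L] [Algebra K L] {T : Finset (HeightOneSpectrum (𝓞 K))} {p : ℕ}
    (hWA : WeakApproxIndexStatement.{u})
    (hH1 : UnitsH1Statement.{u, v}) (hcnt : PlaceCountStatement.{u, v})
    (hloc : LocalNormIndexGeStatement.{u, v}) (hcs : CyclicSetting K L p T)
    (hsec : normIdx K L T ∣ p) (x : Kˣ) (hxT : x ∈ SUnits K T) (hxN : x ∈ NT K L T) :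
    ∃ y : Lˣ, y ∈ SUnits L (primesAbove K L T) ∧ Algebra.norm K (y : L) = (x : K) := by
  haveI : IsGalois K L := hcs.galois
  have hpp := hcs.prime
  have hdeg := hcs.degree
  have hcard : Nat.card (L ≃ₐ[K] L) = p := (IsGalois.card_aut_eq_finrank K L).trans hdeg
  haveI : Fact p.Prime := ⟨hpp⟩
  haveI : IsCyclic (L ≃ₐ[K] L) := isCyclic_of_prime_card hcard
  obtain ⟨σ, hσ⟩ := IsCyclic.exists_generator (α := L ≃ₐ[K] L)
  obtain ⟨h00, -, hform⟩ := unitPair_formula K L T hdeg σ hcnt hpp hcs.odd hσ
  rw [unitPair_h1_eq_one K L T hdeg σ hH1 hcs hσ, one_mul,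
    unitPair_h0 K L T hdeg σ hpp hσ] at hform
  rw [unitPair_h0 K L T hdeg σ hpp hσ] at h00
  have hopen : ∀ v ∈ T, ∃ m : ℕ, principalUnits K v m ≤ locNorm K L v := fun v _ =>
    exists_principalUnits_le_vClosure K v _ (hloc K L p hpp hdeg v).1
  have hNT : (NT K L T).index = ∏ v ∈ T, (locNorm K L v).index :=
    hWA K T (fun v => locNorm K L v) hopen
  have hpt : p ^ (T.filter (Nonsplit K L)).card ∣ (NT K L T).index := by
    rw [hNT, ← Finset.prod_const]
    refine dvd_trans (Finset.prod_dvd_prod_of_dvd _ _ fun v hv => ?_)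
      (Finset.prod_dvd_prod_of_subset _ _ _ (Finset.filter_subset _ _))
    exact (hloc K L p hpp hdeg v).2 (Finset.mem_filter.mp hv).2
  have hrel : (NT K L T).relIndex (SUnits K T) * normIdx K L T = (NT K L T).index := by
    unfold normIdx
    rw [← Subgroup.relIndex_sup_right (H := SUnits K T) (K := NT K L T)]
    exact Subgroup.relIndex_mul_index le_sup_right
  have hle := sUnitsNorm_range_le K L T
  have hd : (NT K L T).relIndex (SUnits K T) ∣ (sUnitsNorm K L T).range.index :=
    Subgroup.index_dvd_of_le hle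
  have heq : (NT K L T).relIndex (SUnits K T) = (sUnitsNorm K L T).range.index :=
    hasse_arith hpp Fintype.card_pos (Finset.card_filter_le _ _) rfl rfl hform hd hrel hpt hsec
  -- equal finite index and inclusion give equality
  have hsub : (NT K L T).subgroupOf (SUnits K T) ≤ (sUnitsNorm K L T).range := by
    rw [← Subgroup.relIndex_eq_one]
    have h1 := Subgroup.relIndex_mul_index hle
    have h2 : ((NT K L T).subgroupOf (SUnits K T)).index = (sUnitsNorm K L T).range.index := heq
    rw [h2] at h1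
    exact Nat.eq_of_mul_eq_mul_right (Nat.pos_of_ne_zero h00) (by rw [h1, one_mul])
  have hx : (⟨x, hxT⟩ : SUnits K T) ∈ (NT K L T).subgroupOf (SUnits K T) := by
    rw [Subgroup.mem_subgroupOf]
    exact hxN
  obtain ⟨y, hy⟩ := hsub hx
  refine ⟨(y : Lˣ), y.2, ?_⟩
  have := congrArg (fun z : SUnits K T => ((z : Kˣ) : K)) hy
  exact this

end main

/-- `L/K` Galois of odd prime degree `p`, unramified outside `T₀ ⊇ {v ∣ p}` (no class number
hypothesis). -/
structure UnramSetting (K : Type*) [Field K] [NumberField K] (L : Type*) [Field L]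
    [NumberField L] [Algebra K L] (p : ℕ) (T₀ : Finset (HeightOneSpectrum (𝓞 K))) : Prop where
  prime : p.Prime
  odd : p ≠ 2
  galois : IsGalois K L
  degree : Module.finrank K L = p
  above_p : ∀ v : HeightOneSpectrum (𝓞 K), (p : 𝓞 K) ∈ v.asIdeal → v ∈ T₀
  unram : ∀ w : HeightOneSpectrum (𝓞 L), w.under (𝓞 K) ∉ T₀ →
    w.asIdeal.ramificationIdx (𝓞 K) = 1

lemma UnramSetting.cyclicSetting {K : Type*} [Field K] [NumberField K] {L : Type*} [Field L]
    [NumberField L] [Algebra K L] {p : ℕ} {T₀ T : Finset (HeightOneSpectrum (𝓞 K))}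
    (h : UnramSetting K L p T₀) (hT : T₀ ⊆ T) (hcl : ClTrivial K T) : CyclicSetting K L p T where
  prime := h.prime
  odd := h.odd
  galois := h.galois
  degree := h.degree
  above_p v hv := hT (h.above_p v hv)
  unram w hw := h.unram w fun h' => hw (hT h')
  cl := hcl

lemma CyclicSetting.unramSetting {K : Type*} [Field K] [NumberField K] {L : Type*} [Field L]
    [NumberField L] [Algebra K L] {p : ℕ} {T : Finset (HeightOneSpectrum (𝓞 K))}
    (h : CyclicSetting K L p T) : UnramSetting K L p T where
  prime := h.prime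
  odd := h.odd
  galois := h.galois
  degree := h.degree
  above_p := h.above_p
  unram := h.unram

/-- **G2-CL: the class groups of `K` and `L` become trivial after enlarging `T`.** -/
def ExistsClTrivialStatement.{u, v} : Prop :=
  ∀ (K : Type u) [Field K] [NumberField K] (L : Type v) [Field L] [NumberField L]
    [Algebra K L] (T₀ : Finset (HeightOneSpectrum (𝓞 K))),
    ∃ T : Finset (HeightOneSpectrum (𝓞 K)), T₀ ⊆ T ∧ ClTrivial K T ∧
      ClTrivial L (primesAbove K L T)

/-- **Hasse norm theorem** for Galois extensions of odd prime degree `p` (with `ζ_p ∈ K`):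
an element of `Kˣ` which is a local norm at every finite place is a global norm. -/
def HasseNormStatement.{u, v} : Prop :=
  ∀ (K : Type u) [Field K] [NumberField K] (L : Type v) [Field L] [NumberField L]
    [Algebra K L] (p : ℕ) (T₀ : Finset (HeightOneSpectrum (𝓞 K))),
    UnramSetting K L p T₀ → (∃ ζ : K, IsPrimitiveRoot ζ p) →
    ∀ x : Kˣ, (∀ v : HeightOneSpectrum (𝓞 K), x ∈ locNorm K L v) → x ∈ normSubgroup K L

lemma exists_finset_support {K : Type*} [Field K] [NumberField K] (x : Kˣ) :
    ∃ T₁ : Finset (HeightOneSpectrum (𝓞 K)), ∀ v ∉ T₁, v.valuation K (x : K) = 1 := by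
  classical
  have h1 := HeightOneSpectrum.Support.finite (𝓞 K) (x : K)
  have h2 := HeightOneSpectrum.Support.finite (𝓞 K) ((x⁻¹ : Kˣ) : K)
  refine ⟨h1.toFinset ∪ h2.toFinset, fun v hv => ?_⟩
  simp only [Finset.mem_union, Set.Finite.mem_toFinset, not_or] at hv
  obtain ⟨hv1, hv2⟩ := hv
  have h3 : v.valuation K (x : K) ≤ 1 := not_lt.mp hv1
  have h4 : v.valuation K ((x⁻¹ : Kˣ) : K) ≤ 1 := not_lt.mp hv2
  rw [Units.val_inv_eq_inv_val, map_inv₀] at h4
  have hx0 : v.valuation K (x : K) ≠ 0 := (Valuation.ne_zero_iff _).mpr x.ne_zero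
  have h5 : 1 ≤ v.valuation K (x : K) := by
    rwa [inv_le_one₀ (zero_lt_iff.mpr hx0)] at h4
  exact le_antisymm h3 h5

/-- **The Hasse norm theorem**, from the two inequalities and the leaves. -/
theorem hasseNorm_of_leaves.{u, v} (hWA : WeakApproxIndexStatement.{u})
    (hH1 : UnitsH1Statement.{u, v}) (hcnt : PlaceCountStatement.{u, v})
    (hloc : LocalNormIndexGeStatement.{u, v}) (hsec : SecondInequalityStatement.{u, v})
    (hcl : ExistsClTrivialStatement.{u, v}) : HasseNormStatement.{u, v} := by
  classical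
  intro K _ _ L _ _ _ p T₀ hus hζ x hx
  obtain ⟨T₁, hT₁⟩ := exists_finset_support x
  obtain ⟨T, hT, hclK, hclL⟩ := hcl K L (T₀ ∪ T₁)
  have hcs : CyclicSetting K L p T :=
    hus.cyclicSetting (fun v hv => hT (Finset.mem_union_left _ hv)) hclK
  have hxT : x ∈ SUnits K T := by
    rw [mem_sUnits_iff]
    intro v hv
    exact hT₁ v fun h => hv (hT (Finset.mem_union_right _ h))
  have hxN : x ∈ NT K L T := by
    unfold NT
    simp only [Subgroup.mem_iInf]
    exact fun v _ => hx v
  obtain ⟨y, -, hy⟩ := hasse_norm_units hWA hH1 hcnt hloc hcs (hsec K L p T hcs hζ hclL) x hxT hxN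
  exact ⟨y, Units.ext hy⟩

end Fermat.Agent.H43.Cft
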