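/-
P-CFT / [GA'] / row 939 GA-PAIR (helper43): interfaces of the leaves of the assembly of
`Fermat.Agent.H76.Cft.PairRealOfLayerStatement`.

Chain: `χ` an `S`-level character of `G_K` of order `p`; `M` := the layer of `χ`
(`LayerFieldStatement`); the primes `v₁ ≠ v₂` of `K` under `A₁`, `A₂` do not split in `M`
(`NonsplitOfMovesStatement`); `u` := `pairUnitFull`; the Brauer-S lift (helper76 [B5]) gives
`ζ ^ x = std(χ, u) / d b`; local triviality of `x` is translated to local triviality of the
standard cocycle (`MuLocDictStatement`: `μ_p`-descent on the local field `K ⊔ decField A`) and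
then to local norms (helper97 `LocTrivOfLocNormStatement`, `LocNormOfLocTrivStatement`).
-/
import Fermat.Agent.H76.Cft.PairInterfaces
import Fermat.Agent.H97.Hasse.Interfaces

set_option autoImplicit false

open NumberField IsDedekindDomain

namespace Fermat.Agent.H43.Cft

open Fermat.Agent.H54.Cft Fermat.Agent.H78.CFT Fermat.Agent.H97.Hasse

/-- **[PAIR-LAYER]** (Galois correspondence): a level character `χ` of `G_K` with `χ s = 1`
for some `s ∈ G_K` cuts out a Galois extension `M / K` of degree `p` inside `ℚ̄`: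
an element of `G_K` is killed by `χ` iff it fixes `M` pointwise. -/
def LayerFieldStatement : Prop :=
  ∀ (p : ℕ) [Fact p.Prime] (K : IntermediateField ℚ Qbar) (χ : GQ → ZMod p),
    IsAddCharOn K χ →
    (∃ F : IntermediateField ℚ Qbar, FiniteDimensional ℚ F ∧
      ∀ s ∈ F.fixingSubgroup, s ∈ K.fixingSubgroup → χ s = 0) →
    (∃ s ∈ K.fixingSubgroup, χ s = 1) →
    ∃ (M : IntermediateField K Qbar) (_ : FiniteDimensional K M) (_ : IsGalois K M),
      Module.finrank K M = p ∧
      ∀ g ∈ K.fixingSubgroup, (χ g = 0 ↔ ∀ x ∈ M, g x = x)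

/-- **[PAIR-NS]** (decomposition groups versus primes): if some element of the decomposition
group of the place `A` of `ℚ̄` in `G_K` moves the cyclic extension `M / K` of prime degree, then
the prime `v` of `K` under `A` does not split in `M`.  (Converse of helper97's
`SplitCaseStatement`.) -/
def NonsplitOfMovesStatement : Prop :=
  ∀ (p : ℕ) [Fact p.Prime] (K : IntermediateField ℚ Qbar) [NumberField K]
    (M : IntermediateField K Qbar) [FiniteDimensional K M] [IsGalois K M] [NumberField M],
    Module.finrank K M = p → ∀ (q : ℕ), q.Prime →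
    ∀ A : ValuationSubring Qbar, A.LiesOverPrime q → ∀ v : HeightOneSpectrum (𝓞 K),
      LiesOverHeightOne K A v →
      (∃ d : GQ, d ∈ A.decompositionSubgroup ℚ ∧ d ∈ K.fixingSubgroup ∧ ∃ x ∈ M, d x ≠ x) →
      Nonsplit K M v

/-- **[PAIR-MU]** (`μ_p`-descent at a place, dictionary): for `ζ_p ∈ K` a `ZMod p`-valued
2-cochain `x` of `G_K` is locally trivial at `A` in the sense of helper54 (coboundary of a level
`ZMod p`-valued cochain on `D_A ∩ G_K`) iff `ζ ^ x` is locally trivial at `A` in the sense of
helper97 (coboundary of a level `ℚ̄ˣ`-valued cochain on `Gal(ℚ̄ / K ⊔ decField A)`). -/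
def MuLocDictStatement : Prop :=
  ∀ (p : ℕ) [Fact p.Prime] (K : IntermediateField ℚ Qbar) (ζ : Qbarˣ),
    IsPrimitiveRoot (ζ : Qbar) p → (ζ : Qbar) ∈ K →
    ∀ (q : ℕ), q.Prime → ∀ A : ValuationSubring Qbar, A.LiesOverPrime q →
    ∀ x : GalL K × GalL K → ZMod p,
      (IsLocTrivAt K A x ↔ IsLocTrivAtE K A (zetaPow ζ x))

end Fermat.Agent.H43.Cft
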