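import Fermat.Agent.H43.Cft.FirstIneq
import Fermat.Agent.H65.Cft.WeakApprox
import Fermat.Agent.H68.PlaceCount
import Fermat.Agent.H97.Cft.UnitsH1

/-!
# The first inequality, with the global leaves discharged

Only the local leaf (`LocalNormIndexGeStatement`, implied by `LocalNormIndexStatement`) remains.
-/

namespace Fermat.Agent.H43.Cft

theorem weakApproxIndex.{u} : WeakApproxIndexStatement.{u} :=
  fun K _ _ T H hH => Fermat.Agent.H65.wa_index_iInf K T H hH

/-- **The first inequality** `p ∣ [Kˣ : O_T^× · NT(L,T)]`, from the local norm index
(weak form). -/
theorem firstInequality_of_localGe.{u, v} (hloc : LocalNormIndexGeStatement.{u, v}) :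
    FirstInequalityStatement.{u, v} :=
  firstInequality_of_leaves weakApproxIndex Fermat.Agent.H97.unitsH1
    Fermat.Agent.H68.placeCount hloc

/-- **The first inequality**, from the local norm index theorem. -/
theorem firstInequality_of_local.{u, v} (hloc : LocalNormIndexStatement.{u, v}) :
    FirstInequalityStatement.{u, v} :=
  firstInequality_of_localGe (localNormIndexGe_of_localNormIndex hloc)

end Fermat.Agent.H43.Cft
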