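/-
P-CFT GLOBAL (helper43): closed forms.

* `firstInequality : FirstInequalityStatement` — unconditional (`p ∣ [Kˣ : O_T^× NT]`).
* `hasseNorm_of_secondInequality : SecondInequalityStatement → HasseNormStatement` — the Hasse
  norm theorem for cyclic extensions of odd prime degree, with the second inequality as the only
  remaining hypothesis.
-/
import Fermat.Agent.H43.Cft.HasseNorm
import Fermat.Agent.H43.Cft.FirstIneqFinal
import Fermat.Agent.H88.Cft.LocNormIndex
import Fermat.Agent.H89.CftClTrivial

set_option autoImplicit false

namespace Fermat.Agent.H43.Cft

/-- **The first inequality**, unconditional. -/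
theorem firstInequality.{u, v} : FirstInequalityStatement.{u, v} :=
  firstInequality_of_localGe Fermat.Agent.H88.Cft.localNormIndexGe

/-- **The Hasse norm theorem** for cyclic extensions of odd prime degree `p` with `ζ_p ∈ K`, from
the second inequality. -/
theorem hasseNorm_of_secondInequality.{u, v} (hsec : SecondInequalityStatement.{u, v}) :
    HasseNormStatement.{u, v} :=
  hasseNorm_of_leaves weakApproxIndex Fermat.Agent.H97.unitsH1 Fermat.Agent.H68.placeCount
    Fermat.Agent.H88.Cft.localNormIndexGe hsec Fermat.Agent.H89.existsClTrivial

end Fermat.Agent.H43.Cft
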