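/-
P-CFT GLOBAL (helper43): **the Hasse norm theorem, unconditional**.

`hasseNorm : HasseNormStatement` — for `L/K` Galois of odd prime degree `p`, unramified outside a
finite set `T₀` containing the primes over `p`, with `ζ_p ∈ K`: an element of `Kˣ` which lies in
`locNorm K L v` (the `v`-adic closure of the global norms) for every prime `v` of `K` is a norm.
-/
import Fermat.Agent.H43.Cft.HasseNormFinal
import Fermat.Agent.H25.CFT.SecondInequalityUncond

set_option autoImplicit false

namespace Fermat.Agent.H43.Cft

/-- **The Hasse norm theorem** (cyclic of odd prime degree `p`, `ζ_p ∈ K`), unconditional. -/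
theorem hasseNorm.{u, v} : HasseNormStatement.{u, v} :=
  hasseNorm_of_secondInequality Fermat.Agent.H25.CFT.secondInequalityUncond

end Fermat.Agent.H43.Cft
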