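/-
P-CFT GLOBAL / [GA'] (helper43): REALISATION BY COUNTING, index currency ("REAL-p-IDX").

`pairUnit` : for a cyclic setting `L/K` of odd prime degree `p` (`ζ_p ∈ K`, `Cl_T(K) = Cl_T(L) = 0`)
and two distinct places `v₁ ≠ v₂ ∈ T` which do not split in `L`, there is a `T`-unit `u` of `K`
which is a local norm at every `v ∈ T ∖ {v₁, v₂}` and is NOT a local norm at `v₁` or at `v₂`.

Proof: `[Kˣ : NT] = [Kˣ : A] · p²` (weak approximation, local norm index), `A` = local norms at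
`T ∖ {v₁, v₂}`; if every `T`-unit in `A` were in `NT`, then `(O_T^× NT) ∩ A = NT` (modular law)
and `[Kˣ : NT] ≤ [Kˣ : O_T^× NT] · [Kˣ : A] = p · [Kˣ : A]`.
-/
import Fermat.Agent.H43.Cft.HasseNormUncond

set_option autoImplicit false

open NumberField IsDedekindDomain

namespace Fermat.Agent.H43.Cft

universe u v

/-- **REAL-p-IDX**: a `T`-unit which is a local norm at `T ∖ {v₁, v₂}` and not at both of
`v₁, v₂`. -/
theorem pairUnit (K : Type u) [Field K] [NumberField K] (L : Type v) [Field L] [NumberField L]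
    [Algebra K L] (p : ℕ) (T : Finset (HeightOneSpectrum (𝓞 K)))
    (hset : CyclicSetting K L p T) (hζ : ∃ ζ : K, IsPrimitiveRoot ζ p)
    (hcl : ClTrivial L (primesAbove K L T))
    (v₁ v₂ : HeightOneSpectrum (𝓞 K)) (h₁ : v₁ ∈ T) (h₂ : v₂ ∈ T) (h12 : v₁ ≠ v₂)
    (hns₁ : Nonsplit K L v₁) (hns₂ : Nonsplit K L v₂) :
    ∃ u : Kˣ, u ∈ SUnits K T ∧
      (∀ v ∈ T, v ≠ v₁ → v ≠ v₂ → u ∈ locNorm K L v) ∧
      (u ∉ locNorm K L v₁ ∨ u ∉ locNorm K L v₂) := by
  classical
  have := hset.galois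
  have hp := hset.prime
  have hloc := Fermat.Agent.H88.Cft.localNormIndex.{u, v} K L p hp hset.degree
  have hidx : ∀ v, (locNorm K L v).index ≠ 0 := fun v =>
    (Fermat.Agent.H88.Cft.localNormIndexGe.{u, v} K L p hp hset.degree v).1
  have hopen : ∀ v ∈ T, ∃ m : ℕ, principalUnits K v m ≤ locNorm K L v := fun v _ =>
    exists_principalUnits_le_vClosure K v _ (hidx v)
  set T₀ : Finset (HeightOneSpectrum (𝓞 K)) := (T.erase v₁).erase v₂ with hT₀
  set A : Subgroup Kˣ := ⨅ v ∈ T₀, locNorm K L v with hA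
  -- indices by weak approximation
  have hNTidx : (NT K L T).index = ∏ v ∈ T, (locNorm K L v).index :=
    weakApproxIndex K T (fun v => locNorm K L v) hopen
  have hAidx : A.index = ∏ v ∈ T₀, (locNorm K L v).index :=
    weakApproxIndex K T₀ (fun v => locNorm K L v) fun v hv =>
      hopen v (Finset.mem_of_mem_erase (Finset.mem_of_mem_erase hv))
  have hA0 : A.index ≠ 0 := by
    rw [hAidx]
    exact Finset.prod_ne_zero_iff.2 fun v _ => hidx v
  have hprod : ∏ v ∈ T, (locNorm K L v).index = p * p * A.index := by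
    have h2' : v₂ ∈ T.erase v₁ := Finset.mem_erase.2 ⟨fun h => h12 h.symm, h₂⟩
    rw [← Finset.mul_prod_erase T _ h₁, ← Finset.mul_prod_erase (T.erase v₁) _ h2',
      (hloc v₁).1 hns₁, (hloc v₂).1 hns₂, hAidx, mul_assoc]
  have hnorm : normIdx K L T = p :=
    Fermat.Agent.H25.CFT.normIdx_eq K L p T hset hζ hcl
  have hNTA : NT K L T ≤ A := by
    refine le_iInf₂ fun v hv => ?_
    exact iInf₂_le v (Finset.mem_of_mem_erase (Finset.mem_of_mem_erase hv))
  by_contra hcon
  push Not at hcon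
  -- every `T`-unit in `A` lies in `NT`
  have hle : SUnits K T ⊓ A ≤ NT K L T := by
    intro u hu
    obtain ⟨huS, huA⟩ := Subgroup.mem_inf.1 hu
    have huA' : ∀ v ∈ T, v ≠ v₁ → v ≠ v₂ → u ∈ locNorm K L v := by
      intro v hv hv1 hv2
      have hvT₀ : v ∈ T₀ := Finset.mem_erase.2 ⟨hv2, Finset.mem_erase.2 ⟨hv1, hv⟩⟩
      exact (Subgroup.mem_iInf.1 ((Subgroup.mem_iInf.1 huA) v)) hvT₀
    obtain ⟨hu1, hu2⟩ := hcon u huS huA'
    refine Subgroup.mem_iInf.2 fun v => Subgroup.mem_iInf.2 fun hv => ?_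
    by_cases hv1 : v = v₁
    · subst hv1; exact hu1
    by_cases hv2 : v = v₂
    · subst hv2; exact hu2
    exact huA' v hv hv1 hv2
  -- modular law
  have hmod : (SUnits K T ⊔ NT K L T) ⊓ A ≤ NT K L T := by
    intro x hx
    obtain ⟨hx1, hx2⟩ := Subgroup.mem_inf.1 hx
    obtain ⟨s, hs, n, hn, rfl⟩ := Subgroup.mem_sup.1 hx1
    have hsA : s ∈ A := by
      have : s = s * n * n⁻¹ := by group
      rw [this]
      exact A.mul_mem hx2 (A.inv_mem (hNTA hn))
    exact (NT K L T).mul_mem (hle (Subgroup.mem_inf.2 ⟨hs, hsA⟩)) hn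
  have h1 : (NT K L T).index ∣ ((SUnits K T ⊔ NT K L T) ⊓ A).index :=
    Subgroup.index_dvd_of_le hmod
  have h2 : ((SUnits K T ⊔ NT K L T) ⊓ A).index ≤ (SUnits K T ⊔ NT K L T).index * A.index :=
    Subgroup.index_inf_le
  have h3 : (SUnits K T ⊔ NT K L T).index = p := hnorm
  have h4 : ((SUnits K T ⊔ NT K L T) ⊓ A).index ≠ 0 := by
    intro h0
    have := Subgroup.index_inf_ne_zero (H := SUnits K T ⊔ NT K L T) (K := A)
      (by rw [h3]; exact hp.ne_zero) hA0
    exact this h0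
  have h5 : (NT K L T).index ≤ p * A.index :=
    (Nat.le_of_dvd (Nat.pos_of_ne_zero h4) h1).trans (h3 ▸ h2)
  rw [hNTidx, hprod] at h5
  have hApos : 0 < A.index := Nat.pos_of_ne_zero hA0
  have hp2 := hp.two_le
  have : p * p * A.index ≤ p * A.index := h5
  have h6 : p * A.index * 2 ≤ p * p * A.index := by
    have : p * A.index * 2 = 2 * (p * A.index) := by ring
    rw [this, mul_assoc p p]
    calc 2 * (p * A.index) ≤ p * (p * A.index) := Nat.mul_le_mul_right _ hp2
      _ = p * (p * A.index) := rfl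
  have h7 : 0 < p * A.index := Nat.mul_pos hp.pos hApos
  omega

end Fermat.Agent.H43.Cft
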