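/-
P-CFT GLOBAL / [GA'] (helper43): `pairUnitFull`, the index-currency input of [PAIR].

For `L/K` Galois of odd prime degree `p`, unramified outside a finite set `T₀` containing the
primes over `p` (NO class group hypothesis), `ζ_p ∈ K`, two distinct primes `v₁ ≠ v₂` of `K` which
do not split in `L`, and any finite set `Σ` of primes of `K`, there is `u ∈ Kˣ` such that

* (a) at EVERY prime `v ≠ v₁, v₂` the value of `u` is the value of a norm from `L`;
* (b) `u ∈ locNorm K L v` for every `v ∈ Σ`, `v ≠ v₁, v₂`;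
* (c) `u` is not a local norm at both `v₁` and `v₂`.
-/
import Fermat.Agent.H43.Cft.PairUnit

set_option autoImplicit false

open NumberField IsDedekindDomain

namespace Fermat.Agent.H43.Cft

universe u v

/-- An element of `locNorm K L v` has the value of a norm at `v`. -/
theorem exists_norm_valuation_eq_of_mem_locNorm {K : Type u} [Field K] [NumberField K]
    {L : Type v} [Field L] [NumberField L] [Algebra K L] {v : HeightOneSpectrum (𝓞 K)}
    {x : Kˣ} (hx : x ∈ locNorm K L v) :
    ∃ z : Lˣ, v.valuation K ((x : K) / Algebra.norm K (z : L)) = 1 := by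
  have h0 : x ∈ normSubgroup K L ⊔ principalUnits K v 0 := vClosure_le K v _ 0 hx
  obtain ⟨n, hn, e, he, rfl⟩ := Subgroup.mem_sup.1 h0
  obtain ⟨z, rfl⟩ := hn
  refine ⟨z, ?_⟩
  have he1 : v.valuation K (e : K) = 1 := by
    have hlt : v.valuation K ((e : K) - 1) < 1 := by
      refine lt_of_le_of_lt ((mem_principalUnits K).1 he) ?_
      rw [← WithZero.exp_zero, WithZero.exp_lt_exp]
      norm_num
    have h2 := Valuation.map_add_eq_of_lt_left (v.valuation K) (x := (1 : K))
      (y := (e : K) - 1) (by simpa using hlt)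
    simpa using h2
  have hz : (Algebra.norm K (z : L)) ≠ 0 := by
    exact (Units.map (Algebra.norm K : L →* K) z).ne_zero
  have : ((Units.map (Algebra.norm K : L →* K) z * e : Kˣ) : K) / Algebra.norm K (z : L)
      = (e : K) := by
    rw [Units.val_mul, Units.coe_map]
    show (Algebra.norm K) (z : L) * (e : K) / (Algebra.norm K) (z : L) = (e : K)
    field_simp
  rw [this, he1]

/-- **[PAIR], index currency.** -/
theorem pairUnitFull (K : Type u) [Field K] [NumberField K] (L : Type v) [Field L]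
    [NumberField L] [Algebra K L] (p : ℕ) (T₀ : Finset (HeightOneSpectrum (𝓞 K)))
    (hset : UnramSetting K L p T₀) (hζ : ∃ ζ : K, IsPrimitiveRoot ζ p)
    (v₁ v₂ : HeightOneSpectrum (𝓞 K)) (h12 : v₁ ≠ v₂)
    (hns₁ : Nonsplit K L v₁) (hns₂ : Nonsplit K L v₂)
    (Sig : Finset (HeightOneSpectrum (𝓞 K))) :
    ∃ u : Kˣ,
      (∀ v : HeightOneSpectrum (𝓞 K), v ≠ v₁ → v ≠ v₂ →
        ∃ z : Lˣ, v.valuation K ((u : K) / Algebra.norm K (z : L)) = 1) ∧
      (∀ v ∈ Sig, v ≠ v₁ → v ≠ v₂ → u ∈ locNorm K L v) ∧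
      ¬ (u ∈ locNorm K L v₁ ∧ u ∈ locNorm K L v₂) := by
  classical
  obtain ⟨T, hT, hclK, hclL⟩ :=
    Fermat.Agent.H89.existsClTrivial.{u, v} K L (T₀ ∪ Sig ∪ {v₁, v₂})
  have hT₀ : T₀ ⊆ T := fun v hv =>
    hT (Finset.mem_union_left _ (Finset.mem_union_left _ hv))
  have hSig : Sig ⊆ T := fun v hv =>
    hT (Finset.mem_union_left _ (Finset.mem_union_right _ hv))
  have h₁ : v₁ ∈ T := hT (Finset.mem_union_right _ (by simp))
  have h₂ : v₂ ∈ T := hT (Finset.mem_union_right _ (by simp))
  have hcs : CyclicSetting K L p T := hset.cyclicSetting hT₀ hclK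
  obtain ⟨u, huS, huT, hu12⟩ := pairUnit K L p T hcs hζ hclL v₁ v₂ h₁ h₂ h12 hns₁ hns₂
  refine ⟨u, fun v hv1 hv2 => ?_, fun v hv hv1 hv2 => huT v (hSig hv) hv1 hv2, ?_⟩
  · by_cases hvT : v ∈ T
    · exact exists_norm_valuation_eq_of_mem_locNorm (huT v hvT hv1 hv2)
    · refine ⟨1, ?_⟩
      have := (mem_sUnits_iff (K := K)).1 huS v hvT
      simpa using this
  · rintro ⟨ha, hb⟩
    rcases hu12 with h | h
    · exact h ha
    · exact h hb

end Fermat.Agent.H43.Cft
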