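/-
P-CFT / [GA'] / row 939 GA-PAIR (helper43): assembly of
`Fermat.Agent.H76.Cft.PairRealOfLayerStatement` (pair classes for a cyclic layer inside `ℚ_S`).
-/
import Fermat.Agent.H43.Cft.PairRealInterfaces
import Fermat.Agent.H43.Cft.PairUnitFull
import Fermat.Agent.H84.Hasse.UnramSettingExists
import Fermat.Agent.H27.Hasse.LocTrivOfLocNorm
import Fermat.Agent.H44.Hasse.SplitCase
import Fermat.Agent.H53.S14T.Profinite
import Fermat.Agent.H21.Cft.BridgeLevels
import Fermat.Agent.H54.Cft.KummerLevel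
import Fermat.Agent.H73.KummerRamKD2
import Fermat.Agent.H75.Inf2Galois

set_option autoImplicit false
set_option linter.unusedSectionVars false
set_option linter.style.haveILetI false

open NumberField IsDedekindDomain
open scoped Pointwise

namespace Fermat.Agent.H43.Cft

open Fermat.Agent.H54.Cft Fermat.Agent.H78.CFT Fermat.Agent.H97.Hasse Fermat.Agent.H61.CFT

/-! ### Places over the same prime -/

/-- Two places of `ℚ̄` over the same prime of `K` are conjugate under `G_K`. -/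
theorem samePlaceOver_of_liesOver (K : IntermediateField ℚ Qbar) [NumberField K]
    {A A' : ValuationSubring Qbar} {v : HeightOneSpectrum (𝓞 K)} {q : ℕ} (hq : q.Prime)
    (hA : A.LiesOverPrime q) (hv : LiesOverHeightOne K A v) (hv' : LiesOverHeightOne K A' v) :
    Fermat.Agent.H76.Cft.SamePlaceOver K A A' := by
  obtain ⟨ρ, hρK, hρ⟩ := Fermat.Agent.H53.transitiveStatement K A A' q hq hA
    (fun y hy => Fermat.Agent.H44.Hasse.mem_iff_of_liesOver K hv' hv y hy)
  refine ⟨ρ⁻¹, ?_, ?_⟩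
  · apply Subgroup.inv_mem
    rw [IntermediateField.mem_fixingSubgroup_iff]
    exact fun y hy => hρK y hy
  · ext x
    rw [ValuationSubring.mem_pointwise_smul_iff_inv_smul_mem, inv_inv]
    exact (hρ x).symm

/-! ### The layer of a character -/

section layer

variable {p : ℕ} [Fact p.Prime] (K : IntermediateField ℚ Qbar) (χ : GQ → ZMod p)

/-- The character `χ` as a homomorphism on `G_K`. -/
noncomputable def chiHom (hχ : IsAddCharOn K χ) : K.fixingSubgroup →* Multiplicative (ZMod p) where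
  toFun g := Multiplicative.ofAdd (χ (g : GQ))
  map_one' := by
    have h := hχ 1 (one_mem _) 1 (one_mem _)
    rw [mul_one] at h
    have h0 : χ (1 : GQ) = 0 := by
      have : χ (1 : GQ) + 0 = χ 1 + χ 1 := by rw [add_zero]; exact h
      exact (add_left_cancel this).symm
    show Multiplicative.ofAdd (χ ((1 : K.fixingSubgroup) : GQ)) = 1
    rw [Subgroup.coe_one, h0]
    rfl
  map_mul' g h := by
    show Multiplicative.ofAdd (χ ((g * h : K.fixingSubgroup) : GQ)) = _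
    rw [Subgroup.coe_mul, hχ _ g.2 _ h.2]
    rfl

theorem chiHom_apply (hχ : IsAddCharOn K χ) (g : K.fixingSubgroup) :
    Multiplicative.toAdd (chiHom K χ hχ g) = χ (g : GQ) := rfl

variable (M : IntermediateField K Qbar) [FiniteDimensional K M] [IsGalois K M]

/-- The kernel of `χ` on `G_K` is the kernel of the restriction to `M`. -/
theorem chi_eq_zero_iff_resEF (hker : ∀ g ∈ K.fixingSubgroup, (χ g = 0 ↔ ∀ x ∈ M, g x = x))
    (g : K.fixingSubgroup) : χ (g : GQ) = 0 ↔ resEF K M g = 1 := by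
  rw [hker g g.2, Fermat.Agent.H75.Inf2.resEF_eq_one_iff]
  exact ⟨fun h x => h x x.2, fun h x hx => h ⟨x, hx⟩⟩

/-- `g` acts on `M` as the `χ g`-th power of `s`, when `χ s = 1`. -/
theorem resEF_eq_pow (hχ : IsAddCharOn K χ)
    (hker : ∀ g ∈ K.fixingSubgroup, (χ g = 0 ↔ ∀ x ∈ M, g x = x))
    (s : K.fixingSubgroup) (hs : χ (s : GQ) = 1) (g : K.fixingSubgroup) :
    resEF K M g = resEF K M s ^ (χ (g : GQ)).val := by
  have h1 : χ ((((s ^ (χ (g : GQ)).val)⁻¹ * g : K.fixingSubgroup)) : GQ) = 0 := by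
    rw [← chiHom_apply K χ hχ, map_mul, map_inv, map_pow]
    rw [toAdd_mul, toAdd_inv, toAdd_pow, chiHom_apply, chiHom_apply, hs]
    simp
  have h2 := (chi_eq_zero_iff_resEF K χ M hker _).1 h1
  rw [map_mul, map_inv, map_pow, inv_mul_eq_one] at h2
  exact h2.symm

/-- The restriction of `s` generates `Gal(M/K)`. -/
theorem isGen_resEF (hχ : IsAddCharOn K χ)
    (hker : ∀ g ∈ K.fixingSubgroup, (χ g = 0 ↔ ∀ x ∈ M, g x = x))
    (s : K.fixingSubgroup) (hs : χ (s : GQ) = 1) : IsGen (resEF K M s) := by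
  refine ⟨orderOf_pos _, fun τ => ?_⟩
  obtain ⟨g, rfl⟩ := Fermat.Agent.H75.Inf2.resEF_surjective K M τ
  exact ⟨_, (resEF_eq_pow K χ M hχ hker s hs g).symm⟩

/-- The discrete logarithm of the restriction of `g` is `χ g`. -/
theorem dlog_resEF (hχ : IsAddCharOn K χ) (hdeg : Module.finrank K M = p)
    (hker : ∀ g ∈ K.fixingSubgroup, (χ g = 0 ↔ ∀ x ∈ M, g x = x))
    (s : K.fixingSubgroup) (hs : χ (s : GQ) = 1) (g : K.fixingSubgroup) :
    dlog (resEF K M s) (resEF K M g) = (χ (g : GQ)).val := by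
  have hgen := isGen_resEF K χ M hχ hker s hs
  have hord : orderOf (resEF K M s) = p :=
    (Fermat.Agent.H27.Hasse.orderOf_eq_finrank_of_isGen hgen).trans hdeg
  rw [resEF_eq_pow K χ M hχ hker s hs g, dlog_pow' hgen.1, hord]
  exact Nat.mod_eq_of_lt (ZMod.val_lt _)

/-- **The dictionary for the standard cocycle**: helper76's `stdCochain χ u` on `G_K` is the
inflation of helper61's standard cocycle of `M / K`. -/
theorem stdCochain_eq_inflE (hχ : IsAddCharOn K χ) (hdeg : Module.finrank K M = p)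
    (hker : ∀ g ∈ K.fixingSubgroup, (χ g = 0 ↔ ∀ x ∈ M, g x = x))
    (s : K.fixingSubgroup) (hs : χ (s : GQ) = 1) (u : Kˣ) (gh : GalL K × GalL K) :
    Fermat.Agent.H76.Cft.stdCochain (fun g : GalL K => χ (g : GQ))
        (unitsIncl K Qbar u) gh =
      inflE K M (stdCocycle (resEF K M s) (unitsIncl K M u)) gh := by
  have hgen := isGen_resEF K χ M hχ hker s hs
  have hord : orderOf (resEF K M s) = p :=
    (Fermat.Agent.H27.Hasse.orderOf_eq_finrank_of_isGen hgen).trans hdeg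
  apply Units.ext
  simp only [Fermat.Agent.H76.Cft.stdCochain, inflE, stdCocycle_apply, hord,
    dlog_resEF K χ M hχ hdeg hker s hs]
  simp only [map_pow, Units.val_pow_eq_pow_val]
  rfl

end layer

/-! ### The assembly -/

section assembly

/-- The primes of `K` over `S` lie in a finite set. -/
theorem exists_finset_over (S : Finset Nat.Primes) (K : Type) [Field K] [NumberField K] :
    ∃ Sig : Finset (HeightOneSpectrum (𝓞 K)), ∀ v : HeightOneSpectrum (𝓞 K),
      (∃ q ∈ S, (((q : ℕ) : ℕ) : 𝓞 K) ∈ v.asIdeal) → v ∈ Sig := by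
  classical
  set n : 𝓞 K := ∏ q ∈ S, (((q : ℕ) : ℕ) : 𝓞 K) with hn
  have hn0 : n ≠ 0 := by
    rw [hn, Finset.prod_ne_zero_iff]
    intro q _
    exact_mod_cast q.2.ne_zero
  have hfin : {v : HeightOneSpectrum (𝓞 K) | v.asIdeal ∣ Ideal.span {n}}.Finite :=
    Ideal.finite_factors (by simpa using hn0)
  refine ⟨hfin.toFinset, fun v ⟨q, hq, hqv⟩ => ?_⟩
  rw [Set.Finite.mem_toFinset, Set.mem_ofPred_eq, Ideal.dvd_span_singleton]
  obtain ⟨c, hc⟩ := Finset.dvd_prod_of_mem (fun q : Nat.Primes => (((q : ℕ) : ℕ) : 𝓞 K)) hq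
  rw [hn, hc]
  exact Ideal.mul_mem_right _ _ hqv

/-- A level function in the sense of helper76 is a level function for `lvlE`. -/
theorem isLvlFun₁_of_isLvlAll₁ (K : IntermediateField ℚ Qbar) {X : Type} {b : GalL K → X}
    (hb : Fermat.Agent.H76.Cft.IsLvlAll₁ K b) : IsLvlFun₁ (lvlE K) b := by
  obtain ⟨F, hF, hFb⟩ := hb
  haveI := hF
  obtain ⟨N, hN, hNF⟩ := Fermat.Agent.H21.Cft.exists_pullbackLevel_le K.fixingSubgroup.subtype F
  exact ⟨N, hN, fun g n hn => hFb g n (hNF hn)⟩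

set_option maxHeartbeats 1000000 in
set_option synthInstance.maxHeartbeats 400000 in
/-- **[GA-PAIR]** the pair classes of a cyclic layer, from the Brauer-S lift, the local norm
dictionary of helper97 and the three dictionary leaves. -/
theorem pairRealOfLayer_of (hB5 : Fermat.Agent.H76.Cft.BrauerSLiftStatement)
    (hLN1 : LocTrivOfLocNormStatement) (hLN2 : LocNormOfLocTrivStatement)
    (hLayer : LayerFieldStatement) (hNS : NonsplitOfMovesStatement)
    (hMu : MuLocDictStatement) : Fermat.Agent.H76.Cft.PairRealOfLayerStatement := by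
  intro p _ hp2 S hpS K χ hK hnorm hμ hχ hns A₁ A₂ hA₁ hA₂ h12
  have hp : p.Prime := Fact.out
  have hKfin : FiniteDimensional ℚ K := hK.1
  haveI : NumberField K :=
    { to_charZero := inferInstance, to_finiteDimensional := hKfin }
  obtain ⟨hadd, F, hF, hFχ⟩ := hχ
  -- an element of `G_K` with `χ = 1`
  obtain ⟨d₁, hd₁D, hd₁K, hd₁χ⟩ := hns A₁ hA₁
  obtain ⟨s, hs1⟩ : ∃ s : K.fixingSubgroup, χ (s : GQ) = 1 := by
    refine ⟨(⟨d₁, hd₁K⟩ : K.fixingSubgroup) ^ ((χ d₁)⁻¹).val, ?_⟩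
    rw [← chiHom_apply K χ hadd, map_pow, toAdd_pow, chiHom_apply]
    show ((χ d₁)⁻¹).val • χ d₁ = 1
    rw [nsmul_eq_mul, ZMod.natCast_zmod_val]
    exact inv_mul_cancel₀ hd₁χ
  -- a primitive root of unity
  obtain ⟨ζ₀, hζ₀⟩ := HasEnoughRootsOfUnity.exists_primitiveRoot Qbar p
  have hζK : ζ₀ ∈ K := hμ ζ₀ hζ₀.pow_eq_one
  obtain ⟨ζ, hζ⟩ : ∃ ζ : Qbarˣ, (ζ : Qbar) = ζ₀ := ⟨Units.mk0 ζ₀ (hζ₀.ne_zero hp.ne_zero), rfl⟩
  -- the layer
  obtain ⟨M, hMfin, hMgal, hdeg, hker⟩ := hLayer p K χ hadd ⟨F, hF.1, hFχ⟩ ⟨s, s.2, hs1⟩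
  haveI := hMfin
  haveI := hMgal
  haveI : NumberField M :=
    { to_charZero := inferInstance, to_finiteDimensional := FiniteDimensional.trans ℚ K M }
  have hσ : IsGen (resEF K M s) := isGen_resEF K χ M hadd hker s hs1
  -- the primes under `A₁`, `A₂`
  obtain ⟨v₁, hv₁, hpv₁⟩ := exists_heightOne_under K A₁ hp hA₁
  obtain ⟨v₂, hv₂, hpv₂⟩ := exists_heightOne_under K A₂ hp hA₂
  have hv12 : v₁ ≠ v₂ := by
    rintro rfl
    exact h12 (samePlaceOver_of_liesOver K hp hA₁ hv₁ hv₂)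
  have hmoves : ∀ A : ValuationSubring Qbar, A.LiesOverPrime p →
      ∃ d : GQ, d ∈ A.decompositionSubgroup ℚ ∧ d ∈ K.fixingSubgroup ∧ ∃ x ∈ M, d x ≠ x := by
    intro A hA
    obtain ⟨d, hdD, hdK, hdχ⟩ := hns A hA
    refine ⟨d, hdD, hdK, ?_⟩
    by_contra hno
    push Not at hno
    exact hdχ ((hker d hdK).2 hno)
  have hns₁ : Nonsplit K M v₁ := hNS p K M hdeg p hp A₁ hA₁ v₁ hv₁ (hmoves A₁ hA₁)
  have hns₂ : Nonsplit K M v₂ := hNS p K M hdeg p hp A₂ hA₂ v₂ hv₂ (hmoves A₂ hA₂)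
  obtain ⟨T₀, hT₀⟩ := Fermat.Agent.H84.Hasse.unramSettingExists K M p hp hp2 hdeg
  obtain ⟨Sig, hSig⟩ := exists_finset_over S K
  have hζ' : ∃ ζ' : K, IsPrimitiveRoot ζ' p :=
    ⟨⟨ζ₀, hζK⟩, IsPrimitiveRoot.coe_submonoidClass_iff.mp hζ₀⟩
  obtain ⟨u, hua, hub, huc⟩ := pairUnitFull K M p T₀ hT₀ hζ' v₁ v₂ hv12 hns₁ hns₂ Sig
  -- the hypothesis of the Brauer-S lift
  have hB5hyp : ∀ A : ValuationSubring Qbar, Fermat.Agent.H76.Cft.IsPlaceOutside S A →
      ∃ z : Qbarˣ, (∀ n ∈ K.fixingSubgroup, χ n = 0 → galU n z = z) ∧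
        Fermat.Agent.H76.Cft.IsUnitAt A
          (unitsIncl K Qbar u / Fermat.Agent.H76.Cft.sNorm p (s : GQ) z) := by
    rintro A ⟨q, hqS, hqA⟩
    obtain ⟨v, hv, hqv⟩ := exists_heightOne_under K A q.2 hqA
    have hne : ∀ v' : HeightOneSpectrum (𝓞 K), ((p : ℕ) : 𝓞 K) ∈ v'.asIdeal → v ≠ v' := by
      rintro v' hpv' rfl
      have h1 := hv _ hpv'
      have h2 : A.LiesOverPrime p := by
        show ((p : ℕ) : Qbar) ∈ A.nonunits
        have e : ((((p : ℕ) : 𝓞 K) : K) : Qbar) = ((p : ℕ) : Qbar) := by push_cast; rfl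
        rw [← e]
        exact h1
      have h3 := liesOverPrime_unique A hp q.2 h2 hqA
      apply hqS
      have h4 : q = ExtCitation.pPrime p := Subtype.ext h3.symm
      rw [h4]
      exact hpS
    obtain ⟨z, hz⟩ := hua v (hne v₁ hpv₁) (hne v₂ hpv₂)
    refine ⟨unitsIncl M Qbar z, fun n hn hχn => ?_, ?_⟩
    · apply Units.ext
      rw [coe_galU]
      exact (hker n hn).1 hχn _ (z : M).2
    · have h2 := Fermat.Agent.H73.KD2.valuation_eq_one_of_valuation_eq_one hv hz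
      have hnorm' := Fermat.Agent.H27.Hasse.norm_eq_prod_pow_lift K M hdeg hσ s rfl (z : M)
      have e : ((unitsIncl K Qbar u / Fermat.Agent.H76.Cft.sNorm p (s : GQ)
          (unitsIncl M Qbar z) : Qbarˣ) : Qbar) =
          ((((u : K) / Algebra.norm K (z : M) : K)) : Qbar) := by
        rw [Units.val_div_eq_div_val]
        have e1 : ((Fermat.Agent.H76.Cft.sNorm p (s : GQ) (unitsIncl M Qbar z) : Qbarˣ) : Qbar)
            = ((Algebra.norm K (z : M) : K) : Qbar) := by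
          rw [hnorm', Fermat.Agent.H76.Cft.sNorm, Units.coe_prod]
          rfl
        rw [e1]
        push_cast
        rfl
      constructor
      · rw [e, ← A.valuation_le_one_iff, h2]
      · rw [← A.valuation_le_one_iff, Units.val_inv_eq_inv_val, map_inv₀, e, h2, inv_one]
  obtain ⟨x, b, hxc, hxl, hbl, hxb⟩ := hB5 p hp2 S hpS K hK ζ (hζ ▸ hζ₀) (hζ ▸ hζK) χ
    ⟨hadd, F, hF, hFχ⟩ s s.2 hs1 (unitsIncl K Qbar u) (u : K).2 hB5hyp
  -- the class of `x` is the class of the standard cocycle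
  have hcoh : IsLvlCohomologous K (inflE K M (stdCocycle (resEF K M s) (unitsIncl K M u)))
      (zetaPow ζ x) := by
    refine ⟨b, isLvlFun₁_of_isLvlAll₁ K hbl, fun gh => ?_⟩
    obtain ⟨g, h⟩ := gh
    have h1 := hxb g h
    rw [stdCochain_eq_inflE K χ M hadd hdeg hker s hs1 u (g, h)] at h1
    show actU (g : GQ) (b h) * b g / b (g * h) = _ / ζ ^ (x (g, h)).val
    rw [h1]
    simp only [galU, actU]
    rw [div_div_cancel]
  refine ⟨x, hxc, hxl, ?_, ?_⟩
  · intro q hq A hA hn1 hn2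
    obtain ⟨v, hv, hqv⟩ := exists_heightOne_under K A q.2 hA
    have hv1 : v ≠ v₁ := by
      rintro rfl
      exact hn1 (samePlaceOver_of_liesOver K hp hA₁ hv₁ hv)
    have hv2 : v ≠ v₂ := by
      rintro rfl
      exact hn2 (samePlaceOver_of_liesOver K hp hA₂ hv₂ hv)
    have hu := hub v (hSig v ⟨q, hq, hqv⟩) hv1 hv2
    have h1 := hLN1 p K M hdeg (resEF K M s) hσ u q q.2 A hA v hv hu
    have h2 : IsLocTrivAtE K A (zetaPow ζ x) :=
      (hcoh.res (le_locFieldAt K A)).coboundary' h1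
    exact (hMu p K ζ (hζ ▸ hζ₀) (hζ ▸ hζK) q q.2 A hA x).2 h2
  · rintro ⟨h1, h2⟩
    apply huc
    constructor
    · have h3 := (hMu p K ζ (hζ ▸ hζ₀) (hζ ▸ hζK) p hp A₁ hA₁ x).1 h1
      have h4 : IsLocTrivAtE K A₁ (inflE K M (stdCocycle (resEF K M s) (unitsIncl K M u))) :=
        (hcoh.res (le_locFieldAt K A₁)).coboundary h3
      exact hLN2 p K M hdeg (resEF K M s) hσ u p hp A₁ hA₁ v₁ hv₁ h4
    · have h3 := (hMu p K ζ (hζ ▸ hζ₀) (hζ ▸ hζK) p hp A₂ hA₂ x).1 h2
      have h4 : IsLocTrivAtE K A₂ (inflE K M (stdCocycle (resEF K M s) (unitsIncl K M u))) :=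
        (hcoh.res (le_locFieldAt K A₂)).coboundary h3
      exact hLN2 p K M hdeg (resEF K M s) hσ u p hp A₂ hA₂ v₂ hv₂ h4

end assembly

end Fermat.Agent.H43.Cft
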