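/-
P-CFT / [GA'] (helper43): the realisation statement `PairRealCofStatement`, UNCONDITIONAL.

Leaves: helper88 `cofLayer` (cofinal cyclotomic layer), helper95 `brauerSLift_of` with helper96
`bsAlg` and helper73 `normElt` (Brauer-S lift), helper27 `locTrivOfLocNorm`, helper97
`locNormOfLocTriv_of`, helper2 `galBaseChange`, helper87 `normApprox`, helper44 `splitCase`,
helper89 `decClosed / decDense / decHensel` (local norm dictionary), helper64 `layerField`,
helper80 `nonsplitOfMoves`, helper73 `muLocDict` (dictionary leaves of row 939), helper84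
`unramSettingExists`, and `pairUnitFull` (first and second inequality, Hasse norm theorem).
-/
import Fermat.Agent.H43.Cft.PairReal
import Fermat.Agent.H64.CFT.PairLayer
import Fermat.Agent.H80.CFT.PairNonsplit
import Fermat.Agent.H73.Cft.PairMu
import Fermat.Agent.H95.Cft.BrauerSLift
import Fermat.Agent.H96.BsAlg.Core
import Fermat.Agent.H73.Cft.NormEltMain
import Fermat.Agent.H2.Hasse.GalBaseChange
import Fermat.Agent.H87.Hasse.NormApprox
import Fermat.Agent.H89.Hasse.DecField
import Fermat.Agent.H97.Hasse.Assembly
import Fermat.Agent.H88.Cft.CofLayer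

set_option autoImplicit false

namespace Fermat.Agent.H43.Cft

open Fermat.Agent.H97.Hasse

/-- **[B5]** the Brauer-S lift, unconditional. -/
theorem brauerSLift : Fermat.Agent.H76.Cft.BrauerSLiftStatement :=
  Fermat.Agent.H95.Cft.brauerSLift_of Fermat.Agent.H96.BsAlg.bsAlg
    Fermat.Agent.H73.NormElt.normElt

/-- **[LN, ⟸]** a local norm gives a locally trivial standard cocycle, unconditional. -/
theorem locTrivOfLocNormU : LocTrivOfLocNormStatement :=
  Fermat.Agent.H27.Hasse.locTrivOfLocNorm Fermat.Agent.H2.galBaseChange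
    Fermat.Agent.H2.galBaseChangeSplit Fermat.Agent.H89.Hasse.decClosed
    Fermat.Agent.H89.Hasse.decHensel

/-- **[LN, ⟹]** a locally trivial standard cocycle comes from a local norm, unconditional. -/
theorem locNormOfLocTrivU : LocNormOfLocTrivStatement :=
  locNormOfLocTriv_of Fermat.Agent.H2.galBaseChange
    (Fermat.Agent.H87.Hasse.normApprox Fermat.Agent.H89.Hasse.decClosed
      Fermat.Agent.H89.Hasse.decDense)
    (Fermat.Agent.H44.Hasse.splitCase Fermat.Agent.H89.Hasse.decClosed)

/-- **[GA-PAIR]** the pair classes of a cyclic layer inside `ℚ_S`, unconditional. -/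
theorem pairRealOfLayer : Fermat.Agent.H76.Cft.PairRealOfLayerStatement :=
  pairRealOfLayer_of brauerSLift locTrivOfLocNormU locNormOfLocTrivU
    Fermat.Agent.H64.layerField Fermat.Agent.H80.PairNS.nonsplitOfMoves
    Fermat.Agent.H73.PairMu.muLocDict

/-- **[GA']** realisation of the pair classes (cofinal form), unconditional. -/
theorem pairRealCof : Fermat.Agent.H76.Cft.PairRealCofStatement :=
  Fermat.Agent.H76.Cft.pairRealCof_of Fermat.Agent.H88.Cft.cofLayer pairRealOfLayer

end Fermat.Agent.H43.Cft
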