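/-
P-CFT GLOBAL / class module (helper43): ABSTRACT INTERFACE (Mathlib only).

A short exact sequence `0 → A → J → C → 0` of `Rep ℤ H` (`A = Lˣ`, `J` = semilocal module,
`C` = class module, `H = Gal(L/K)` a finite `p`-group) together with ELEMENTARY hypotheses on the
cyclic layers `V ◁ U ≤ H`, `[U : V] = p`:

* `h90`    : `H¹(U, A) = 0` for every subgroup `U`             (Hilbert 90);
* `h1J`    : `Ĥ⁻¹(U/V, J^V) = 0`                                (semilocal Hilbert 90);
* `hasse`  : `A^U ∩ N_{U/V} J^V ⊆ N_{U/V} A^V`                   (Hasse norm theorem);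
* `second` : `[J^U : A^U + N_{U/V} J^V]` divides `p`             (second inequality).

Output (rows CM-CHASE, CM-BRIDGE, CM-H1): `H¹(S, C) = 0` and `#H²(S, C) ∣ #S` for every
subgroup `S ≤ H`  (`ClassB1`).
-/
import Mathlib

set_option autoImplicit false

noncomputable section

namespace Fermat.Agent.H43.Cft

open CategoryTheory groupCohomology

/-- `m` is fixed by the subgroup `V`. -/
def IsFixedBy {H : Type} [Group H] (M : Rep ℤ H) (V : Subgroup H) (m : M) : Prop :=
  ∀ v ∈ V, M.ρ v m = m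

/-- The `σ`-norm `∑_{k < p} σ^k m`. -/
def sigmaNorm {H : Type} [Group H] (M : Rep ℤ H) (p : ℕ) (σ : H) (m : M) : M :=
  ∑ k ∈ Finset.range p, M.ρ (σ ^ k) m

/-- A cyclic layer of `H`: subgroups `V ≤ U`, `V` normal in `U` of index `p`, `σ ∈ U ∖ V`
(so `σ V` generates `U / V`). -/
structure IsLayer {H : Type} [Group H] (p : ℕ) (U V : Subgroup H) (σ : H) : Prop where
  le : V ≤ U
  normal : ∀ u ∈ U, ∀ v ∈ V, u * v * u⁻¹ ∈ V
  index : V.relIndex U = p
  mem : σ ∈ U
  notMem : σ ∉ V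

/-- The elementary layer hypotheses on `0 → A → J → C → 0` (`A = X.X₁`, `J = X.X₂`, `C = X.X₃`). -/
structure ClassLayerHyp {H : Type} [Group H] (X : ShortComplex (Rep ℤ H)) (p : ℕ) : Prop where
  /-- `H¹(U, A) = 0` for every subgroup `U`. -/
  h90 : ∀ (U : Subgroup H) (f : H → X.X₁),
    (∀ s ∈ U, ∀ t ∈ U, f (s * t) = X.X₁.ρ s (f t) + f s) →
    ∃ a : X.X₁, ∀ s ∈ U, f s = X.X₁.ρ s a - a
  /-- `Ĥ⁻¹(U/V, J^V) = 0`. -/
  h1J : ∀ (U V : Subgroup H) (σ : H), IsLayer p U V σ → ∀ j : X.X₂, IsFixedBy X.X₂ V j →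
    sigmaNorm X.X₂ p σ j = 0 → ∃ j' : X.X₂, IsFixedBy X.X₂ V j' ∧ j = X.X₂.ρ σ j' - j'
  /-- Hasse norm theorem: an element of `A^U` which is a norm from `J^V` is a norm from `A^V`. -/
  hasse : ∀ (U V : Subgroup H) (σ : H), IsLayer p U V σ → ∀ a : X.X₁, IsFixedBy X.X₁ U a →
    (∃ j : X.X₂, IsFixedBy X.X₂ V j ∧ sigmaNorm X.X₂ p σ j = X.f.hom a) →
    ∃ b : X.X₁, IsFixedBy X.X₁ V b ∧ sigmaNorm X.X₁ p σ b = a
  /-- Second inequality: `J^U / (A^U + N J^V)` is generated by one element (and killed by `p`). -/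
  second : ∀ (U V : Subgroup H) (σ : H), IsLayer p U V σ →
    ∃ j₀ : X.X₂, IsFixedBy X.X₂ U j₀ ∧ ∀ j : X.X₂, IsFixedBy X.X₂ U j →
      ∃ (k : ℤ) (a : X.X₁) (j' : X.X₂), IsFixedBy X.X₁ U a ∧ IsFixedBy X.X₂ V j' ∧
        j = k • j₀ + X.f.hom a + sigmaNorm X.X₂ p σ j'

/-- The elementary layer conclusions for a module `C`: `Ĥ⁻¹(U/V, C^V) = 0` and
`C^U / N C^V` is generated by one element. -/
structure ClassLayerOut {H : Type} [Group H] (C : Rep ℤ H) (p : ℕ) : Prop where
  h1C : ∀ (U V : Subgroup H) (σ : H), IsLayer p U V σ → ∀ c : C, IsFixedBy C V c →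
    sigmaNorm C p σ c = 0 → ∃ c' : C, IsFixedBy C V c' ∧ c = C.ρ σ c' - c'
  h2C : ∀ (U V : Subgroup H) (σ : H), IsLayer p U V σ →
    ∃ c₀ : C, IsFixedBy C U c₀ ∧ ∀ c : C, IsFixedBy C U c →
      ∃ (k : ℤ) (c' : C), IsFixedBy C V c' ∧ c = k • c₀ + sigmaNorm C p σ c'

/-- **(b1)**: `H¹(S, C) = 0` and `#H²(S, C) ∣ #S` for every subgroup `S`. -/
def ClassB1 {H : Type} [Group H] (C : Rep ℤ H) : Prop :=
  ∀ S : Subgroup H,
    Subsingleton (groupCohomology (Rep.res S.subtype C) 1) ∧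
    Finite (groupCohomology (Rep.res S.subtype C) 2) ∧
    Nat.card (groupCohomology (Rep.res S.subtype C) 2) ∣ Nat.card S

/-- The layer conclusions in Mathlib's cohomological language. -/
def ClassLayerCoh {H : Type} [Group H] (C : Rep ℤ H) (p : ℕ) : Prop :=
  ∀ (U : Type) [Group U] (ι : U →* H), Function.Injective ι →
    ∀ (N : Subgroup U) [N.Normal], N.index = p →
      Subsingleton (groupCohomology.H1 ((Rep.res ι C).quotientToInvariants N)) ∧
      Finite (groupCohomology.H2 ((Rep.res ι C).quotientToInvariants N)) ∧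
      Nat.card (groupCohomology.H2 ((Rep.res ι C).quotientToInvariants N)) ∣ p

/-! ### Row statements (pure algebra) -/

/-- **[CM-CHASE]** diagram chase: the layer hypotheses on `0 → A → J → C → 0` give the layer
conclusions for `C`. -/
def LayerChaseStatement : Prop :=
  ∀ (H : Type) [Group H] (X : ShortComplex (Rep.{0} ℤ H)), X.ShortExact → ∀ p : ℕ, p.Prime →
    ClassLayerHyp X p → ClassLayerOut X.X₃ p

/-- **[CM-BRIDGE]** from the elementary layer conclusions to Mathlib's cohomology of the cyclic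
quotient `U / N` with coefficients in `C^N`. -/
def LayerBridgeStatement : Prop :=
  ∀ (H : Type) [Group H] (C : Rep.{0} ℤ H) (p : ℕ), p.Prime →
    ClassLayerOut C p → ClassLayerCoh C p

/-- **[CM-H1]** `p`-group induction in degree 1: if `H¹` of every cyclic layer vanishes then
`H¹(U, C) = 0` for every subgroup. -/
def PGroupH1Statement : Prop :=
  ∀ (p : ℕ) [Fact p.Prime] (n : ℕ) (H : Type) [Group H] [Finite H] (C : Rep.{0} ℤ H),
    Nat.card H = p ^ n →
    (∀ (U : Type) [Group U] (ι : U →* H), Function.Injective ι →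
      ∀ (N : Subgroup U) [N.Normal], N.index = p →
        Subsingleton (groupCohomology.H1 ((Rep.res ι C).quotientToInvariants N))) →
    ∀ (U : Type) [Group U] (ι : U →* H), Function.Injective ι →
      Subsingleton (groupCohomology.H1 (Rep.res ι C))

end Fermat.Agent.H43.Cft

end
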