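/-
P-CFT GLOBAL / class module (helper43): ASSEMBLY of (b1) from the pure-algebra rows.

`classB1_of_parts` : the layer hypotheses `ClassLayerHyp X p` on `0 → A → J → C → 0` for a finite
`p`-group `H` give `H¹(S, C) = 0` and `#H²(S, C) ∣ #S` for every subgroup `S` (`ClassB1`).
-/
import Fermat.Agent.H43.Cft.ClassModule
import Fermat.Agent.H44.CFT.OrderBoundFinal

set_option autoImplicit false

namespace Fermat.Agent.H43.Cft

open CategoryTheory groupCohomology

/-- **(b1)** from the rows CM-CHASE, CM-BRIDGE, CM-H1. -/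
theorem classB1_of_parts (hchase : LayerChaseStatement) (hbridge : LayerBridgeStatement)
    (hH1 : PGroupH1Statement) (p : ℕ) [hp : Fact p.Prime] (n : ℕ) (H : Type) [Group H] [Finite H]
    (hcard : Nat.card H = p ^ n) (X : ShortComplex (Rep.{0} ℤ H)) (hX : X.ShortExact)
    (hyp : ClassLayerHyp X p) : ClassB1 X.X₃ := by
  have hcoh : ClassLayerCoh X.X₃ p := hbridge H X.X₃ p hp.out (hchase H X hX p hp.out hyp)
  have h1all : ∀ (U : Type) [Group U] (ι : U →* H), Function.Injective ι →
      Subsingleton (groupCohomology.H1 (Rep.res ι X.X₃)) :=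
    hH1 p n H X.X₃ hcard fun U _ ι hι N _ hN => (hcoh U ι hι N hN).1
  intro S
  refine ⟨h1all S S.subtype S.subtype_injective, ?_⟩
  -- `S` is a `p`-group
  have hS : Nat.card S ∣ p ^ n := hcard ▸ Subgroup.card_subgroup_dvd_card S
  obtain ⟨k, -, hk⟩ := (Nat.dvd_prime_pow hp.out).1 hS
  have h2 := Fermat.Agent.H44.CFT.pGroup_card_H2_dvd (k := ℤ)
    Fermat.Agent.H44.CFT.infRes2Middle p k S (Rep.res S.subtype X.X₃) hk
    (fun U _ ι hι => h1all U (S.subtype.comp ι) (S.subtype_injective.comp hι))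
    (fun U _ ι hι N _ hN =>
      (hcoh U (S.subtype.comp ι) (S.subtype_injective.comp hι) N hN).2)
  exact ⟨h2.1, hk ▸ h2.2⟩

end Fermat.Agent.H43.Cft
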