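/-
P-CFT / [TR], row 1077 KUM-B (helper43): the inverse dictionary LOCAL → FRAME in degree 2,
`Fermat.Agent.H76.Cft.FrameOfLocalStatement`.
-/
import Fermat.Agent.H76.Cft.KumInterfaces
import Fermat.Agent.H62.Cft.TraceDict
import Fermat.Agent.H21.Cft.BridgeLevels
import Fermat.Agent.H53.ES.CycloFrob

set_option autoImplicit false
set_option synthInstance.maxHeartbeats 400000
set_option linter.style.haveILetI false

namespace Fermat.Agent.H43.Cft

open Fermat.Agent.H13.Cft Fermat.Agent.H78.CFT Fermat.Agent.H81.Local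
open Fermat.Agent.H25.Recip Fermat.Agent.H62.Cft ExtCitation groupCohomology

/-- **[KUM-B]** a level twisted 2-cocycle on `G_{K_q}` is `locCoch q a` for a FRAME level
cocycle `a`. -/
theorem frameOfLocal : Fermat.Agent.H76.Cft.FrameOfLocalStatement := by
  intro p _ q c hc hcoc
  obtain ⟨N0, ⟨hN0n, hN0f, F, hF, hFN0⟩, hcN0⟩ := hc
  obtain ⟨F₁, hF₁, hχ⟩ := Fermat.Agent.H53.cycloChar_factorsThroughFiniteLevel p
  haveI := hF
  haveI := hF₁
  obtain ⟨N, hN, hNF⟩ :=
    Fermat.Agent.H21.Cft.exists_pullbackLevel_le (primeLocalToGlobal q) (F ⊔ F₁)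
  have hNmem : ∀ s ∈ N, primeLocalToGlobal q s ∈ F.fixingSubgroup ∧
      cycloChar p (primeLocalToGlobal q s) = 1 := by
    intro s hs
    have h1 := hNF hs
    rw [Subgroup.mem_comap, IntermediateField.fixingSubgroup_sup] at h1
    exact ⟨h1.1, hχ _ fun x hx => (IntermediateField.mem_fixingSubgroup_iff _ _).1 h1.2 x hx⟩
  have hN0mem : ∀ s ∈ N, locEquiv q s ∈ N0 := by
    intro s hs
    apply hFN0
    rw [Subgroup.mem_comap]
    exact (hNmem s hs).1
  let a0 : (Fin 2 → primeLocalGaloisGroup q) →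
      (Rep.res (primeLocalToGlobal q) (muRep (cycloChar p))) :=
    fun γ => c (locEquiv q (γ 0), locEquiv q (γ 1))
  have ha0 : a0 ∈ lvlCochains (pullbackLevelSys (primeLocalToGlobal q))
      (Rep.res (primeLocalToGlobal q) (muRep (cycloChar p))) 2 := by
    refine ⟨N, hN, fun g u hu => ?_, fun g s hs => ?_⟩
    · show c (locEquiv q ((g * u) 0), locEquiv q ((g * u) 1))
          = c (locEquiv q (g 0), locEquiv q (g 1))
      rw [Pi.mul_apply, Pi.mul_apply, map_mul, map_mul]
      exact hcN0 _ _ _ (hN0mem _ (hu 0)) _ (hN0mem _ (hu 1))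
    · rw [trd_mu_res_ρ, (hNmem s hs).2, Units.val_one, one_mul]
  refine ⟨⟨a0, ha0⟩, ?_, ?_⟩
  · apply Subtype.ext
    rw [lvlD_coe]
    funext g
    rw [trd_d2_apply, trd_mu_res_ρ]
    have h := hcoc (locEquiv q (g 0)) (locEquiv q (g 1)) (locEquiv q (g 2))
    show ((cycloChar p (primeLocalToGlobal q (g 0)) : (ZMod p)ˣ) : ZMod p) *
          c (locEquiv q (g 1), locEquiv q (g 2))
        - c (locEquiv q (g 0 * g 1), locEquiv q (g 2))
        + c (locEquiv q (g 0), locEquiv q (g 1 * g 2))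
        - c (locEquiv q (g 0), locEquiv q (g 1)) = (0 : ZMod p)
    rw [map_mul, map_mul]
    rw [coe_locEquiv] at h
    linear_combination (-1 : ZMod p) * h
  · funext x
    show c (locEquiv q ((locEquiv q).symm x.1), locEquiv q ((locEquiv q).symm x.2)) = c x
    rw [MulEquiv.apply_symm_apply, MulEquiv.apply_symm_apply]

end Fermat.Agent.H43.Cft
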